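import Fermat.Agent.DS.Cross

/-!
# Chebotarev's density theorem (Dirichlet density, lower bound, up to inversion)
-/

set_option autoImplicit false
set_option linter.style.haveILetI false
set_option linter.unusedSectionVars false

open scoped Classical nonZeroDivisors Topology Pointwise

namespace Fermat.Agent.DS

open NumberField Module IntermediateField Filter Fermat.Agent.CFT Fermat.Agent.H03 Fermat.Agent.ZC
  Fermat.Agent.H25 Ideal

noncomputable section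

variable (F : IntermediateField ℚ Qb) [NumberField F] [IsGalois ℚ F]

theorem exists_lower_class (g : Gal(F/ℚ)) {ε : ℝ} (hε : 0 < ε) :
    ∃ E : ℝ, ∀ᶠ s in 𝓝[>] (1 : ℝ), 2 * (1 - ε) * ell s - E ≤
      (Nat.card (Subgroup.centralizer {g} : Subgroup Gal(F/ℚ)) : ℝ) *
        (qsum (FrobSet g) s + qsum (FrobSet g⁻¹) s) := by
  obtain ⟨σ, rfl⟩ := AlgEquiv.restrictNormalHom_surjective (F := ℚ) (K₁ := F) Qb g
  obtain ⟨m, N, hN, κ₀, hm, hmB, hκ₀, hsurj, hcard⟩ :=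
    exists_kappa (n := Nat.card Gal(F/ℚ)) Nat.card_pos.ne' (discr F).natAbs hε
  haveI : NeZero m := ⟨hm.ne_zero⟩
  haveI : Finite (Multiplicative (ZMod N)) := inferInstanceAs (Finite (ZMod N))
  have hmF : ¬ (m : ℤ) ∣ discr F := by
    intro h
    have h1 := Nat.le_of_dvd (Int.natAbs_pos.mpr (discr_ne_zero F)) (Int.natCast_dvd.mp h)
    omega
  obtain ⟨E, hE⟩ := exists_lower_F F κ₀ hκ₀ hsurj hm hmF σ
  have hcN : Nat.card (Multiplicative (ZMod N)) = N := by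
    rw [Nat.card_congr Multiplicative.toAdd, Nat.card_zmod]
  have hN0 : (0 : ℝ) < N := by exact_mod_cast Nat.pos_of_ne_zero (NeZero.ne N)
  refine ⟨E / N, ?_⟩
  filter_upwards [hE, tendsto_ell.eventually_ge_atTop 0] with s hs hell
  rw [hcN] at hs
  set Q : ℝ := (Nat.card (Subgroup.centralizer {AlgEquiv.restrictNormalHom F σ} :
        Subgroup Gal(F/ℚ)) : ℝ) *
        (qsum (FrobSet (AlgEquiv.restrictNormalHom F σ)) s +
          qsum (FrobSet (AlgEquiv.restrictNormalHom F σ)⁻¹) s) with hQ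
  have h1 : 2 * (Nat.card {τ : Multiplicative (ZMod N) // Nat.card Gal(F/ℚ) ∣ orderOf τ} : ℝ) *
      ell s - E ≤ N * Q := by
    rw [hQ]
    linarith
  have h2 := mul_le_mul_of_nonneg_right hcard hell
  have h3 : N * (2 * (1 - ε) * ell s - E / N) ≤ N * Q := by
    have e : N * (2 * (1 - ε) * ell s - E / N) = 2 * ((1 - ε) * N * ell s) - E := by
      field_simp
    rw [e]
    linarith
  exact le_of_mul_le_mul_left h3 hN0

/-- two elements with the same Frobenius prime are conjugate -/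
theorem conj_of_frobSet {L : Type*} [Field L] [NumberField L] [IsGalois ℚ L] {p : ℕ}
    (hp : p.Prime) (hur : Algebra.IsUnramifiedIn (𝓞 L) (Ideal.span {(p : ℤ)}))
    {g h : Gal(L/ℚ)} (hg : p ∈ FrobSet g) (hh : p ∈ FrobSet h) :
    ∃ t : Gal(L/ℚ), h = t * g * t⁻¹ := by
  obtain ⟨P, hP, hPo, hφ⟩ := hg
  obtain ⟨P', hP', hPo', hφ'⟩ := hh
  obtain ⟨t, ht⟩ := Algebra.IsInvariant.exists_smul_of_under_eq ℤ (𝓞 L) Gal(L/ℚ) P P'
    (by rw [← Ideal.over_def P (Ideal.span {(p : ℤ)}), ← Ideal.over_def P' (Ideal.span {(p : ℤ)})])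
  refine ⟨t, ?_⟩
  have h1 := hφ.conj t
  rw [← ht] at h1
  exact frob_unique hp hur P' hφ' h1

theorem sum_frob_le {L : Type*} [Field L] [NumberField L] [IsGalois ℚ L] {p : ℕ}
    (hp : p.Prime) (hur : Algebra.IsUnramifiedIn (𝓞 L) (Ideal.span {(p : ℤ)}))
    (φ : Gal(L/ℚ) → ℝ) (h0 : ∀ g, 0 ≤ φ g) (hconj : ∀ g h, φ (h * g * h⁻¹) = φ g) {b : ℝ}
    (hb0 : 0 ≤ b) (hb : ∀ g, p ∈ FrobSet g → φ g ≤ b) :
    ∑ g : Gal(L/ℚ), φ g * (Nat.card (Subgroup.centralizer {g} : Subgroup Gal(L/ℚ)) : ℝ) *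
      (if p ∈ FrobSet g then 1 else 0) ≤ Nat.card Gal(L/ℚ) * b := by
  by_cases hex : ∃ g : Gal(L/ℚ), p ∈ FrobSet g
  · obtain ⟨g₀, hg₀⟩ := hex
    have hc : ∀ g : {g : Gal(L/ℚ) // p ∈ FrobSet g}, ∃ t : Gal(L/ℚ), g.1 = t * g₀ * t⁻¹ :=
      fun g => conj_of_frobSet hp hur hg₀ g.2
    choose t ht using hc
    have hcent : ∀ g : Gal(L/ℚ), p ∈ FrobSet g →
        Nat.card (Subgroup.centralizer {g} : Subgroup Gal(L/ℚ)) =
          Nat.card (Subgroup.centralizer {g₀} : Subgroup Gal(L/ℚ)) := by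
      intro g hg
      obtain ⟨r, hr⟩ := conj_of_frobSet hp hur hg₀ hg
      subst hr
      refine Nat.card_congr
        { toFun := fun y => ⟨r⁻¹ * y.1 * r, ?_⟩
          invFun := fun y => ⟨r * y.1 * r⁻¹, ?_⟩
          left_inv := fun y => Subtype.ext (by simp [mul_assoc])
          right_inv := fun y => Subtype.ext (by simp [mul_assoc]) }
      · have h1 := Subgroup.mem_centralizer_singleton_iff.mp y.2
        rw [Subgroup.mem_centralizer_singleton_iff]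
        calc r⁻¹ * y.1 * r * g₀ = r⁻¹ * (y.1 * (r * g₀ * r⁻¹)) * r := by group
          _ = r⁻¹ * (r * g₀ * r⁻¹ * y.1) * r := by rw [h1]
          _ = g₀ * (r⁻¹ * y.1 * r) := by group
      · have h1 := Subgroup.mem_centralizer_singleton_iff.mp y.2
        rw [Subgroup.mem_centralizer_singleton_iff]
        calc r * y.1 * r⁻¹ * (r * g₀ * r⁻¹) = r * (y.1 * g₀) * r⁻¹ := by group
          _ = r * (g₀ * y.1) * r⁻¹ := by rw [h1]
          _ = r * g₀ * r⁻¹ * (r * y.1 * r⁻¹) := by group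
    have hcount : Nat.card {g : Gal(L/ℚ) // p ∈ FrobSet g} *
        Nat.card (Subgroup.centralizer {g₀} : Subgroup Gal(L/ℚ)) ≤ Nat.card Gal(L/ℚ) := by
      rw [← Nat.card_prod]
      refine Nat.card_le_card_of_injective
        (fun q : {g : Gal(L/ℚ) // p ∈ FrobSet g} ×
          (Subgroup.centralizer {g₀} : Subgroup Gal(L/ℚ)) => t q.1 * q.2.1) ?_
      rintro ⟨g, c⟩ ⟨g', c'⟩ h
      have h1 : t g * c.1 = t g' * c'.1 := h
      have h2 : ∀ (g : {g : Gal(L/ℚ) // p ∈ FrobSet g})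
          (c : (Subgroup.centralizer {g₀} : Subgroup Gal(L/ℚ))),
          (t g * c.1) * g₀ * (t g * c.1)⁻¹ = g.1 := by
        intro g c
        have h3 := Subgroup.mem_centralizer_singleton_iff.mp c.2
        rw [ht g]
        calc (t g * c.1) * g₀ * (t g * c.1)⁻¹ = t g * (c.1 * g₀) * c.1⁻¹ * (t g)⁻¹ := by group
          _ = t g * (g₀ * c.1) * c.1⁻¹ * (t g)⁻¹ := by rw [h3]
          _ = t g * g₀ * (t g)⁻¹ := by group
      have h4 : g = g' := by
        apply Subtype.ext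
        rw [← h2 g c, ← h2 g' c', h1]
      subst h4
      rw [mul_left_cancel_iff] at h1
      exact Prod.ext rfl (Subtype.ext h1)
    have h3 : ∑ g : Gal(L/ℚ), φ g *
        (Nat.card (Subgroup.centralizer {g} : Subgroup Gal(L/ℚ)) : ℝ) *
        (if p ∈ FrobSet g then 1 else 0) =
        ∑ g : Gal(L/ℚ), (if p ∈ FrobSet g then φ g₀ *
          (Nat.card (Subgroup.centralizer {g₀} : Subgroup Gal(L/ℚ)) : ℝ) else 0) := by
      refine Finset.sum_congr rfl fun g _ => ?_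
      split_ifs with hg
      · obtain ⟨r, hr⟩ := conj_of_frobSet hp hur hg₀ hg
        rw [mul_one, hcent g hg, hr, hconj]
      · rw [mul_zero]
    rw [h3, ← Finset.sum_filter, Finset.sum_const, nsmul_eq_mul]
    have h4 : (Finset.univ.filter fun g : Gal(L/ℚ) => p ∈ FrobSet g).card =
        Nat.card {g : Gal(L/ℚ) // p ∈ FrobSet g} := by
      rw [Nat.card_eq_fintype_card, Fintype.card_subtype]
    rw [h4]
    have h5 : (Nat.card {g : Gal(L/ℚ) // p ∈ FrobSet g} : ℝ) *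
        (Nat.card (Subgroup.centralizer {g₀} : Subgroup Gal(L/ℚ)) : ℝ) ≤
        Nat.card Gal(L/ℚ) := by exact_mod_cast hcount
    calc (Nat.card {g : Gal(L/ℚ) // p ∈ FrobSet g} : ℝ) * (φ g₀ *
          (Nat.card (Subgroup.centralizer {g₀} : Subgroup Gal(L/ℚ)) : ℝ))
        = ((Nat.card {g : Gal(L/ℚ) // p ∈ FrobSet g} : ℝ) *
          (Nat.card (Subgroup.centralizer {g₀} : Subgroup Gal(L/ℚ)) : ℝ)) * φ g₀ := by ring
      _ ≤ Nat.card Gal(L/ℚ) * φ g₀ := mul_le_mul_of_nonneg_right h5 (h0 g₀)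
      _ ≤ Nat.card Gal(L/ℚ) * b := mul_le_mul_of_nonneg_left (hb g₀ hg₀) (Nat.cast_nonneg _)
  · push Not at hex
    rw [Finset.sum_eq_zero fun g _ => by rw [if_neg (hex g), mul_zero]]
    positivity

/-- **Chebotarev's density theorem**, lower bound for symmetric class functions. -/
theorem cheb (φ : Gal(F/ℚ) → ℝ) (h0 : ∀ g, 0 ≤ φ g) (hconj : ∀ g h, φ (h * g * h⁻¹) = φ g)
    (hinv : ∀ g, φ g⁻¹ = φ g) (b : ℕ → ℝ) (hb0 : ∀ p, 0 ≤ b p) (Z : Finset ℕ)
    (hb : ∀ p : ℕ, p.Prime → p ∉ Z → ∀ g, p ∈ FrobSet g → φ g ≤ b p)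
    (hsum : ∀ s : ℝ, 1 < s → Summable fun p : Nat.Primes => b p * (1 / ((p : ℕ) : ℝ) ^ s))
    {ε : ℝ} (hε : 0 < ε) :
    ∃ E : ℝ, ∀ᶠ s in 𝓝[>] (1 : ℝ),
      (1 - ε) * ((∑ g, φ g) / Nat.card Gal(F/ℚ)) * ell s - E ≤
        ∑' p : Nat.Primes, b p * (1 / ((p : ℕ) : ℝ) ^ s) := by
  have hG0 : (0 : ℝ) < Nat.card Gal(F/ℚ) := by exact_mod_cast Nat.card_pos
  choose E hE using fun g : Gal(F/ℚ) => exists_lower_class F g hε
  set W : Set ℕ := (Z : Set ℕ) ∪ ((discr F).natAbs.divisors : Set ℕ) with hW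
  obtain ⟨Cw, hCw⟩ := bddQ_finite (T := W) (Z.finite_toSet.union (Finset.finite_toSet _))
  have hE' : ∀ᶠ s in 𝓝[>] (1 : ℝ), ∀ g : Gal(F/ℚ), 2 * (1 - ε) * ell s - E g ≤
      (Nat.card (Subgroup.centralizer {g} : Subgroup Gal(F/ℚ)) : ℝ) *
        (qsum (FrobSet g) s + qsum (FrobSet g⁻¹) s) := eventually_all.mpr hE
  set M : ℝ := ∑ g : Gal(F/ℚ), φ g *
    (Nat.card (Subgroup.centralizer {g} : Subgroup Gal(F/ℚ)) : ℝ) with hM
  have hM0 : 0 ≤ M := Finset.sum_nonneg fun g _ => mul_nonneg (h0 g) (Nat.cast_nonneg _)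
  refine ⟨(∑ g, φ g * E g) / (2 * Nat.card Gal(F/ℚ)) + M * Cw / Nat.card Gal(F/ℚ), ?_⟩
  filter_upwards [hE', hCw, eventually_Ioc] with s h1 h2 hs
  -- the main comparison
  have hmain : ∑ g : Gal(F/ℚ), φ g *
      (Nat.card (Subgroup.centralizer {g} : Subgroup Gal(F/ℚ)) : ℝ) * qsum (FrobSet g) s ≤
      Nat.card Gal(F/ℚ) * ∑' p : Nat.Primes, b p * (1 / ((p : ℕ) : ℝ) ^ s) + M * qsum W s := by
    simp only [qsum]
    simp_rw [← tsum_mul_left]
    rw [← Summable.tsum_finsetSum fun g _ => (summable_qsum (FrobSet g) hs.1).mul_left _,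
      ← ((hsum s hs.1).mul_left _).tsum_add ((summable_qsum W hs.1).mul_left _)]
    refine Summable.tsum_le_tsum (fun p => ?_)
      (summable_sum fun g _ => (summable_qsum (FrobSet g) hs.1).mul_left _)
      (((hsum s hs.1).mul_left _).add ((summable_qsum W hs.1).mul_left _))
    have hp0 : 0 ≤ 1 / ((p : ℕ) : ℝ) ^ s := by positivity
    have e : ∀ g : Gal(F/ℚ), φ g *
        (Nat.card (Subgroup.centralizer {g} : Subgroup Gal(F/ℚ)) : ℝ) *
          (if (p : ℕ) ∈ FrobSet g then 1 / ((p : ℕ) : ℝ) ^ s else 0) =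
        φ g * (Nat.card (Subgroup.centralizer {g} : Subgroup Gal(F/ℚ)) : ℝ) *
          (if (p : ℕ) ∈ FrobSet g then 1 else 0) * (1 / ((p : ℕ) : ℝ) ^ s) := by
      intro g
      split_ifs <;> ring
    rw [Finset.sum_congr rfl fun g _ => e g, ← Finset.sum_mul]
    by_cases hpW : (p : ℕ) ∈ W
    · rw [if_pos hpW]
      have h3 : ∑ g : Gal(F/ℚ), φ g *
          (Nat.card (Subgroup.centralizer {g} : Subgroup Gal(F/ℚ)) : ℝ) *
          (if (p : ℕ) ∈ FrobSet g then 1 else 0) ≤ M := by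
        refine Finset.sum_le_sum fun g _ => ?_
        refine mul_le_of_le_one_right (mul_nonneg (h0 g) (Nat.cast_nonneg _)) ?_
        split_ifs <;> norm_num
      have h4 := mul_le_mul_of_nonneg_right h3 hp0
      have h5 : 0 ≤ (Nat.card Gal(F/ℚ) : ℝ) * (b p * (1 / ((p : ℕ) : ℝ) ^ s)) :=
        mul_nonneg hG0.le (mul_nonneg (hb0 p) hp0)
      linarith
    · rw [if_neg hpW, mul_zero, add_zero]
      rw [hW, Set.mem_union, not_or] at hpW
      have hdisc : ¬ ((p : ℕ) : ℤ) ∣ discr F := by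
        intro h
        apply hpW.2
        rw [Finset.mem_coe, Nat.mem_divisors]
        exact ⟨Int.natCast_dvd.mp h, Int.natAbs_ne_zero.mpr (discr_ne_zero F)⟩
      have hur : Algebra.IsUnramifiedIn (𝓞 F) (Ideal.span {((p : ℕ) : ℤ)}) :=
        (not_dvd_discr_iff_isUnramifiedIn F (𝓞 F) (Nat.prime_iff_prime_int.mp p.2)).mp hdisc
      have h3 := sum_frob_le p.2 hur φ h0 hconj (hb0 p) (hb p p.2 hpW.1)
      have h4 := mul_le_mul_of_nonneg_right h3 hp0
      rw [mul_assoc] at h4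
      exact h4
  -- symmetrization
  have hsym : ∑ g : Gal(F/ℚ), φ g *
      (Nat.card (Subgroup.centralizer {g} : Subgroup Gal(F/ℚ)) : ℝ) * qsum (FrobSet g⁻¹) s =
      ∑ g : Gal(F/ℚ), φ g *
      (Nat.card (Subgroup.centralizer {g} : Subgroup Gal(F/ℚ)) : ℝ) * qsum (FrobSet g) s := by
    rw [← Equiv.sum_comp (Equiv.inv Gal(F/ℚ))]
    refine Finset.sum_congr rfl fun g _ => ?_
    rw [Equiv.inv_apply, inv_inv, hinv]
    congr 3
    have e1 : (Subgroup.centralizer {g⁻¹} : Subgroup Gal(F/ℚ)) = Subgroup.centralizer {g} := by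
      ext z
      rw [Subgroup.mem_centralizer_singleton_iff, Subgroup.mem_centralizer_singleton_iff]
      constructor
      · intro h
        have := (show Commute z g⁻¹ from h).inv_right
        rw [inv_inv] at this
        exact this
      · intro h
        exact (show Commute z g from h).inv_right
    rw [e1]
  have h3 : ∑ g : Gal(F/ℚ), φ g * (2 * (1 - ε) * ell s - E g) ≤ 2 *
      ∑ g : Gal(F/ℚ), φ g *
      (Nat.card (Subgroup.centralizer {g} : Subgroup Gal(F/ℚ)) : ℝ) * qsum (FrobSet g) s := by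
    have h4 : 2 * ∑ g : Gal(F/ℚ), φ g *
      (Nat.card (Subgroup.centralizer {g} : Subgroup Gal(F/ℚ)) : ℝ) * qsum (FrobSet g) s =
      ∑ g : Gal(F/ℚ), (φ g *
      (Nat.card (Subgroup.centralizer {g} : Subgroup Gal(F/ℚ)) : ℝ) * qsum (FrobSet g) s + φ g *
      (Nat.card (Subgroup.centralizer {g} : Subgroup Gal(F/ℚ)) : ℝ) * qsum (FrobSet g⁻¹) s) := by
      rw [Finset.sum_add_distrib, hsym]
      ring
    rw [h4]
    refine Finset.sum_le_sum fun g _ => ?_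
    have := mul_le_mul_of_nonneg_left (h1 g) (h0 g)
    refine this.trans (le_of_eq (by ring))
  have h4 : ∑ g : Gal(F/ℚ), φ g * (2 * (1 - ε) * ell s - E g) =
      2 * (1 - ε) * ell s * (∑ g, φ g) - ∑ g, φ g * E g := by
    rw [Finset.mul_sum, ← Finset.sum_sub_distrib]
    refine Finset.sum_congr rfl fun g _ => ?_
    ring
  rw [h4] at h3
  have h5 := mul_le_mul_of_nonneg_left h2 hM0
  have h6 : 2 * (Nat.card Gal(F/ℚ) : ℝ) * ((1 - ε) * ((∑ g, φ g) / Nat.card Gal(F/ℚ)) * ell s -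
      ((∑ g, φ g * E g) / (2 * Nat.card Gal(F/ℚ)) + M * Cw / Nat.card Gal(F/ℚ))) =
      2 * (1 - ε) * ell s * (∑ g, φ g) - ∑ g, φ g * E g - 2 * (M * Cw) := by
    field_simp
    ring
  have h7 : 2 * (Nat.card Gal(F/ℚ) : ℝ) * ((1 - ε) * ((∑ g, φ g) / Nat.card Gal(F/ℚ)) * ell s -
      ((∑ g, φ g * E g) / (2 * Nat.card Gal(F/ℚ)) + M * Cw / Nat.card Gal(F/ℚ))) ≤
      2 * (Nat.card Gal(F/ℚ) : ℝ) * ∑' p : Nat.Primes, b p * (1 / ((p : ℕ) : ℝ) ^ s) := by
    rw [h6]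
    linarith
  exact le_of_mul_le_mul_left h7 (by positivity)

end

end Fermat.Agent.DS
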