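import Fermat.Agent.DS.Dirichlet

/-!
# Rankin's bound
-/

set_option autoImplicit false
set_option linter.style.haveILetI false

open CongruenceSubgroup ModularFormClass

namespace Fermat.Agent.DS

section mult

variable {N : ℕ} [NeZero N] {ε : ℕ → ℂ} {a : ℕ → ℂ}

/-- the Hecke relations away from `N` -/
def HR (N : ℕ) (ε a : ℕ → ℂ) : Prop :=
  ∀ p : ℕ, p.Prime → ¬ p ∣ N → ∀ n : ℕ,
    a (p * n) + ε p * (if p ∣ n then a (n / p) else 0) = a p * a n

theorem HR.pow_rec (h : HR N ε a) {p : ℕ} (hp : p.Prime) (hpN : ¬ p ∣ N) (k : ℕ) :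
    a (p ^ (k + 2)) = a p * a (p ^ (k + 1)) - ε p * a (p ^ k) := by
  have h1 := h p hp hpN (p ^ (k + 1))
  rw [if_pos (dvd_pow_self p (Nat.succ_ne_zero k)), ← pow_succ', pow_succ' p k,
    Nat.mul_div_cancel_left _ hp.pos] at h1
  rw [pow_succ' p k, ← h1]
  ring

theorem HR.mul_pow (h : HR N ε a) (h1 : a 1 = 1) {p : ℕ} (hp : p.Prime) (hpN : ¬ p ∣ N) {n : ℕ}
    (hn : ¬ p ∣ n) (k : ℕ) : a (p ^ k * n) = a (p ^ k) * a n := by
  induction k using Nat.twoStepInduction with
  | zero => rw [pow_zero, one_mul, h1, one_mul]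
  | one =>
    have h2 := h p hp hpN n
    rw [if_neg hn, mul_zero, add_zero] at h2
    rw [pow_one, h2]
  | more k ih1 ih2 =>
    have h2 := h p hp hpN (p ^ (k + 1) * n)
    rw [if_pos (Dvd.dvd.mul_right (dvd_pow_self p (Nat.succ_ne_zero k)) n), ← mul_assoc,
      ← pow_succ'] at h2
    have h3 : p ^ (k + 1) * n / p = p ^ k * n := by
      rw [pow_succ', mul_assoc, Nat.mul_div_cancel_left _ hp.pos]
    rw [h3, ih1, ih2] at h2
    rw [h.pow_rec hp hpN k]
    linear_combination h2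

theorem HR.mul_coprime (h : HR N ε a) (h1 : a 1 = 1) {m n : ℕ} (hmn : Nat.Coprime m n)
    (hm : Nat.Coprime m N) : a (m * n) = a m * a n := by
  induction m using Nat.recOnPosPrimePosCoprime generalizing n with
  | prime_pow p k hp hk =>
    have hpN : ¬ p ∣ N := by
      have := Nat.Coprime.coprime_dvd_left (dvd_pow_self p hk.ne') hm
      exact (Nat.Prime.coprime_iff_not_dvd hp).mp this
    have hpn : ¬ p ∣ n := by
      have := Nat.Coprime.coprime_dvd_left (dvd_pow_self p hk.ne') hmn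
      exact (Nat.Prime.coprime_iff_not_dvd hp).mp this
    exact h.mul_pow h1 hp hpN hpn k
  | zero =>
    -- `N = 1` and `n = 1`
    rw [Nat.coprime_zero_left] at hmn
    rw [hmn, mul_one, h1, mul_one]
  | one => rw [one_mul, h1, one_mul]
  | coprime b c hb hc hbc ihb ihc =>
    have hbN := Nat.Coprime.coprime_mul_right hm
    have hcN := Nat.Coprime.coprime_mul_left hm
    have hbn := Nat.Coprime.coprime_mul_right hmn
    have hcn := Nat.Coprime.coprime_mul_left hmn
    rw [mul_assoc, ihb (Nat.Coprime.mul_right hbc hbn) hbN, ihc hcn hcN, ihb hbc hbN, mul_assoc]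

end mult

theorem exp_le_one_sub {t : ℝ} (h0 : 0 ≤ t) (h1 : t ≤ 1 / 2) : Real.exp (-(2 * t)) ≤ 1 - t := by
  rw [Real.exp_neg, inv_le_comm₀ (Real.exp_pos _) (by linarith)]
  refine le_trans ?_ (Real.add_one_le_exp _)
  rw [inv_eq_one_div, div_le_iff₀ (by linarith)]
  nlinarith

/-- **Rankin's bound.** -/
theorem rankin {N : ℕ} [NeZero N] (ε : DirichletCharacter ℂ N) (f : CuspForm (Gamma1 N) 1)
    (hf₁ : qCoeff f 1 = 1)
    (hT : ∀ p : ℕ, p.Prime → ¬ p ∣ N → ∀ n : ℕ,
        qCoeff f (p * n) + ε (p : ZMod N) * (if p ∣ n then qCoeff f (n / p) else 0) =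
          qCoeff f p * qCoeff f n) :
    ∃ C : ℝ, ∀ s : ℝ, 1 < s → s ≤ 2 → ∀ P : Finset ℕ, (∀ p ∈ P, p.Prime ∧ ¬ p ∣ N) →
      ∑ p ∈ P, ‖qCoeff f p‖ ^ 2 * (p : ℝ) ^ (-s) ≤ Real.log (1 / (s - 1)) + C := by
  obtain ⟨C, hC0, hC⟩ := sum_sq_le f
  set a : ℕ → ℂ := fun n => qCoeff f n with ha
  have hHR : HR N (fun p => ε (p : ZMod N)) a := hT
  have hsq : Summable fun n : ℕ => 1 / (n : ℝ) ^ 2 := Real.summable_one_div_nat_pow.mpr one_lt_two
  refine ⟨Real.log (4 * C) + 2 * ∑' n : ℕ, 1 / (n : ℝ) ^ 2, fun s hs hs2 P hP => ?_⟩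
  have hs1 : 0 < s - 1 := by linarith
  -- summability
  have hterm : ∀ k : ℕ, 0 ≤ ‖a k‖ ^ 2 * (k : ℝ) ^ (-s) := fun k =>
    mul_nonneg (by positivity) (Real.rpow_nonneg (Nat.cast_nonneg k) _)
  have hpart := dyadic (b := fun n => ‖a n‖ ^ 2) (fun n => by positivity) hC0 hC hs hs2
  have hsum : Summable fun k : ℕ => ‖a k‖ ^ 2 * (k : ℝ) ^ (-s) :=
    summable_of_sum_range_le hterm hpart
  have htsum : ∑' k : ℕ, ‖a k‖ ^ 2 * (k : ℝ) ^ (-s) ≤ 4 * C / (s - 1) :=
    Real.tsum_le_of_sum_range_le hterm hpart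
  -- the multiplicative function
  set F : ℕ → ℝ := fun n => if Nat.Coprime n N then ‖a n‖ ^ 2 * (n : ℝ) ^ (-s) else 0 with hF
  have hF0 : ∀ n, 0 ≤ F n := fun n => by
    rw [hF]; simp only []; split_ifs
    · exact hterm n
    · exact le_rfl
  have hFle : ∀ n, F n ≤ ‖a n‖ ^ 2 * (n : ℝ) ^ (-s) := fun n => by
    rw [hF]; simp only []; split_ifs
    · exact le_rfl
    · exact hterm n
  have hFs : Summable F := Summable.of_nonneg_of_le hF0 hFle hsum
  have hF1 : F 1 = 1 := by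
    rw [hF]
    simp only [Nat.coprime_one_left_eq_true, if_true, Nat.cast_one, Real.one_rpow, mul_one]
    rw [ha]
    simp only []
    rw [hf₁, norm_one, one_pow]
  have hFmul : ∀ {m n : ℕ}, Nat.Coprime m n → F (m * n) = F m * F n := by
    intro m n hmn
    by_cases hm : Nat.Coprime m N
    · by_cases hn : Nat.Coprime n N
      · have h3 : Nat.Coprime (m * n) N := Nat.Coprime.mul_left hm hn
        rw [hF]
        simp only []
        rw [if_pos hm, if_pos hn, if_pos h3, hHR.mul_coprime hf₁ hmn hm, norm_mul, Nat.cast_mul,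
          Real.mul_rpow (Nat.cast_nonneg m) (Nat.cast_nonneg n)]
        ring
      · have h3 : ¬ Nat.Coprime (m * n) N := fun h => hn (Nat.Coprime.coprime_mul_left h)
        rw [hF]
        simp only []
        rw [if_neg hn, if_neg h3, mul_zero]
    · have h3 : ¬ Nat.Coprime (m * n) N := fun h => hm (Nat.Coprime.coprime_mul_right h)
      rw [hF]
      simp only []
      rw [if_neg hm, if_neg h3, zero_mul]
  have hFn : Summable fun n => ‖F n‖ := hFs.norm
  have heuler := EulerProduct.prod_filter_prime_tsum_eq_tsum_factoredNumbers hF1 hFmul hFn P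
  have hPf : P.filter Nat.Prime = P := Finset.filter_true_of_mem fun p hp => (hP p hp).1
  rw [hPf] at heuler
  have htot : ∏ p ∈ P, ∑' n : ℕ, F (p ^ n) ≤ 4 * C / (s - 1) := by
    rw [heuler]
    refine le_trans ?_ ((hFs.tsum_le_tsum hFle hsum).trans htsum)
    exact hFs.tsum_subtype_le F _ (fun n => hF0 n)
  -- the local factors
  have hlocal : ∀ p ∈ P, Real.exp (‖a p‖ ^ 2 * (p : ℝ) ^ (-s) - 2 * (1 / (p : ℝ) ^ 2)) ≤
      ∑' n : ℕ, F (p ^ n) := by
    intro p hp
    obtain ⟨hpp, hpN⟩ := hP p hp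
    have hp2 : (2 : ℝ) ≤ p := by exact_mod_cast hpp.two_le
    set x : ℝ := (p : ℝ) ^ (-s) with hx
    have hx0 : 0 ≤ x := Real.rpow_nonneg (by positivity) _
    have hxp : x ≤ 1 / (p : ℝ) := by
      rw [hx, Real.rpow_neg (by positivity), inv_eq_one_div]
      refine one_div_le_one_div_of_le (by positivity) ?_
      calc (p : ℝ) = (p : ℝ) ^ (1 : ℝ) := (Real.rpow_one _).symm
        _ ≤ (p : ℝ) ^ s := Real.rpow_le_rpow_of_exponent_le (by linarith) hs.le
    have hx12 : x ≤ 1 / 2 := hxp.trans (one_div_le_one_div_of_le (by norm_num) hp2)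
    have hFp : ∀ k : ℕ, F (p ^ k) = ‖a (p ^ k)‖ ^ 2 * x ^ k := by
      intro k
      have h3 : Nat.Coprime (p ^ k) N :=
        Nat.Coprime.pow_left k ((Nat.Prime.coprime_iff_not_dvd hpp).mpr hpN)
      rw [hF]
      simp only []
      rw [if_pos h3, hx, Nat.cast_pow, ← Real.rpow_natCast (p : ℝ) k,
        ← Real.rpow_mul (by positivity), ← Real.rpow_natCast _ k, ← Real.rpow_mul (by positivity),
        mul_comm (k : ℝ)]
    have hsp : Summable fun k => ‖a (p ^ k)‖ ^ 2 * x ^ k := by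
      have := hFs.comp_injective (Nat.pow_right_injective hpp.two_le)
      refine this.congr fun k => ?_
      exact hFp k
    have hloc := local_ineq (h := fun k => a (p ^ k)) (A := a p) (e := ε (p : ZMod N))
      (by simp only [pow_zero]; exact hf₁) (by simp only [pow_one])
      (DirichletCharacter.norm_le_one ε _) (fun k => hHR.pow_rec hpp hpN k) hx0 (by linarith) hsp
    rw [tsum_congr hFp]
    refine le_trans ?_ hloc
    rw [sub_eq_neg_add, Real.exp_add]
    refine mul_le_mul_of_nonneg_right ?_ (Real.exp_pos _).le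
    have hxx : x ^ 2 ≤ 1 / (p : ℝ) ^ 2 := by
      rw [← one_div_pow]
      exact pow_le_pow_left₀ hx0 hxp 2
    have h5 := exp_le_one_sub (t := x ^ 2) (by positivity) (by nlinarith)
    refine le_trans ?_ h5
    apply Real.exp_le_exp.mpr
    linarith
  have hprod : Real.exp (∑ p ∈ P, (‖a p‖ ^ 2 * (p : ℝ) ^ (-s) - 2 * (1 / (p : ℝ) ^ 2))) ≤
      4 * C / (s - 1) := by
    rw [Real.exp_sum]
    exact (Finset.prod_le_prod (fun p _ => (Real.exp_pos _).le) hlocal).trans htot
  have hlog := (Real.le_log_iff_exp_le (by positivity)).mpr hprod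
  rw [Finset.sum_sub_distrib, ← Finset.mul_sum] at hlog
  have h6 : ∑ p ∈ P, 1 / (p : ℝ) ^ 2 ≤ ∑' n : ℕ, 1 / (n : ℝ) ^ 2 :=
    hsq.sum_le_tsum _ fun n _ => by positivity
  have h7 : Real.log (4 * C / (s - 1)) = Real.log (1 / (s - 1)) + Real.log (4 * C) := by
    rw [← Real.log_mul (by positivity) (by positivity)]
    congr 1
    field_simp
  rw [h7] at hlog
  linarith

end Fermat.Agent.DS
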