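import Fermat.Agent.ZC.ChebBdd

/-!
# Counting degree one primes with a given Frobenius element
-/

set_option autoImplicit false
set_option linter.unusedSectionVars false
set_option linter.style.haveILetI false

namespace Fermat.Agent.DS

open NumberField Ideal MulAction Fermat.Agent.H25
open scoped Pointwise

variable {L : Type*} [Field L] [NumberField L] [IsGalois ℚ L]

/-- the primes over which `x` is a Frobenius element -/
def FrobSet (x : Gal(L/ℚ)) : Set ℕ :=
  {p | ∃ P : Ideal (𝓞 L), P.IsPrime ∧ P.LiesOver (span {(p : ℤ)}) ∧ IsArithFrobAt ℤ x P}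

theorem exists_frob {p : ℕ} (hp : p.Prime) (P : Ideal (𝓞 L)) [hP : P.IsPrime]
    [hPo : P.LiesOver (span {(p : ℤ)})] : ∃ φ : Gal(L/ℚ), IsArithFrobAt ℤ φ P := by
  have : Finite (𝓞 L ⧸ P) := Ideal.finiteQuotientOfFreeOfNeBot P (ne_bot_of_liesOver hp _)
  exact IsArithFrobAt.exists_of_isInvariant ℤ Gal(L/ℚ) P

theorem frob_unique {p : ℕ} (hp : p.Prime)
    (hur : Algebra.IsUnramifiedIn (𝓞 L) (span {(p : ℤ)})) (P : Ideal (𝓞 L)) [hP : P.IsPrime]
    [hPo : P.LiesOver (span {(p : ℤ)})] {φ φ' : Gal(L/ℚ)} (h : IsArithFrobAt ℤ φ P)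
    (h' : IsArithFrobAt ℤ φ' P) : φ = φ' := by
  have h1 := h.mul_inv_mem_inertia h'
  rw [inertia_eq_bot hp hur P, Subgroup.mem_bot, mul_inv_eq_one] at h1
  exact h1

open scoped Classical in
/-- **Counting**: if the Frobenius elements over `p` which lie in `⟨x⟩` are all equal to `x`, the
number of degree one primes of the fixed field of `x` is at most the order of the
centralizer of `x` divided by the order of `x`. -/
theorem ord_mul_idealCount_le {p : ℕ} (hp : p.Prime)
    (hur : Algebra.IsUnramifiedIn (𝓞 L) (span {(p : ℤ)})) (x : Gal(L/ℚ))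
    (hx : ∀ (P : Ideal (𝓞 L)) (φ : Gal(L/ℚ)), P.IsPrime → P.LiesOver (span {(p : ℤ)}) →
      IsArithFrobAt ℤ φ P → φ ∈ Subgroup.zpowers x → φ = x) :
    orderOf x * idealCount (fixF L (Subgroup.zpowers x)) p ≤
      if p ∈ FrobSet x then Nat.card (Subgroup.centralizer {x}) else 0 := by
  have hfin := finite_decIn (L := L) hp (Subgroup.zpowers x)
  rw [← Nat.card_zpowers, card_mul_idealCount hp hur (Subgroup.zpowers x)]
  rcases isEmpty_or_nonempty (DecIn L p (Subgroup.zpowers x)) with hemp | ⟨⟨P0⟩⟩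
  · rw [Nat.card_eq_zero.mpr (Or.inl hemp), mul_zero]
    exact Nat.zero_le _
  · have hfr : ∀ P : DecIn L p (Subgroup.zpowers x), IsArithFrobAt ℤ x P.1 := by
      intro P
      have h1 := P.2.1.1
      have h2 := P.2.1.2
      obtain ⟨φ, hφ⟩ := exists_frob hp P.1
      have h3 : φ ∈ Subgroup.zpowers x := P.2.2 hφ.mem_stabilizer
      have h4 := hx P.1 φ h1 h2 hφ h3
      exact h4 ▸ hφ
    have h1 := P0.2.1.1
    have h2 := P0.2.1.2
    have hmem : p ∈ FrobSet x := ⟨P0.1, h1, h2, hfr P0⟩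
    rw [if_pos hmem]
    have hstab : stabilizer Gal(L/ℚ) P0.1 = Subgroup.zpowers x :=
      frob_generates hp hur P0.1 x (hfr P0)
    have hdeg : inertiaDegIn (span {(p : ℤ)}) (𝓞 L) = Nat.card (Subgroup.zpowers x) := by
      have := isPrime_span hp
      rw [inertiaDegIn_eq_inertiaDeg (span {(p : ℤ)} : Ideal ℤ) P0.1 Gal(L/ℚ),
        ← card_stab hp hur P0.1, hstab]
    rw [hdeg, ← Nat.card_prod]
    -- elements of the centralizer moving `P0` to `P`
    have hg : ∀ P : DecIn L p (Subgroup.zpowers x), ∃ g : Gal(L/ℚ),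
        g ∈ Subgroup.centralizer {x} ∧ g • P0.1 = P.1 := by
      intro P
      have h3 := P.2.1.1
      have h4 := P.2.1.2
      obtain ⟨g, hg⟩ := Algebra.IsInvariant.exists_smul_of_under_eq ℤ (𝓞 L) Gal(L/ℚ) P0.1 P.1
        (by rw [← Ideal.over_def P0.1 (span {(p : ℤ)}), ← Ideal.over_def P.1 (span {(p : ℤ)})])
      refine ⟨g, ?_, hg.symm⟩
      have h5 := (hfr P0).conj g
      rw [← hg] at h5
      have h6 := frob_unique hp hur P.1 h5 (hfr P)
      rw [Subgroup.mem_centralizer_singleton_iff]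
      calc g * x = g * x * g⁻¹ * g := by rw [inv_mul_cancel_right]
        _ = x * g := by rw [h6]
    choose g hg1 hg2 using hg
    refine Nat.card_le_card_of_injective
      (fun q : Subgroup.zpowers x × DecIn L p (Subgroup.zpowers x) =>
        (⟨g q.2 * q.1, Subgroup.mul_mem _ (hg1 q.2) ?_⟩ : Subgroup.centralizer {x})) ?_
    · obtain ⟨k, hk⟩ := q.1.2
      rw [← hk, Subgroup.mem_centralizer_singleton_iff]
      exact ((Commute.refl x).zpow_left k).eq
    · rintro ⟨⟨y, hy⟩, P⟩ ⟨⟨y', hy'⟩, P'⟩ h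
      have h3 : g P * y = g P' * y' := congrArg Subtype.val h
      have h4 : ∀ z ∈ Subgroup.zpowers x, z • P0.1 = P0.1 := by
        intro z hz
        rw [← hstab] at hz
        exact hz
      have h5 : P = P' := by
        apply Subtype.ext
        rw [← hg2 P, ← hg2 P']
        have h6 := congrArg (fun z : Gal(L/ℚ) => z • P0.1) h3
        simp only [mul_smul] at h6
        rw [h4 y hy, h4 y' hy'] at h6
        exact h6
      subst h5
      have h6 : y = y' := mul_left_cancel h3
      subst h6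
      rfl

end Fermat.Agent.DS
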