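import Mathlib

/-!
# Most elements of `ℤ/n^k` have order divisible by `n`
-/

set_option autoImplicit false
set_option linter.style.haveILetI false

namespace Fermat.Agent.DS

open Finset

theorem dvd_of_forall_not_dvd {n k d g : ℕ} (hn : n ≠ 0) (h : n ^ (k + 1) = d * g)
    (hq : ∀ q : ℕ, q.Prime → q ∣ n → ¬ q ^ k ∣ g) : n ∣ d := by
  have hN : n ^ (k + 1) ≠ 0 := pow_ne_zero _ hn
  have hd : d ≠ 0 := by rintro rfl; rw [zero_mul] at h; exact hN h
  have hg : g ≠ 0 := by rintro rfl; rw [mul_zero] at h; exact hN h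
  rw [← Nat.factorization_le_iff_dvd hn hd, Finsupp.le_def]
  intro q
  by_cases hqp : q.Prime
  · by_cases hqn : q ∣ n
    · have h1 := congrArg (fun z => z.factorization q) h
      simp only [Nat.factorization_pow, Nat.factorization_mul hd hg, Finsupp.smul_apply,
        Finsupp.add_apply, smul_eq_mul] at h1
      have h2 : g.factorization q < k := by
        by_contra hcon
        push Not at hcon
        exact hq q hqp hqn ((hqp.pow_dvd_iff_le_factorization hg).mpr hcon)
      have h3 : 1 ≤ n.factorization q := by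
        rw [← hqp.dvd_iff_one_le_factorization hn]
        exact hqn
      nlinarith
    · rw [Nat.factorization_eq_zero_of_not_dvd hqn]
      exact Nat.zero_le _
  · rw [Nat.factorization_eq_zero_of_not_prime _ hqp]
    exact Nat.zero_le _

theorem card_bad_le {n k : ℕ} (hn : n ≠ 0) :
    (((range (n ^ (k + 1))).filter fun a => ¬ n ∣ n ^ (k + 1) / (n ^ (k + 1)).gcd a).card : ℝ) ≤
      n * (n ^ (k + 1) : ℕ) / 2 ^ k := by
  set N := n ^ (k + 1) with hN
  have hN0 : N ≠ 0 := pow_ne_zero _ hn
  have h1 : ((range N).filter fun a => ¬ n ∣ N / N.gcd a) ⊆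
      n.primeFactors.biUnion fun q => (range N).filter fun a => q ^ k ∣ a := by
    intro a ha
    rw [mem_filter] at ha
    rw [mem_biUnion]
    by_contra hcon
    push Not at hcon
    apply ha.2
    refine dvd_of_forall_not_dvd (g := N.gcd a) (k := k) hn
      (Nat.div_mul_cancel (Nat.gcd_dvd_left N a)).symm ?_
    intro q hq hqn hdvd
    refine hcon q (Nat.mem_primeFactors.mpr ⟨hq, hqn, hn⟩) ?_
    rw [mem_filter]
    exact ⟨ha.1, hdvd.trans (Nat.gcd_dvd_right N a)⟩
  have h2 : ∀ q ∈ n.primeFactors, (((range N).filter fun a => q ^ k ∣ a).card : ℝ) ≤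
      N / 2 ^ k := by
    intro q hq
    have hqp := Nat.prime_of_mem_primeFactors hq
    have hqd : q ^ k ∣ N := by
      rw [hN]
      exact (pow_dvd_pow_of_dvd (Nat.dvd_of_mem_primeFactors hq) k).trans (pow_dvd_pow n (by omega))
    obtain ⟨t, ht⟩ := hqd
    have hq0 : 0 < q ^ k := pow_pos hqp.pos k
    have h3 : ((range N).filter fun a => q ^ k ∣ a) ⊆ (range t).image fun b => q ^ k * b := by
      intro a ha
      rw [mem_filter, mem_range] at ha
      obtain ⟨b, rfl⟩ := ha.2
      rw [mem_image]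
      refine ⟨b, ?_, rfl⟩
      rw [mem_range]
      have := ha.1
      rw [ht] at this
      exact lt_of_mul_lt_mul_left this (Nat.zero_le _)
    have h4 : ((range N).filter fun a => q ^ k ∣ a).card ≤ t := by
      refine (card_le_card h3).trans (card_image_le.trans ?_)
      rw [card_range]
    have h5 : (N : ℝ) = (q : ℝ) ^ k * t := by rw [ht]; push_cast; rfl
    rw [h5, le_div_iff₀ (by positivity), mul_comm]
    have h6 : (2 : ℝ) ^ k ≤ (q : ℝ) ^ k :=
      pow_le_pow_left₀ (by norm_num) (by exact_mod_cast hqp.two_le) k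
    have h7 : (((range N).filter fun a => q ^ k ∣ a).card : ℝ) ≤ t := by exact_mod_cast h4
    exact mul_le_mul h6 h7 (Nat.cast_nonneg _) (by positivity)
  have h3 : (((range N).filter fun a => ¬ n ∣ N / N.gcd a).card : ℝ) ≤
      ∑ q ∈ n.primeFactors, (((range N).filter fun a => q ^ k ∣ a).card : ℝ) := by
    exact_mod_cast (card_le_card h1).trans card_biUnion_le
  refine h3.trans ((sum_le_sum h2).trans ?_)
  rw [sum_const, nsmul_eq_mul, mul_div_assoc]
  refine mul_le_mul_of_nonneg_right ?_ (by positivity)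
  have h4 : n.primeFactors.card ≤ n := by
    have h5 : n.primeFactors ⊆ (range (n + 1)).erase 0 := by
      intro q hq
      rw [mem_erase, mem_range]
      exact ⟨(Nat.prime_of_mem_primeFactors hq).ne_zero,
        Nat.lt_succ_of_le (Nat.le_of_dvd (Nat.pos_of_ne_zero hn) (Nat.dvd_of_mem_primeFactors hq))⟩
    refine (card_le_card h5).trans ?_
    rw [card_erase_of_mem (mem_range.mpr (Nat.succ_pos n)), card_range]
    omega
  exact_mod_cast h4

theorem exists_kappa {n : ℕ} (hn : n ≠ 0) (B : ℕ) {ε : ℝ} (hε : 0 < ε) :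
    ∃ (m : ℕ) (N : ℕ) (_ : NeZero N) (κ₀ : (ZMod m)ˣ →* Multiplicative (ZMod N)),
      m.Prime ∧ B < m ∧ κ₀ (-1) = 1 ∧ Function.Surjective κ₀ ∧
      (1 - ε) * N ≤ (Nat.card {τ : Multiplicative (ZMod N) // n ∣ orderOf τ} : ℝ) := by
  classical
  obtain ⟨k, hk⟩ : ∃ k : ℕ, (n : ℝ) / ε < 2 ^ k := pow_unbounded_of_one_lt _ (by norm_num)
  obtain ⟨k, hk1, hk⟩ : ∃ k : ℕ, 1 ≤ k ∧ (n : ℝ) / ε < 2 ^ k :=
    ⟨k + 1, by omega, hk.trans_le (pow_le_pow_right₀ (by norm_num) (by omega))⟩
  set N := n ^ (k + 1) with hN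
  have hN0 : N ≠ 0 := pow_ne_zero _ hn
  haveI : NeZero N := ⟨hN0⟩
  obtain ⟨m, hm, hmB, hm1⟩ := Nat.exists_prime_gt_modEq_one B (k := 2 * N) (by omega)
  haveI := Fact.mk hm
  have hdvd : 2 * N ∣ m - 1 := (Nat.modEq_iff_dvd' hm.one_lt.le).mp hm1.symm
  have hcard : Nat.card (ZMod m)ˣ = m - 1 := by
    rw [Nat.card_eq_fintype_card, ZMod.card_units]
  have hcyc : IsCyclic (ZMod m)ˣ := inferInstance
  have hNdvd : N ∣ Nat.card (ZMod m)ˣ := by
    rw [hcard]; exact (Dvd.intro_left 2 rfl).trans hdvd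
  let e := zmodCyclicMulEquiv hcyc
  let κ₀ : (ZMod m)ˣ →* Multiplicative (ZMod N) :=
    (AddMonoidHom.toMultiplicative (ZMod.castHom hNdvd (ZMod N)).toAddMonoidHom).comp
      e.symm.toMonoidHom
  have hsurj : Function.Surjective κ₀ := by
    intro y
    obtain ⟨z, hz⟩ := ZMod.castHom_surjective hNdvd (Multiplicative.toAdd y)
    refine ⟨e (Multiplicative.ofAdd z), ?_⟩
    change Multiplicative.ofAdd (ZMod.castHom hNdvd (ZMod N)
      (Multiplicative.toAdd (e.symm (e (Multiplicative.ofAdd z))))) = y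
    rw [MulEquiv.symm_apply_apply, toAdd_ofAdd, hz, ofAdd_toAdd]
  refine ⟨m, N, inferInstance, κ₀, hm, hmB, ?_, hsurj, ?_⟩
  · -- `-1` is an `N`-th power
    obtain ⟨u, hu⟩ := hcyc.exists_generator
    obtain ⟨t, ht⟩ := hdvd
    have hm2 : m ≠ 2 := by
      intro hm2
      have h1 : 2 * N ≤ m - 1 := Nat.le_of_dvd (by have := hm.two_le; omega)
        (by rw [ht]; exact Dvd.intro _ rfl)
      omega
    have hord : orderOf u = m - 1 := by
      rw [orderOf_eq_card_of_forall_mem_zpowers hu, hcard]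
    have hne : (-1 : (ZMod m)ˣ) ≠ 1 := by
      intro h
      have h1 : (-1 : ZMod m) = 1 := by
        have := congrArg Units.val h
        simpa using this
      haveI : Fact (2 < m) := ⟨lt_of_le_of_ne hm.two_le (Ne.symm hm2)⟩
      exact ZMod.neg_one_ne_one h1
    have h1 : u ^ (N * t) = -1 := by
      have h2 : (u ^ (N * t)) ^ 2 = 1 := by
        rw [← pow_mul, show N * t * 2 = 2 * N * t by ring, ← ht, ← hord, pow_orderOf_eq_one]
      have h3 : u ^ (N * t) ≠ 1 := by
        intro h
        have h4 := orderOf_dvd_of_pow_eq_one h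
        rw [hord, ht] at h4
        have h5 : 0 < N * t := by
          rw [Nat.pos_iff_ne_zero]
          intro h6
          have : m - 1 = 0 := by rw [ht, mul_assoc, h6, mul_zero]
          have := hm.two_le
          omega
        have := Nat.le_of_dvd h5 h4
        nlinarith
      have h4 : ((u ^ (N * t) : (ZMod m)ˣ) : ZMod m) ^ 2 = 1 := by
        rw [← Units.val_pow_eq_pow_val, h2, Units.val_one]
      rcases (mul_self_eq_one_iff.mp ((sq _).symm.trans h4)) with h5 | h5
      · exact absurd (Units.ext h5) h3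
      · exact Units.ext (by rw [h5]; simp)
    rw [← h1, mul_comm N t, pow_mul, map_pow]
    have h2 : Nat.card (Multiplicative (ZMod N)) = N := by
      rw [Nat.card_congr Multiplicative.toAdd, Nat.card_zmod]
    have h3 := pow_card_eq_one' (x := κ₀ (u ^ t))
    rwa [h2] at h3
  · have h1 : ((range N).filter fun a => n ∣ N / N.gcd a).card ≤
        Nat.card {τ : Multiplicative (ZMod N) // n ∣ orderOf τ} := by
      have h2 : ((range N).filter fun a => n ∣ N / N.gcd a).card =
          Nat.card {a // a ∈ (range N).filter fun a => n ∣ N / N.gcd a} := by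
        rw [Nat.card_eq_fintype_card, Fintype.card_coe]
      rw [h2]
      haveI : Finite (Multiplicative (ZMod N)) := inferInstanceAs (Finite (ZMod N))
      refine Nat.card_le_card_of_injective (fun a => (⟨Multiplicative.ofAdd (a.1 : ZMod N), ?_⟩ :
        {τ : Multiplicative (ZMod N) // n ∣ orderOf τ})) ?_
      · rw [orderOf_ofAdd_eq_addOrderOf, ZMod.addOrderOf_coe _ hN0]
        exact (mem_filter.mp a.2).2
      · rintro ⟨a, ha⟩ ⟨b, hb⟩ hab
        have h3 : (a : ZMod N) = b := Multiplicative.ofAdd.injective (congrArg Subtype.val hab)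
        rw [ZMod.natCast_eq_natCast_iff'] at h3
        rw [Nat.mod_eq_of_lt (mem_range.mp (mem_filter.mp ha).1),
          Nat.mod_eq_of_lt (mem_range.mp (mem_filter.mp hb).1)] at h3
        exact Subtype.ext h3
    have h2 := card_bad_le (k := k) hn
    rw [← hN] at h2
    have h3 := Finset.card_filter_add_card_filter_not (s := range N)
      (fun a => n ∣ N / N.gcd a)
    rw [card_range] at h3
    have h4 : (((range N).filter fun a => n ∣ N / N.gcd a).card : ℝ) +
        (((range N).filter fun a => ¬ n ∣ N / N.gcd a).card : ℝ) = N := by exact_mod_cast h3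
    have h1' : (((range N).filter fun a => n ∣ N / N.gcd a).card : ℝ) ≤
      (Nat.card {τ : Multiplicative (ZMod N) // n ∣ orderOf τ} : ℝ) := by exact_mod_cast h1
    have h5 : (n : ℝ) * (N : ℕ) / 2 ^ k ≤ ε * N := by
      rw [div_le_iff₀ (by positivity)]
      have h6 : (n : ℝ) ≤ ε * 2 ^ k := by
        rw [div_lt_iff₀ hε] at hk
        linarith
      have h7 : (0 : ℝ) ≤ N := Nat.cast_nonneg _
      nlinarith
    linarith

end Fermat.Agent.DS
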