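import Fermat.Agent.H25.Density
import Fermat.Agent.H05_Cyclo
import Fermat.Agent.H51.QbarGalois

/-!
# The cyclotomic character modulo `m`, and linear disjointness from the `m`-th cyclotomic field
-/

set_option autoImplicit false
set_option linter.style.haveILetI false

namespace Fermat.Agent.DS

open NumberField Module IntermediateField

/-- algebraic closure of `ℚ` -/
abbrev Qb : Type := AlgebraicClosure ℚ

/-- absolute Galois group of `ℚ` -/
abbrev GQ : Type := Qb ≃ₐ[ℚ] Qb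

theorem card_rootsOfUnity_Qb (m : ℕ) [NeZero m] : Nat.card (rootsOfUnity m Qb) = m := by
  have : NeZero (m : Qb) := ⟨Nat.cast_ne_zero.mpr (NeZero.ne m)⟩
  exact HasEnoughRootsOfUnity.natCard_rootsOfUnity Qb m

/-- the cyclotomic character modulo `m` -/
noncomputable def cyc (m : ℕ) [NeZero m] : GQ →* (ZMod m)ˣ :=
  MonoidHom.mk' (fun σ => modularCyclotomicCharacter Qb (card_rootsOfUnity_Qb m) (σ : Qb ≃+* Qb))
    (fun a b => by rw [← map_mul]; congr 1)

theorem cyc_spec {m : ℕ} [NeZero m] (σ : GQ) {x : Qb} (hx : x ^ m = 1) :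
    σ x = x ^ ((cyc m σ : (ZMod m)ˣ) : ZMod m).val := by
  have hx0 : x ≠ 0 := by
    rintro rfl
    rw [zero_pow (NeZero.ne m)] at hx
    exact zero_ne_one hx
  have ht : Units.mk0 x hx0 ∈ rootsOfUnity m Qb := by
    rw [mem_rootsOfUnity]
    ext
    simpa using hx
  have h1 := modularCyclotomicCharacter.spec Qb (card_rootsOfUnity_Qb m) (σ : Qb ≃+* Qb) ht
  exact h1

theorem exists_primitive (m : ℕ) [NeZero m] : ∃ ζ : Qb, IsPrimitiveRoot ζ m := by
  have : NeZero (m : Qb) := ⟨Nat.cast_ne_zero.mpr (NeZero.ne m)⟩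
  exact HasEnoughRootsOfUnity.exists_primitiveRoot Qb m

theorem cyc_eq_of {m : ℕ} [NeZero m] {ζ : Qb} (hζ : IsPrimitiveRoot ζ m) {σ : GQ} {k : ℕ}
    (hk : k.Coprime m) (h : σ ζ = ζ ^ k) : cyc m σ = ZMod.unitOfCoprime k hk := by
  rw [cyc_spec σ hζ.pow_eq_one, ← pow_mod_orderOf ζ k, ← hζ.eq_orderOf] at h
  have h1 := hζ.pow_inj (ZMod.val_lt _) (Nat.mod_lt _ (Nat.pos_of_ne_zero (NeZero.ne m))) h
  ext
  rw [ZMod.coe_unitOfCoprime, ← ZMod.natCast_zmod_val ((cyc m σ : (ZMod m)ˣ) : ZMod m), h1,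
    ZMod.natCast_mod]

theorem cyc_frob {m : ℕ} [NeZero m] {p : ℕ} (hp : p.Prime) (hpm : ¬ p ∣ m)
    {A : ValuationSubring Qb} (hA : A.LiesOverPrime p) {σ : GQ} (hσ : A.IsFrobeniusAt σ p)
    (h : p.Coprime m) : cyc m σ = ZMod.unitOfCoprime p h := by
  obtain ⟨ζ, hζ⟩ := exists_primitive m
  exact cyc_eq_of hζ h (H05.IsFrobeniusAt.apply_rootOfUnity hp hA hpm hσ hζ.pow_eq_one)

theorem cyc_surjective (m : ℕ) [NeZero m] : Function.Surjective (cyc m) := by
  intro u
  have hg : IsGalois ℚ Qb := H51.isGalois_Qbar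
  obtain ⟨ζ, hζ⟩ := exists_primitive m
  have hcop : (u : ZMod m).val.Coprime m := ZMod.val_coe_unit_coprime u
  have hζ' : IsPrimitiveRoot (ζ ^ (u : ZMod m).val) m := hζ.pow_of_coprime _ hcop
  have hm : 0 < m := Nat.pos_of_ne_zero (NeZero.ne m)
  have h1 : minpoly ℚ ζ = minpoly ℚ (ζ ^ (u : ZMod m).val) := by
    rw [← Polynomial.cyclotomic_eq_minpoly_rat hζ hm,
      ← Polynomial.cyclotomic_eq_minpoly_rat hζ' hm]
  obtain ⟨σ, hσ⟩ := minpoly.exists_algEquiv_of_root' (K := ℚ) (L := Qb)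
    (x := ζ ^ (u : ZMod m).val) (y := ζ) (Algebra.IsAlgebraic.isAlgebraic _) (by
      rw [h1]; exact minpoly.aeval ℚ _)
  refine ⟨σ, ?_⟩
  rw [cyc_eq_of hζ hcop hσ]
  ext
  rw [ZMod.coe_unitOfCoprime, ZMod.natCast_zmod_val]

section disjoint

theorem inf_eq_bot_of_coprime (F E : IntermediateField ℚ Qb) [NumberField F]
    [NumberField E] (h : IsCoprime (discr F) (discr E)) : F ⊓ E = ⊥ := by
  haveI : FiniteDimensional ℚ ↥(F ⊓ E) :=
    Module.Finite.of_injective (inclusion (inf_le_left : F ⊓ E ≤ F)).toLinearMap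
      (inclusion (inf_le_left : F ⊓ E ≤ F)).injective
  haveI : NumberField ↥(F ⊓ E) :=
    { to_charZero := inferInstance, to_finiteDimensional := inferInstance }
  letI a1 : Algebra ↥(F ⊓ E) F := (inclusion (inf_le_left : F ⊓ E ≤ F)).toRingHom.toAlgebra
  letI a2 : Algebra ↥(F ⊓ E) E := (inclusion (inf_le_right : F ⊓ E ≤ E)).toRingHom.toAlgebra
  have h1 : discr ↥(F ⊓ E) ∣ discr F := discr_dvd_discr _ _
  have h2 : discr ↥(F ⊓ E) ∣ discr E := discr_dvd_discr _ _
  have h3 : IsUnit (discr ↥(F ⊓ E)) := h.isUnit_of_dvd' h1 h2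
  by_contra hne
  have h4 : 1 < finrank ℚ ↥(F ⊓ E) := by
    refine Nat.one_lt_iff_ne_zero_and_ne_one.mpr ⟨finrank_pos.ne', ?_⟩
    rwa [ne_eq, IntermediateField.finrank_eq_one_iff]
  exact Int.isUnit_iff_abs_eq.not.mpr (by linarith [abs_discr_gt_two h4]) h3

theorem sup_eq_top_of_inf_eq_bot (F E : IntermediateField ℚ Qb) [FiniteDimensional ℚ F]
    (h : F ⊓ E = ⊥) : F.fixingSubgroup ⊔ E.fixingSubgroup = ⊤ := by
  have hg : IsGalois ℚ Qb := H51.isGalois_Qbar
  have ho : IsOpen ((F.fixingSubgroup ⊔ E.fixingSubgroup : Subgroup GQ) : Set GQ) :=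
    Subgroup.isOpen_mono le_sup_left (IntermediateField.fixingSubgroup_isOpen F)
  let H : ClosedSubgroup GQ := ⟨F.fixingSubgroup ⊔ E.fixingSubgroup,
    Subgroup.isClosed_of_isOpen _ ho⟩
  have h1 : fixedField (H : Subgroup GQ) ≤ ⊥ := by
    rw [← h]
    refine le_inf ?_ ?_
    · rw [← InfiniteGalois.fixedField_fixingSubgroup F]
      exact fixedField_antitone (le_sup_left : F.fixingSubgroup ≤
        F.fixingSubgroup ⊔ E.fixingSubgroup)
    · rw [← InfiniteGalois.fixedField_fixingSubgroup E]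
      exact fixedField_antitone (le_sup_right : E.fixingSubgroup ≤
        F.fixingSubgroup ⊔ E.fixingSubgroup)
  have h2 := InfiniteGalois.fixingSubgroup_fixedField H
  rw [le_bot_iff.mp h1, IntermediateField.fixingSubgroup_bot] at h2
  exact h2.symm

/-- the cyclotomic field -/
noncomputable def cycF (m : ℕ) [NeZero m] : IntermediateField ℚ Qb :=
  ℚ⟮(exists_primitive m).choose⟯

theorem cycF_isCyclotomic (m : ℕ) [NeZero m] : IsCyclotomicExtension {m} ℚ (cycF m) :=
  (exists_primitive m).choose_spec.intermediateField_adjoin_isCyclotomicExtension ℚ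

/-- **Linear disjointness** -/
theorem exists_fix_cyc (F : IntermediateField ℚ Qb) [NumberField F] {m : ℕ} [NeZero m]
    (hm : m.Prime) (h : ¬ (m : ℤ) ∣ discr F) (u : (ZMod m)ˣ) :
    ∃ σ ∈ F.fixingSubgroup, cyc m σ = u := by
  have hg : IsGalois ℚ Qb := H51.isGalois_Qbar
  haveI := cycF_isCyclotomic m
  haveI : FiniteDimensional ℚ (cycF m) := IsCyclotomicExtension.finiteDimensional {m} ℚ (cycF m)
  haveI : NumberField (cycF m) :=
    { to_charZero := inferInstance, to_finiteDimensional := inferInstance }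
  haveI : IsGalois ℚ (cycF m) := IsCyclotomicExtension.isGalois {m} ℚ (cycF m)
  have hcop : IsCoprime (discr F) (discr (cycF m)) := by
    have h1 : (discr (cycF m)).natAbs ∣ m ^ (Nat.totient m) := by
      rw [IsCyclotomicExtension.Rat.natAbs_discr m (cycF m)]
      exact Nat.div_dvd_of_dvd (Nat.prod_primeFactors_pow_totient_ediv_dvd hm.pos)
    have h2 : IsCoprime (discr F) ((m : ℤ) ^ (Nat.totient m)) := by
      refine IsCoprime.pow_right ?_
      rw [isCoprime_comm]
      exact (Prime.coprime_iff_not_dvd (Nat.prime_iff_prime_int.mp hm)).mpr h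
    refine IsCoprime.of_isCoprime_of_dvd_right h2 ?_
    rw [← Int.natAbs_dvd]
    exact_mod_cast h1
  have h1 := sup_eq_top_of_inf_eq_bot F (cycF m) (inf_eq_bot_of_coprime F (cycF m) hcop)
  obtain ⟨τ, hτ⟩ := cyc_surjective m u
  have h2 : τ ∈ F.fixingSubgroup ⊔ (cycF m).fixingSubgroup := by rw [h1]; trivial
  haveI : (cycF m).fixingSubgroup.Normal :=
    @IsGalois.fixingSubgroup_normal_of_isGalois ℚ Qb _ _ _ (cycF m) hg
      (IsCyclotomicExtension.isGalois {m} ℚ (cycF m))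
  obtain ⟨a, ha, b, hb, hab⟩ := Subgroup.mem_sup_of_normal_right.mp h2
  refine ⟨a, ha, ?_⟩
  have h3 : cyc m b = 1 := by
    have h4 : b (exists_primitive m).choose = (exists_primitive m).choose ^ 1 := by
      rw [pow_one]
      exact (mem_fixingSubgroup_iff _ _).mp hb _ (mem_adjoin_simple_self ℚ _)
    rw [cyc_eq_of (exists_primitive m).choose_spec (Nat.coprime_one_left m) h4]
    ext
    simp
  rw [← hτ, ← hab, map_mul, h3, mul_one]

end disjoint

end Fermat.Agent.DS
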