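import Fermat.Agent.DS.CycLower
import Fermat.Agent.DS.Cyc
import Fermat.Agent.DS.CountOrd

/-!
# Crossing with cyclotomic fields
-/

set_option autoImplicit false
set_option linter.style.haveILetI false
set_option linter.unusedSectionVars false

open scoped Classical nonZeroDivisors Topology Pointwise

namespace Fermat.Agent.DS

open NumberField Module IntermediateField Filter Fermat.Agent.CFT Fermat.Agent.H03 Fermat.Agent.ZC
  Fermat.Agent.H25 Ideal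

noncomputable section

section frob

variable (F : IntermediateField ℚ Qb) [NumberField F] [IsGalois ℚ F]

theorem frobSet_of_isFrobeniusAt {p : ℕ} (hp : p.Prime) {A : ValuationSubring Qb}
    (hA : A.LiesOverPrime p) {σ : GQ} (hσ : A.IsFrobeniusAt σ p) :
    p ∈ FrobSet (AlgEquiv.restrictNormalHom F σ) :=
  ⟨placeUnder F A, inferInstance, ⟨(placeUnder_under F hp hA).symm⟩,
    isArithFrobAt_placeUnder F hp hA hσ⟩

theorem exists_lift_frob {p : ℕ} (hp : p.Prime)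
    (hur : Algebra.IsUnramifiedIn (𝓞 F) (Ideal.span {(p : ℤ)})) {P : Ideal (𝓞 F)}
    (hP : P.IsPrime) (hPo : P.LiesOver (Ideal.span {(p : ℤ)})) {φ : Gal(F/ℚ)}
    (hφ : IsArithFrobAt ℤ φ P) :
    ∃ (A : ValuationSubring Qb) (σ : GQ), A.LiesOverPrime p ∧ A.IsFrobeniusAt σ p ∧
      AlgEquiv.restrictNormalHom F σ = φ := by
  have hg : IsGalois ℚ Qb := H51.isGalois_Qbar
  obtain ⟨A0, hA0⟩ := Fermat.Agent.H05.exists_liesOverPrime Qb hp
  obtain ⟨g, hg⟩ := Algebra.IsInvariant.exists_smul_of_under_eq ℤ (𝓞 F) Gal(F/ℚ)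
    (placeUnder F A0) P
    (by rw [placeUnder_under F hp hA0, ← Ideal.over_def P (Ideal.span {(p : ℤ)})])
  obtain ⟨g', rfl⟩ := AlgEquiv.restrictNormalHom_surjective (F := ℚ) (K₁ := F) Qb g
  have hA : (g' • A0).LiesOverPrime p :=
    (Fermat.Agent.H05.liesOverPrime_smul_iff g' A0 p).mpr hA0
  rw [← placeUnder_smul] at hg
  subst hg
  obtain ⟨σ, hσ⟩ := Fermat.Agent.H05.exists_isFrobeniusAt hp hA
  refine ⟨g' • A0, σ, hA, hσ, ?_⟩
  exact frob_unique hp hur (placeUnder F (g' • A0)) (isArithFrobAt_placeUnder F hp hA hσ) hφ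

end frob

theorem mem_ker_restrict (E : IntermediateField ℚ Qb) [Normal ℚ E] {σ : GQ} :
    σ ∈ (AlgEquiv.restrictNormalHom (F := ℚ) (K₁ := Qb) E).ker ↔ σ ∈ E.fixingSubgroup := by
  rw [MonoidHom.mem_ker, IntermediateField.mem_fixingSubgroup_iff]
  constructor
  · intro h x hx
    have h4 := AlgEquiv.restrictNormal_commutes σ E ⟨x, hx⟩
    have h6 : σ.restrictNormal E = 1 := h
    rw [h6] at h4
    exact h4.symm
  · intro h
    apply AlgEquiv.ext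
    intro x
    have h4 := AlgEquiv.restrictNormal_commutes σ E x
    apply Subtype.ext
    exact h4.trans (h x x.2)

theorem ker_restrict (E : IntermediateField ℚ Qb) [Normal ℚ E] :
    (AlgEquiv.restrictNormalHom (F := ℚ) (K₁ := Qb) E).ker = E.fixingSubgroup :=
  Subgroup.ext fun _ => mem_ker_restrict E

theorem restrict_eq_one_iff (E : IntermediateField ℚ Qb) [Normal ℚ E] {σ : GQ} :
    AlgEquiv.restrictNormalHom E σ = 1 ↔ σ ∈ E.fixingSubgroup := by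
  rw [← ker_restrict, MonoidHom.mem_ker]

theorem restrict_eq_iff (E : IntermediateField ℚ Qb) [Normal ℚ E] {σ τ : GQ} :
    AlgEquiv.restrictNormalHom E σ = AlgEquiv.restrictNormalHom E τ ↔
      σ⁻¹ * τ ∈ E.fixingSubgroup := by
  rw [← restrict_eq_one_iff, map_mul, map_inv, inv_mul_eq_one]

section cross

variable (F : IntermediateField ℚ Qb) [NumberField F] [IsGalois ℚ F]
  {m : ℕ} [NeZero m] {C : Type} [CommGroup C] [Finite C] (κ₀ : (ZMod m)ˣ →* C)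

/-- the open subgroup -/
def UΩ : Subgroup GQ := F.fixingSubgroup ⊓ (κ₀.comp (cyc m)).ker

theorem mem_UΩ {σ : GQ} : σ ∈ UΩ F κ₀ ↔ σ ∈ F.fixingSubgroup ∧ κ₀ (cyc m σ) = 1 := Iff.rfl

instance instNormalUΩ : (UΩ F κ₀).Normal := by
  have h1 : F.fixingSubgroup.Normal := by
    rw [← ker_restrict]
    infer_instance
  unfold UΩ
  infer_instance

theorem fixing_le_UΩ : (F ⊔ cycF m).fixingSubgroup ≤ UΩ F κ₀ := by
  rw [IntermediateField.fixingSubgroup_sup]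
  refine inf_le_inf le_rfl ?_
  intro b hb
  have h4 : b (exists_primitive m).choose = (exists_primitive m).choose ^ 1 := by
    rw [pow_one]
    exact (mem_fixingSubgroup_iff _ _).mp hb _ (mem_adjoin_simple_self ℚ _)
  have h5 : cyc m b = 1 := by
    rw [cyc_eq_of (exists_primitive m).choose_spec (Nat.coprime_one_left m) h4]
    ext
    simp
  rw [MonoidHom.mem_ker, MonoidHom.comp_apply, h5, map_one]

theorem finite_cycF : FiniteDimensional ℚ (cycF m) := by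
  haveI := cycF_isCyclotomic m
  exact IsCyclotomicExtension.finiteDimensional {m} ℚ (cycF m)

theorem isOpen_UΩ : IsOpen (UΩ F κ₀ : Set GQ) := by
  haveI := finite_cycF (m := m)
  exact Subgroup.isOpen_mono (fixing_le_UΩ F κ₀) (IntermediateField.fixingSubgroup_isOpen _)

/-- the field -/
def Ω : IntermediateField ℚ Qb := fixedField (UΩ F κ₀)

theorem fixingSubgroup_Ω : (Ω F κ₀).fixingSubgroup = UΩ F κ₀ := by
  have hg : IsGalois ℚ Qb := H51.isGalois_Qbar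
  exact InfiniteGalois.fixingSubgroup_fixedField
    ⟨UΩ F κ₀, Subgroup.isClosed_of_isOpen _ (isOpen_UΩ F κ₀)⟩

theorem finite_Ω : FiniteDimensional ℚ (Ω F κ₀) := by
  have hg : IsGalois ℚ Qb := H51.isGalois_Qbar
  haveI := finite_cycF (m := m)
  have h1 : Ω F κ₀ ≤ F ⊔ cycF m := by
    rw [← InfiniteGalois.fixedField_fixingSubgroup (F ⊔ cycF m)]
    exact fixedField_antitone (fixing_le_UΩ F κ₀)
  exact Module.Finite.of_injective (inclusion h1).toLinearMap (inclusion h1).injective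

instance instNumberFieldΩ : NumberField (Ω F κ₀) :=
  { to_charZero := inferInstance, to_finiteDimensional := finite_Ω F κ₀ }

instance instGalΩ : IsGalois ℚ (Ω F κ₀) := by
  have hg : IsGalois ℚ Qb := H51.isGalois_Qbar
  exact IsGalois.of_fixedField_normal_subgroup (UΩ F κ₀)

/-- the character on `Gal(Ω/ℚ)` -/
def κΩ : Gal(Ω F κ₀/ℚ) →* C :=
  (AlgEquiv.restrictNormalHom (F := ℚ) (K₁ := Qb) (Ω F κ₀)).liftOfSurjective
    (AlgEquiv.restrictNormalHom_surjective (F := ℚ) (K₁ := Ω F κ₀) Qb)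
    ⟨κ₀.comp (cyc m), by
      rw [ker_restrict, fixingSubgroup_Ω]
      exact inf_le_right⟩

theorem κΩ_restrict (σ : GQ) :
    κΩ F κ₀ (AlgEquiv.restrictNormalHom (Ω F κ₀) σ) = κ₀ (cyc m σ) := by
  exact MonoidHom.liftOfRightInverse_comp_apply _ _ _ _ σ

/-- the conductor -/
def DΩ : ℕ := m * (discr (Ω F κ₀)).natAbs

theorem DΩ_ne_zero : DΩ F κ₀ ≠ 0 :=
  mul_ne_zero (NeZero.ne m) (Int.natAbs_ne_zero.mpr (discr_ne_zero _))

theorem unram_Ω {p : ℕ} (hp : p.Prime) (h : ¬ p ∣ DΩ F κ₀) :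
    Algebra.IsUnramifiedIn (𝓞 (Ω F κ₀)) (Ideal.span {(p : ℤ)}) := by
  have hdisc : ¬ (p : ℤ) ∣ discr (Ω F κ₀) := by
    intro h'
    exact h ((Int.natCast_dvd.mp h').mul_left m)
  exact (not_dvd_discr_iff_isUnramifiedIn _ _ (Nat.prime_iff_prime_int.mp hp)).mp hdisc

theorem not_dvd_m {p : ℕ} (h : ¬ p ∣ DΩ F κ₀) : ¬ p ∣ m := fun h' => h (h'.mul_right _)

theorem hκΩ {p : ℕ} (hp : p.Prime) (h : ¬ p ∣ DΩ F κ₀) (P : Ideal (𝓞 (Ω F κ₀)))
    (φ : Gal(Ω F κ₀/ℚ)) (hP : P.IsPrime) (hPo : P.LiesOver (Ideal.span {(p : ℤ)}))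
    (hφ : IsArithFrobAt ℤ φ P) : κΩ F κ₀ φ = nmod κ₀ p := by
  obtain ⟨A, σ, hA, hσ, rfl⟩ := exists_lift_frob (Ω F κ₀) hp (unram_Ω F κ₀ hp h) hP hPo hφ
  have hcop : p.Coprime m := (Nat.Prime.coprime_iff_not_dvd hp).mpr (not_dvd_m F κ₀ h)
  rw [κΩ_restrict, cyc_frob hp (not_dvd_m F κ₀ h) hA hσ hcop, nmod, dif_pos hcop]

theorem exists_lower_rho (hκ₀ : κ₀ (-1) = 1) (ρ : GQ)
    (hρ : ∀ k : ℤ, κ₀ (cyc m ρ) ^ k = 1 → ρ ^ k ∈ F.fixingSubgroup) :
    ∃ E : ℝ, ∀ᶠ s in 𝓝[>] (1 : ℝ), 2 * ell s - E ≤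
      (Nat.card (Subgroup.centralizer {AlgEquiv.restrictNormalHom (Ω F κ₀) ρ} :
        Subgroup Gal(Ω F κ₀/ℚ)) : ℝ) *
        (qsum (FrobSet (AlgEquiv.restrictNormalHom (Ω F κ₀) ρ)) s +
          qsum (FrobSet (AlgEquiv.restrictNormalHom (Ω F κ₀) ρ)⁻¹) s) := by
  refine exists_frobSet_lower κ₀ hκ₀ (κΩ F κ₀) (DΩ_ne_zero F κ₀) (Dvd.intro _ rfl)
    (fun p hp h => unram_Ω F κ₀ hp h) (fun p hp h P φ hP hPo hφ => hκΩ F κ₀ hp h P φ hP hPo hφ)
    _ ?_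
  rintro y ⟨k, rfl⟩ hy
  simp only at hy ⊢
  rw [← map_zpow, κΩ_restrict] at hy
  have h1 : κ₀ (cyc m ρ) ^ k = 1 := by rw [← map_zpow, ← map_zpow]; exact hy
  have h2 : ρ ^ k ∈ UΩ F κ₀ := ⟨hρ k h1, hy⟩
  rw [← fixingSubgroup_Ω] at h2
  rw [← map_zpow]
  exact (restrict_eq_one_iff _).mpr h2

/-- elements trivial on `Ω` are trivial on `F`. -/
theorem restrict_F_of_Ω {σ τ : GQ} (h : AlgEquiv.restrictNormalHom (Ω F κ₀) σ =
    AlgEquiv.restrictNormalHom (Ω F κ₀) τ) :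
    AlgEquiv.restrictNormalHom F σ = AlgEquiv.restrictNormalHom F τ := by
  rw [restrict_eq_iff, fixingSubgroup_Ω] at h
  rw [restrict_eq_iff]
  exact h.1

theorem card_centralizer_le (ρ : GQ) :
    Nat.card (Subgroup.centralizer {AlgEquiv.restrictNormalHom (Ω F κ₀) ρ} :
        Subgroup Gal(Ω F κ₀/ℚ)) ≤
    Nat.card (Subgroup.centralizer {AlgEquiv.restrictNormalHom F ρ} : Subgroup Gal(F/ℚ)) *
      Nat.card C := by
  rw [← Nat.card_prod]
  have hsurj := AlgEquiv.restrictNormalHom_surjective (F := ℚ) (K₁ := Ω F κ₀) Qb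
  choose l hl using hsurj
  refine Nat.card_le_card_of_injective (fun y => (⟨AlgEquiv.restrictNormalHom F (l y.1), ?_⟩,
    κΩ F κ₀ y.1)) ?_
  · have h1 := Subgroup.mem_centralizer_singleton_iff.mp y.2
    rw [Subgroup.mem_centralizer_singleton_iff, ← map_mul, ← map_mul]
    apply restrict_F_of_Ω F κ₀
    rw [map_mul, map_mul, hl]
    exact h1
  · rintro ⟨y, hy⟩ ⟨y', hy'⟩ h
    have h1 : AlgEquiv.restrictNormalHom F (l y) = AlgEquiv.restrictNormalHom F (l y') :=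
      congrArg Subtype.val (congrArg Prod.fst h)
    have h2 : κΩ F κ₀ y = κΩ F κ₀ y' := congrArg Prod.snd h
    apply Subtype.ext
    change y = y'
    rw [← hl y, ← hl y', restrict_eq_iff, fixingSubgroup_Ω, mem_UΩ]
    refine ⟨(restrict_eq_iff F).mp h1, ?_⟩
    rw [← hl y, ← hl y', κΩ_restrict, κΩ_restrict] at h2
    rw [map_mul, map_mul, map_inv, map_inv, h2, inv_mul_cancel]

/-- restricting Frobenius elements -/
theorem frobSet_restrict {p : ℕ} (hp : p.Prime) (h : ¬ p ∣ DΩ F κ₀) {ρ : GQ}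
    (hpρ : p ∈ FrobSet (AlgEquiv.restrictNormalHom (Ω F κ₀) ρ)) :
    p ∈ FrobSet (AlgEquiv.restrictNormalHom F ρ) ∧ κ₀ (cyc m ρ) = nmod κ₀ p := by
  obtain ⟨P, hP, hPo, hφ⟩ := hpρ
  have h2 := hκΩ F κ₀ hp h P _ hP hPo hφ
  rw [κΩ_restrict] at h2
  refine ⟨?_, h2⟩
  obtain ⟨A, σ, hA, hσ, h3⟩ := exists_lift_frob (Ω F κ₀) hp (unram_Ω F κ₀ hp h) hP hPo hφ
  rw [← restrict_F_of_Ω F κ₀ h3]
  exact frobSet_of_isFrobeniusAt F hp hA hσ

theorem sum_qsum_le {ι : Type*} [Fintype ι] (S : ι → Set ℕ) (S0 Z : Set ℕ)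
    (h : ∀ p : ℕ, p.Prime → p ∉ Z → ∀ i, p ∈ S i → p ∈ S0)
    (hd : ∀ p : ℕ, p.Prime → p ∉ Z → ∀ i j, p ∈ S i → p ∈ S j → i = j) {s : ℝ} (hs : 1 < s) :
    ∑ i, qsum (S i) s ≤ qsum S0 s + Fintype.card ι * qsum Z s := by
  simp only [qsum]
  rw [← Summable.tsum_finsetSum fun i _ => summable_qsum (S i) hs, ← tsum_mul_left,
    ← (summable_qsum S0 hs).tsum_add ((summable_qsum Z hs).mul_left _)]
  refine Summable.tsum_le_tsum (fun p => ?_) (summable_sum fun i _ => summable_qsum (S i) hs)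
    ((summable_qsum S0 hs).add ((summable_qsum Z hs).mul_left _))
  have h0 : 0 ≤ 1 / ((p : ℕ) : ℝ) ^ s := by positivity
  by_cases hZ : (p : ℕ) ∈ Z
  · rw [if_pos hZ]
    have h1 : ∑ i, (if (p : ℕ) ∈ S i then 1 / ((p : ℕ) : ℝ) ^ s else 0) ≤
        ∑ _i : ι, 1 / ((p : ℕ) : ℝ) ^ s := by
      refine Finset.sum_le_sum fun i _ => ?_
      split_ifs
      · exact le_rfl
      · exact h0
    rw [Finset.sum_const, nsmul_eq_mul, Finset.card_univ] at h1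
    refine h1.trans (le_add_of_nonneg_left ?_)
    split_ifs
    · exact h0
    · exact le_rfl
  · rw [if_neg hZ, mul_zero, add_zero]
    by_cases hex : ∃ i, (p : ℕ) ∈ S i
    · obtain ⟨i, hi⟩ := hex
      rw [if_pos (h p p.2 hZ i hi), Finset.sum_eq_single i, if_pos hi]
      · intro j _ hj
        exact if_neg fun hj' => hj (hd p p.2 hZ j i hj' hi)
      · intro hi'
        exact absurd (Finset.mem_univ i) hi'
    · push Not at hex
      rw [Finset.sum_eq_zero fun i _ => if_neg (hex i)]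
      split_ifs
      · exact h0
      · exact le_rfl

theorem exists_lower_F (hκ₀ : κ₀ (-1) = 1) (hsurj : Function.Surjective κ₀) (hm : m.Prime)
    (hmF : ¬ (m : ℤ) ∣ discr F) (σ : GQ) :
    ∃ E : ℝ, ∀ᶠ s in 𝓝[>] (1 : ℝ),
      2 * (Nat.card {τ : C // Nat.card Gal(F/ℚ) ∣ orderOf τ} : ℝ) * ell s - E ≤
      (Nat.card (Subgroup.centralizer {AlgEquiv.restrictNormalHom F σ} :
        Subgroup Gal(F/ℚ)) : ℝ) * Nat.card C *
        (qsum (FrobSet (AlgEquiv.restrictNormalHom F σ)) s +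
          qsum (FrobSet (AlgEquiv.restrictNormalHom F σ)⁻¹) s) := by
  haveI : Fintype {τ : C // Nat.card Gal(F/ℚ) ∣ orderOf τ} := Fintype.ofFinite _
  have hρ : ∀ τ : {τ : C // Nat.card Gal(F/ℚ) ∣ orderOf τ}, ∃ ρ : GQ,
      AlgEquiv.restrictNormalHom F ρ = AlgEquiv.restrictNormalHom F σ ∧
        κ₀ (cyc m ρ) = τ.1 := by
    intro τ
    obtain ⟨u, hu⟩ := hsurj τ.1
    obtain ⟨i, hi, hi'⟩ := exists_fix_cyc F hm hmF ((cyc m σ)⁻¹ * u)
    refine ⟨σ * i, ?_, ?_⟩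
    · rw [map_mul, (restrict_eq_one_iff F).mpr hi, mul_one]
    · rw [map_mul, hi', mul_inv_cancel_left, hu]
  choose ρ hρ1 hρ2 using hρ
  have hlow : ∀ τ : {τ : C // Nat.card Gal(F/ℚ) ∣ orderOf τ}, ∃ E : ℝ, ∀ᶠ s in 𝓝[>] (1 : ℝ),
      2 * ell s - E ≤
      (Nat.card (Subgroup.centralizer {AlgEquiv.restrictNormalHom (Ω F κ₀) (ρ τ)} :
        Subgroup Gal(Ω F κ₀/ℚ)) : ℝ) *
        (qsum (FrobSet (AlgEquiv.restrictNormalHom (Ω F κ₀) (ρ τ))) s +
          qsum (FrobSet (AlgEquiv.restrictNormalHom (Ω F κ₀) (ρ τ))⁻¹) s) := by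
    intro τ
    refine exists_lower_rho F κ₀ hκ₀ (ρ τ) ?_
    intro k hk
    rw [hρ2 τ] at hk
    have h1 : (orderOf τ.1 : ℤ) ∣ k := orderOf_dvd_iff_zpow_eq_one.mpr hk
    have h2 : (Nat.card Gal(F/ℚ) : ℤ) ∣ k := dvd_trans (by exact_mod_cast τ.2) h1
    rw [← restrict_eq_one_iff, map_zpow]
    obtain ⟨j, rfl⟩ := h2
    rw [zpow_mul, zpow_natCast, pow_card_eq_one', one_zpow]
  choose E hE using hlow
  obtain ⟨Cz, hCz⟩ := bddQ_finite (T := {p : ℕ | p ∣ DΩ F κ₀}) (by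
    refine (Nat.divisors (DΩ F κ₀)).finite_toSet.subset ?_
    intro p hp
    exact Nat.mem_divisors.mpr ⟨hp, DΩ_ne_zero F κ₀⟩)
  have hE' : ∀ᶠ s in 𝓝[>] (1 : ℝ), ∀ τ : {τ : C // Nat.card Gal(F/ℚ) ∣ orderOf τ},
      2 * ell s - E τ ≤
      (Nat.card (Subgroup.centralizer {AlgEquiv.restrictNormalHom (Ω F κ₀) (ρ τ)} :
        Subgroup Gal(Ω F κ₀/ℚ)) : ℝ) *
        (qsum (FrobSet (AlgEquiv.restrictNormalHom (Ω F κ₀) (ρ τ))) s +
          qsum (FrobSet (AlgEquiv.restrictNormalHom (Ω F κ₀) (ρ τ))⁻¹) s) :=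
    eventually_all.mpr hE
  set cF : ℝ := (Nat.card (Subgroup.centralizer {AlgEquiv.restrictNormalHom F σ} :
        Subgroup Gal(F/ℚ)) : ℝ) * Nat.card C with hcF
  have hcF0 : 0 ≤ cF := by positivity
  set nT : ℕ := Fintype.card {τ : C // Nat.card Gal(F/ℚ) ∣ orderOf τ} with hnT
  refine ⟨∑ τ, E τ + cF * (2 * (nT * Cz)), ?_⟩
  filter_upwards [hE', hCz, eventually_Ioc] with s h1 h2 hs
  have hq : ∀ T : Set ℕ, 0 ≤ qsum T s := by
    intro T
    refine tsum_nonneg fun p => ?_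
    split_ifs
    · positivity
    · exact le_rfl
  have h3 : ∑ τ, (2 * ell s - E τ) ≤ ∑ τ : {τ : C // Nat.card Gal(F/ℚ) ∣ orderOf τ},
      cF * (qsum (FrobSet (AlgEquiv.restrictNormalHom (Ω F κ₀) (ρ τ))) s +
          qsum (FrobSet (AlgEquiv.restrictNormalHom (Ω F κ₀) (ρ τ))⁻¹) s) := by
    refine Finset.sum_le_sum fun τ _ => (h1 τ).trans ?_
    refine mul_le_mul_of_nonneg_right ?_ (add_nonneg (hq _) (hq _))
    have h4 := card_centralizer_le F κ₀ (ρ τ)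
    rw [hρ1 τ] at h4
    rw [hcF]
    exact_mod_cast h4
  rw [Finset.sum_sub_distrib, Finset.sum_const, nsmul_eq_mul, Finset.card_univ, ← hnT,
    ← Finset.mul_sum, Finset.sum_add_distrib] at h3
  have h5 : ∑ τ, qsum (FrobSet (AlgEquiv.restrictNormalHom (Ω F κ₀) (ρ τ))) s ≤
      qsum (FrobSet (AlgEquiv.restrictNormalHom F σ)) s +
        nT * qsum {p : ℕ | p ∣ DΩ F κ₀} s := by
    refine sum_qsum_le _ _ _ (fun p hp hpZ τ hτ => ?_) (fun p hp hpZ τ τ' hτ hτ' => ?_) hs.1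
    · rw [← hρ1 τ]
      exact (frobSet_restrict F κ₀ hp hpZ hτ).1
    · have h6 := (frobSet_restrict F κ₀ hp hpZ hτ).2
      have h7 := (frobSet_restrict F κ₀ hp hpZ hτ').2
      rw [hρ2] at h6 h7
      exact Subtype.ext (h6.trans h7.symm)
  have h5' : ∑ τ, qsum (FrobSet (AlgEquiv.restrictNormalHom (Ω F κ₀) (ρ τ))⁻¹) s ≤
      qsum (FrobSet (AlgEquiv.restrictNormalHom F σ)⁻¹) s +
        nT * qsum {p : ℕ | p ∣ DΩ F κ₀} s := by
    refine sum_qsum_le _ _ _ (fun p hp hpZ τ hτ => ?_) (fun p hp hpZ τ τ' hτ hτ' => ?_) hs.1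
    · rw [← map_inv] at hτ
      have h6 := (frobSet_restrict F κ₀ hp hpZ hτ).1
      rw [map_inv, hρ1 τ] at h6
      exact h6
    · rw [← map_inv] at hτ hτ'
      have h6 := (frobSet_restrict F κ₀ hp hpZ hτ).2
      have h7 := (frobSet_restrict F κ₀ hp hpZ hτ').2
      rw [map_inv, map_inv, hρ2] at h6 h7
      exact Subtype.ext (inv_injective (h6.trans h7.symm))
  have h6 : (nT : ℝ) * qsum {p : ℕ | p ∣ DΩ F κ₀} s ≤ nT * Cz :=
    mul_le_mul_of_nonneg_left h2 (Nat.cast_nonneg _)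
  have h7 := mul_le_mul_of_nonneg_left (add_le_add (h5.trans (add_le_add le_rfl h6))
    (h5'.trans (add_le_add le_rfl h6))) hcF0
  have h8 : (Nat.card {τ : C // Nat.card Gal(F/ℚ) ∣ orderOf τ} : ℝ) = nT := by
    rw [Nat.card_eq_fintype_card]
  rw [h8]
  linarith

end cross

end

end Fermat.Agent.DS
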