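import Fermat.Agent.DS.NormHom
import Fermat.Agent.DS.Count

/-!
# Lower bound for the number of primes with given Frobenius, when the Frobenius elements are
determined by the norm
-/

set_option autoImplicit false
set_option linter.unusedSectionVars false
set_option linter.style.haveILetI false

open scoped Classical nonZeroDivisors Topology Pointwise

namespace Fermat.Agent.DS

open NumberField Filter IsDedekindDomain Module Fermat.Agent.CFT Fermat.Agent.H03 Fermat.Agent.ZC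
  Fermat.Agent.H25 Ideal MulAction

noncomputable section

theorem finite_not_coprime {K : Type*} [Field K] [NumberField K] {𝔪 : Ideal (𝓞 K)}
    (h𝔪 : 𝔪 ≠ ⊥) : {v : HeightOneSpectrum (𝓞 K) | ¬ IsCoprime v.asIdeal 𝔪}.Finite := by
  refine (Ideal.finite_factors h𝔪).subset ?_
  intro v hv
  by_contra hcon
  apply hv
  rw [Ideal.isCoprime_iff_sup_eq]
  by_contra hne
  have h1 : v.asIdeal = v.asIdeal ⊔ 𝔪 := v.isMaximal.eq_of_le hne le_sup_left
  exact hcon (Ideal.dvd_iff_le.mpr (by rw [h1]; exact le_sup_right))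

theorem psum_deg1_eq (K : Type*) [Field K] [NumberField K] (T : Set ℕ) {s : ℝ} (hs : 1 < s)
    (hs2 : s ≤ 2) :
    psum K s (fun v => Deg1 K v ∧ absNorm v.asIdeal ∈ T) =
      ∑' p : Nat.Primes, if (p : ℕ) ∈ T then (idealCount K p : ℝ) * (1 / ((p : ℕ) : ℝ) ^ s)
        else 0 := by
  obtain ⟨Q, hQ⟩ : ∃ Q : HeightOneSpectrum (𝓞 K) → Prop,
    Q = fun v => Deg1 K v ∧ absNorm v.asIdeal ∈ T := ⟨_, rfl⟩
  have hQ' : ∀ v, Q v ↔ Deg1 K v ∧ absNorm v.asIdeal ∈ T := fun v => by rw [hQ]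
  rw [← hQ]
  unfold psum
  let β := {v : HeightOneSpectrum (𝓞 K) // Q v}
  let g : β → Nat.Primes := fun v => ⟨Ideal.absNorm v.1.asIdeal, ((hQ' v.1).mp v.2).1⟩
  have h1 : ∑' v : HeightOneSpectrum (𝓞 K), (if Q v then
      nrm K s v.asIdeal else 0) = ∑' v : β, nrm K s v.1.asIdeal := by
    refine Eq.trans ?_
      (tsum_subtype {v : HeightOneSpectrum (𝓞 K) | Q v}
        (fun v => nrm K s v.asIdeal)).symm
    refine tsum_congr fun v => ?_
    rw [Set.indicator_apply]
    exact if_congr Iff.rfl rfl rfl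
  have hβ : Summable fun v : β => nrm K s v.1.asIdeal :=
    (summable_nrm_prime K hs hs2).comp_injective Subtype.val_injective
  have h2 := hβ.hasSum.tsum_fiberwise g
  rw [h1, ← h2.tsum_eq]
  refine tsum_congr fun p => ?_
  have e1 : ∀ b : g ⁻¹' {p}, nrm K s b.1.1.asIdeal = 1 / ((p : ℕ) : ℝ) ^ s := by
    intro b
    have : Ideal.absNorm b.1.1.asIdeal = (p : ℕ) := congrArg Subtype.val b.2
    rw [nrm, this, Real.rpow_neg (Nat.cast_nonneg _), one_div]
  rw [tsum_congr e1, tsum_const, nsmul_eq_mul]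
  split_ifs with hp
  · have e2 : Nat.card (g ⁻¹' {p}) = H25.idealCount K (p : ℕ) := by
      rw [H25.idealCount]
      refine Nat.card_congr
        ⟨fun b => ⟨b.1.1.asIdeal, congrArg Subtype.val b.2⟩, fun I => ?_, ?_, ?_⟩
      · have hI : (Ideal.absNorm I.1).Prime := by rw [I.2]; exact p.2
        exact ⟨⟨⟨I.1, Ideal.isPrime_of_irreducible_absNorm hI, fun h => by
          rw [h, Ideal.absNorm_bot] at hI
          exact Nat.not_prime_zero hI⟩, (hQ' _).mpr ⟨hI, by
            change absNorm I.1 ∈ T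
            rw [I.2]; exact hp⟩⟩, Subtype.ext I.2⟩
      · intro b; rfl
      · intro I; rfl
    rw [e2]
  · have e2 : Nat.card (g ⁻¹' {p}) = 0 := by
      rw [Nat.card_eq_zero]
      refine Or.inl ⟨fun b => hp ?_⟩
      have h3 : Ideal.absNorm b.1.1.asIdeal = (p : ℕ) := congrArg Subtype.val b.2
      rw [← h3]
      exact ((hQ' _).mp b.1.2).2
    rw [e2, Nat.cast_zero, zero_mul]

variable {L : Type*} [Field L] [NumberField L] [IsGalois ℚ L]

section one

variable {m : ℕ} {C : Type*} [CommGroup C] [Finite C] (κ₀ : (ZMod m)ˣ →* C) (hκ₀ : κ₀ (-1) = 1)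
  (κ : Gal(L/ℚ) →* C) {D : ℕ} (hD0 : D ≠ 0) (hmD : m ∣ D)
  (hur : ∀ p : ℕ, p.Prime → ¬ p ∣ D → Algebra.IsUnramifiedIn (𝓞 L) (span {(p : ℤ)}))
  (hκ : ∀ p : ℕ, p.Prime → ¬ p ∣ D → ∀ (P : Ideal (𝓞 L)) (φ : Gal(L/ℚ)), P.IsPrime →
    P.LiesOver (span {(p : ℤ)}) → IsArithFrobAt ℤ φ P → κ φ = nmod κ₀ p)
  (x : Gal(L/ℚ)) (hinj : ∀ y ∈ Subgroup.zpowers x, κ y = 1 → y = 1)

include hD0 in
theorem span_D_ne_bot {K : Type*} [Field K] [NumberField K] :
    (Ideal.span {(D : 𝓞 K)} : Ideal (𝓞 K)) ≠ ⊥ := by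
  rw [Ne, Ideal.span_singleton_eq_bot]
  exact_mod_cast hD0

theorem not_dvd_of_coprime {K : Type*} [Field K] [NumberField K] {v : HeightOneSpectrum (𝓞 K)}
    (hv : IsCoprime v.asIdeal (Ideal.span {(D : 𝓞 K)})) (hv1 : Deg1 K v) :
    ¬ absNorm v.asIdeal ∣ D := by
  have h1 := absNorm_coprime hv
  exact (Nat.Prime.coprime_iff_not_dvd hv1).mp h1

include hur hκ in
theorem spl_class {H : Subgroup Gal(L/ℚ)} {v : HeightOneSpectrum (𝓞 (fixF L H))}
    (hv1 : Deg1 (fixF L H) v) (hvs : Spl (fixF L H) L v)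
    (hv : IsCoprime v.asIdeal (Ideal.span {(D : 𝓞 (fixF L H))})) :
    nmod κ₀ (absNorm v.asIdeal) = 1 := by
  obtain ⟨p, hpeq⟩ : ∃ p : ℕ, p = absNorm v.asIdeal := ⟨_, rfl⟩
  have hp : p.Prime := by rw [hpeq]; exact hv1
  have hpD : ¬ p ∣ D := by rw [hpeq]; exact not_dvd_of_coprime hv hv1
  obtain ⟨hIp, hIlo⟩ := liesOver_of_absNorm hp hpeq.symm
  obtain ⟨⟨P, hP⟩⟩ := (inferInstance : Nonempty (primesOver v.asIdeal (𝓞 L)))
  have hP1 := hP.1
  have hP2 := hP.2
  have hP3 : P.LiesOver (span {(p : ℤ)}) := LiesOver.trans P v.asIdeal _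
  have h1 : absNorm P = p := by
    rw [absNorm_eq_of_spl hvs P, hpeq]
  have h2 := pow_inertiaDeg p P
  rw [h1] at h2
  have h3 : P.inertiaDeg ℤ = 1 := Nat.pow_right_injective hp.two_le (by simpa using h2)
  have h4 := card_stab hp (hur p hp hpD) P
  rw [h3, Subgroup.card_eq_one] at h4
  obtain ⟨φ, hφ⟩ := exists_frob (L := L) hp P
  have h5 := hφ.mem_stabilizer
  rw [h4, Subgroup.mem_bot] at h5
  rw [← hpeq, ← hκ p hp hpD P φ hP1 hP3 hφ, h5, map_one]

include hD0 hur hκ hinj hκ₀ hmD in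
theorem card_range_eq :
    Nat.card (idRange (normHom (K := fixF L (Subgroup.zpowers x)) κ₀ hκ₀ D hmD)) = orderOf x ∧
    Additive.ofMul (κ x) ∈ idRange (normHom (K := fixF L (Subgroup.zpowers x)) κ₀ hκ₀ D hmD) := by
  set c := normHom (K := fixF L (Subgroup.zpowers x)) κ₀ hκ₀ D hmD with hc
  have hmem : Additive.ofMul (κ x) ∈ idRange c := by
    obtain ⟨p, hp, hpT, -, P, φ, hPp, hPo, hφ, hgen⟩ :=
      exists_frobenius_finite x D.divisors
    have hpD : ¬ p ∣ D := fun h => hpT (Nat.mem_divisors.mpr ⟨h, hD0⟩)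
    have hstab : stabilizer Gal(L/ℚ) P = Subgroup.zpowers φ :=
      frob_generates hp (hur p hp hpD) P φ hφ
    have h1 : absNorm (P.under (𝓞 (fixF L (Subgroup.zpowers x)))) = p := by
      rw [← stab_le_iff hp (hur p hp hpD) (Subgroup.zpowers x) P, hstab, hgen]
    have h2 : κ φ = nmod κ₀ p := hκ p hp hpD P φ hPp hPo hφ
    have h3 : P.under (𝓞 (fixF L (Subgroup.zpowers x))) ≠ ⊥ := by
      intro h
      rw [h, absNorm_bot] at h1
      exact hp.ne_zero h1.symm
    have h4 : IsCoprime (P.under (𝓞 (fixF L (Subgroup.zpowers x))))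
        (Ideal.span {(D : 𝓞 (fixF L (Subgroup.zpowers x)))}) := by
      obtain ⟨a, b, hab⟩ := (Nat.isCoprime_iff_coprime.mpr
        ((Nat.Prime.coprime_iff_not_dvd hp).mpr hpD))
      rw [Ideal.isCoprime_iff_exists]
      refine ⟨(a : 𝓞 (fixF L (Subgroup.zpowers x))) * (p : 𝓞 _), ?_,
        (b : 𝓞 (fixF L (Subgroup.zpowers x))) * (D : 𝓞 _),
        Ideal.mul_mem_left _ _ (Ideal.mem_span_singleton_self _), ?_⟩
      · refine Ideal.mul_mem_left _ _ ?_
        have := absNorm_mem (P.under (𝓞 (fixF L (Subgroup.zpowers x))))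
        rw [h1] at this
        exact this
      · exact_mod_cast congrArg (fun z : ℤ => (z : 𝓞 (fixF L (Subgroup.zpowers x)))) hab
    have h5 : Additive.ofMul (κ φ) ∈ idRange c := by
      refine ⟨_, h3, h4, ?_⟩
      rw [hc, normHom_apply, h1, h2]
    have h6 : x ∈ Subgroup.zpowers φ := by rw [hgen]; exact Subgroup.mem_zpowers x
    obtain ⟨k, hk⟩ := h6
    simp only at hk
    have h6 : κ x = κ φ ^ k := by rw [← hk, map_zpow]
    rw [h6, ofMul_zpow]
    exact AddSubgroup.zsmul_mem _ h5 k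
  refine ⟨le_antisymm ?_ ?_, hmem⟩
  · have hfr : Module.finrank (fixF L (Subgroup.zpowers x)) L = orderOf x := by
      rw [← Nat.card_zpowers]
      exact IntermediateField.finrank_fixedField_eq_card (Subgroup.zpowers x)
    rw [← hfr]
    refine second_inequality L (restr c) (span_D_ne_bot hD0) (restr_surj c) ?_
    refine (finite_not_coprime (span_D_ne_bot (K := fixF L (Subgroup.zpowers x)) hD0)).subset ?_
    rintro v ⟨hv1, hvs, hv⟩ hcop
    refine hv ⟨hcop, ?_⟩
    apply Subtype.ext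
    rw [restr_coe c v.ne_bot hcop, hc, normHom_apply,
      spl_class κ₀ κ hur hκ hv1 hvs hcop]
    rfl
  · rw [← Nat.card_zpowers]
    refine Nat.card_le_card_of_injective
      (fun y : Subgroup.zpowers x => (⟨Additive.ofMul (κ y), ?_⟩ : idRange c)) ?_
    · obtain ⟨k, hk⟩ := y.2
      simp only at hk
      rw [← hk, map_zpow, ofMul_zpow]
      exact AddSubgroup.zsmul_mem _ hmem k
    · rintro ⟨y, hy⟩ ⟨y', hy'⟩ h
      have h1 : κ y = κ y' := Additive.ofMul.injective (congrArg Subtype.val h)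
      have h2 := hinj (y * y'⁻¹) (mul_mem hy (inv_mem hy')) (by
        rw [map_mul, map_inv, h1, mul_inv_cancel])
      exact Subtype.ext (mul_inv_eq_one.mp h2)

include hD0 hur hκ hinj hκ₀ hmD in
/-- the basic lower bound. -/
theorem exists_frobSet_lower : ∃ E : ℝ, ∀ᶠ s in 𝓝[>] (1 : ℝ), 2 * ell s - E ≤
    (Nat.card (Subgroup.centralizer {x} : Subgroup Gal(L/ℚ)) : ℝ) *
      (qsum (FrobSet x) s + qsum (FrobSet x⁻¹) s) := by
  obtain ⟨hcard, hmem⟩ := card_range_eq κ₀ hκ₀ κ hD0 hmD hur hκ x hinj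
  set c := normHom (K := fixF L (Subgroup.zpowers x)) κ₀ hκ₀ D hmD with hc
  have hD1 := span_D_ne_bot (K := fixF L (Subgroup.zpowers x)) hD0
  have hfr : Module.finrank (fixF L (Subgroup.zpowers x)) L = orderOf x := by
    rw [← Nat.card_zpowers]
    exact IntermediateField.finrank_fixedField_eq_card (Subgroup.zpowers x)
  have hlow : ∃ C : ℝ, ∀ᶠ s in 𝓝[>] (1 : ℝ), ell s - C ≤
      (orderOf x : ℝ) * psum (fixF L (Subgroup.zpowers x)) s (fun v =>
        IsCoprime v.asIdeal (Ideal.span {(D : 𝓞 (fixF L (Subgroup.zpowers x)))}) ∧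
          c.toFun v.asIdeal = 0) := by
    obtain ⟨C1, h1⟩ := exists_split_lower (fixF L (Subgroup.zpowers x)) L
    obtain ⟨C2, h2⟩ := bdd1_dvd hD1
    refine ⟨C1 + orderOf x * C2, ?_⟩
    filter_upwards [h1, h2, eventually_Ioc] with s hs1 hs2 hs
    rw [hfr] at hs1
    have h3 := psum_le_add (fixF L (Subgroup.zpowers x)) hs.1 hs.2
      (P := fun v => Deg1 (fixF L (Subgroup.zpowers x)) v ∧ Spl (fixF L (Subgroup.zpowers x)) L v)
      (Q := fun v => IsCoprime v.asIdeal (Ideal.span {(D : 𝓞 (fixF L (Subgroup.zpowers x)))}) ∧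
          c.toFun v.asIdeal = 0)
      (R := fun v => ¬ IsCoprime v.asIdeal
        (Ideal.span {(D : 𝓞 (fixF L (Subgroup.zpowers x)))})) (by
        rintro v ⟨hv1, hvs⟩
        by_cases hcop : IsCoprime v.asIdeal
          (Ideal.span {(D : 𝓞 (fixF L (Subgroup.zpowers x)))})
        · refine Or.inl ⟨hcop, ?_⟩
          rw [hc, normHom_apply, spl_class κ₀ κ hur hκ hv1 hvs hcop]
          rfl
        · exact Or.inr hcop)
    have h4 : (0 : ℝ) ≤ orderOf x := Nat.cast_nonneg _
    have h5 := mul_le_mul_of_nonneg_left (h3.trans (add_le_add le_rfl hs2)) h4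
    linarith
  obtain ⟨E, hE⟩ := exists_eqdist_range c hD1 hcard hlow hmem
  refine ⟨E, ?_⟩
  filter_upwards [hE, eventually_Ioc] with s hs hs1
  refine hs.trans ?_
  -- the two sums
  have key : ∀ y : Gal(L/ℚ), Subgroup.zpowers y = Subgroup.zpowers x →
      (orderOf x : ℝ) * psum (fixF L (Subgroup.zpowers x)) s (fun v =>
        Deg1 (fixF L (Subgroup.zpowers x)) v ∧
        IsCoprime v.asIdeal (Ideal.span {(D : 𝓞 (fixF L (Subgroup.zpowers x)))}) ∧
          c.toFun v.asIdeal = Additive.ofMul (κ y)) ≤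
      (Nat.card (Subgroup.centralizer {y} : Subgroup Gal(L/ℚ)) : ℝ) * qsum (FrobSet y) s := by
    intro y hy
    have hord : orderOf y = orderOf x := by
      rw [← Nat.card_zpowers, ← Nat.card_zpowers, hy]
    obtain ⟨T, hT⟩ : ∃ T : Set ℕ, T = {p : ℕ | ¬ p ∣ D ∧ nmod κ₀ p = κ y} := ⟨_, rfl⟩
    have hT' : ∀ p, p ∈ T ↔ ¬ p ∣ D ∧ nmod κ₀ p = κ y := fun p => by rw [hT]; rfl
    have h1 : psum (fixF L (Subgroup.zpowers x)) s (fun v =>
        Deg1 (fixF L (Subgroup.zpowers x)) v ∧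
        IsCoprime v.asIdeal (Ideal.span {(D : 𝓞 (fixF L (Subgroup.zpowers x)))}) ∧
          c.toFun v.asIdeal = Additive.ofMul (κ y)) ≤
        psum (fixF L (Subgroup.zpowers x)) s (fun v =>
          Deg1 (fixF L (Subgroup.zpowers x)) v ∧
            absNorm v.asIdeal ∈ T) := by
      refine psum_mono hs1.1 hs1.2 ?_
      rintro v ⟨hv1, hv2, hv3⟩
      refine ⟨hv1, (hT' _).mpr ⟨not_dvd_of_coprime hv2 hv1, ?_⟩⟩
      rw [hc, normHom_apply] at hv3
      exact Additive.ofMul.injective hv3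
    refine (mul_le_mul_of_nonneg_left h1 (Nat.cast_nonneg _)).trans ?_
    rw [psum_deg1_eq _ _ hs1.1 hs1.2, qsum, ← tsum_mul_left, ← tsum_mul_left]
    have hle : ∀ p : Nat.Primes, (orderOf x : ℝ) *
        (if (p : ℕ) ∈ T then
          (idealCount (fixF L (Subgroup.zpowers x)) p : ℝ) * (1 / ((p : ℕ) : ℝ) ^ s) else 0) ≤
        (Nat.card (Subgroup.centralizer {y} : Subgroup Gal(L/ℚ)) : ℝ) *
          (if (p : ℕ) ∈ FrobSet y then 1 / ((p : ℕ) : ℝ) ^ s else 0) := by
      intro p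
      have hp0 : (0 : ℝ) ≤ 1 / ((p : ℕ) : ℝ) ^ s := by positivity
      by_cases hpT : (p : ℕ) ∈ T
      · rw [if_pos hpT]
        have hp := (hT' _).mp hpT
        have h2 := ord_mul_idealCount_le p.2 (hur p p.2 hp.1) y (by
          intro P φ hP hPo hφ hmem
          have h3 := hκ p p.2 hp.1 P φ hP hPo hφ
          rw [hp.2] at h3
          rw [hy] at hmem
          have hyx : y ∈ Subgroup.zpowers x := by rw [← hy]; exact Subgroup.mem_zpowers y
          have h4 := hinj (φ * y⁻¹) (mul_mem hmem (inv_mem hyx)) (by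
            rw [map_mul, map_inv, h3, mul_inv_cancel])
          exact mul_inv_eq_one.mp h4)
        rw [hord] at h2
        have e2 : idealCount (fixF L (Subgroup.zpowers y)) (p : ℕ) =
            idealCount (fixF L (Subgroup.zpowers x)) p := by rw [hy]
        rw [e2] at h2
        have h3 : ((orderOf x * idealCount (fixF L (Subgroup.zpowers x)) p : ℕ) : ℝ) ≤
            ((if (p : ℕ) ∈ FrobSet y then
              Nat.card (Subgroup.centralizer {y} : Subgroup Gal(L/ℚ)) else 0 : ℕ) : ℝ) := by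
          exact_mod_cast h2
        push_cast at h3
        have h4 := mul_le_mul_of_nonneg_right h3 hp0
        rw [mul_assoc] at h4
        refine h4.trans (le_of_eq ?_)
        split_ifs <;> simp
      · rw [if_neg hpT, mul_zero]
        split_ifs
        · positivity
        · rw [mul_zero]
    have hsum2 := (summable_qsum (FrobSet y) hs1.1).mul_left
      (Nat.card (Subgroup.centralizer {y} : Subgroup Gal(L/ℚ)) : ℝ)
    refine Summable.tsum_le_tsum hle ?_ hsum2
    refine Summable.of_nonneg_of_le (fun p => ?_) hle hsum2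
    refine mul_nonneg (Nat.cast_nonneg _) ?_
    split_ifs
    · positivity
    · exact le_rfl
  have k1 := key x rfl
  have k2 := key x⁻¹ (Subgroup.zpowers_inv (g := x))
  have e1 : (Subgroup.centralizer {x⁻¹} : Subgroup Gal(L/ℚ)) = Subgroup.centralizer {x} := by
    ext z
    rw [Subgroup.mem_centralizer_singleton_iff, Subgroup.mem_centralizer_singleton_iff]
    constructor
    · intro h
      have := (show Commute z x⁻¹ from h).inv_right
      rw [inv_inv] at this
      exact this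
    · intro h
      exact (show Commute z x from h).inv_right
  rw [e1, map_inv, ofMul_inv] at k2
  rw [mul_add, mul_add]
  exact add_le_add k1 k2

end one

end

end Fermat.Agent.DS
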