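import Fermat.Agent.DS.SumSq

/-!
# The Dirichlet series of the squares of the coefficients
-/

set_option autoImplicit false
set_option linter.style.haveILetI false

namespace Fermat.Agent.DS

theorem dyadic {b : ℕ → ℝ} (hb : ∀ n, 0 ≤ b n) {C : ℝ} (hC0 : 0 < C)
    (hC : ∀ X : ℕ, 1 ≤ X → ∑ n ∈ Finset.range (X + 1), b n ≤ C * X) {s : ℝ} (hs : 1 < s)
    (hs2 : s ≤ 2) (n : ℕ) :
    ∑ k ∈ Finset.range n, b k * (k : ℝ) ^ (-s) ≤ 4 * C / (s - 1) := by
  have hterm : ∀ k, 0 ≤ b k * (k : ℝ) ^ (-s) := fun k =>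
    mul_nonneg (hb k) (Real.rpow_nonneg (Nat.cast_nonneg k) _)
  set x : ℝ := (1 / 2 : ℝ) ^ (s - 1) with hx
  have hx0 : 0 < x := by positivity
  have hx1 : x ≤ 1 - (s - 1) / 2 := by
    have h := rpow_one_add_le_one_add_mul_self (s := (-1 / 2 : ℝ)) (p := s - 1)
      (by norm_num) (by linarith) (by linarith)
    have h2 : (1 + (-1 / 2 : ℝ)) = 1 / 2 := by norm_num
    rw [h2] at h
    rw [hx]
    linarith
  have hdy : ∀ J : ℕ, ∑ k ∈ Finset.range (2 ^ J), b k * (k : ℝ) ^ (-s) ≤
      2 * C * ∑ j ∈ Finset.range J, x ^ j := by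
    intro J
    induction J with
    | zero =>
      simp only [pow_zero, Finset.range_one, Finset.sum_singleton, Nat.cast_zero, Finset.range_zero,
        Finset.sum_empty, mul_zero]
      rw [Real.zero_rpow (by linarith), mul_zero]
    | succ J ih =>
      rw [Finset.sum_range_succ, mul_add]
      have h1 : Finset.range (2 ^ (J + 1)) = Finset.range (2 ^ J) ∪ Finset.Ico (2 ^ J) (2 ^ (J + 1)) := by
        ext k
        rw [Finset.mem_union, Finset.mem_range, Finset.mem_range, Finset.mem_Ico]
        have : 2 ^ J ≤ 2 ^ (J + 1) := Nat.pow_le_pow_right (by norm_num) (by omega)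
        omega
      rw [h1, Finset.sum_union (by
        rw [Finset.disjoint_left]
        intro k hk hk'
        rw [Finset.mem_range] at hk
        rw [Finset.mem_Ico] at hk'
        omega)]
      refine add_le_add ih ?_
      have h2 : ∀ k ∈ Finset.Ico (2 ^ J) (2 ^ (J + 1)), b k * (k : ℝ) ^ (-s) ≤
          b k * ((2 : ℝ) ^ J) ^ (-s) := by
        intro k hk
        rw [Finset.mem_Ico] at hk
        refine mul_le_mul_of_nonneg_left ?_ (hb k)
        have hk1 : ((2 : ℝ) ^ J) ≤ k := by exact_mod_cast hk.1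
        exact Real.rpow_le_rpow_of_nonpos (by positivity) hk1 (by linarith)
      refine (Finset.sum_le_sum h2).trans ?_
      rw [← Finset.sum_mul]
      have h3 : ∑ k ∈ Finset.Ico (2 ^ J) (2 ^ (J + 1)), b k ≤ C * 2 ^ (J + 1) := by
        have h4 := hC (2 ^ (J + 1)) Nat.one_le_two_pow
        push_cast at h4
        refine le_trans (Finset.sum_le_sum_of_subset_of_nonneg ?_ fun k _ _ => hb k) h4
        intro k hk
        rw [Finset.mem_Ico] at hk
        rw [Finset.mem_range]
        omega
      refine (mul_le_mul_of_nonneg_right h3 (by positivity)).trans (le_of_eq ?_)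
      have h5 : ((2 : ℝ) ^ J) ^ (-s) = (((2 : ℝ) ^ J)⁻¹) * x ^ J := by
        rw [hx, ← Real.rpow_natCast 2 J, ← Real.rpow_mul (by norm_num), ← Real.rpow_neg (by norm_num),
          ← Real.rpow_natCast _ J, ← Real.rpow_mul (by norm_num), one_div,
          Real.inv_rpow (by norm_num), ← Real.rpow_neg (by norm_num), ← Real.rpow_add (by norm_num)]
        congr 1
        ring
      rw [h5, pow_succ]
      field_simp
  have hle : n ≤ 2 ^ n := Nat.lt_two_pow_self.le
  refine (Finset.sum_le_sum_of_subset_of_nonneg (Finset.range_mono hle)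
    fun k _ _ => hterm k).trans ((hdy n).trans ?_)
  have hgeo : ∑ j ∈ Finset.range n, x ^ j ≤ 2 / (s - 1) := by
    have hxlt : x < 1 := by linarith
    have h6 : ∑ j ∈ Finset.range n, x ^ j ≤ (1 - x)⁻¹ := by
      rw [← tsum_geometric_of_lt_one hx0.le hxlt]
      exact (summable_geometric_of_lt_one hx0.le hxlt).sum_le_tsum _ fun k _ => by positivity
    refine h6.trans ?_
    rw [inv_eq_one_div, div_le_div_iff₀ (by linarith) (by linarith)]
    linarith
  calc 2 * C * ∑ j ∈ Finset.range n, x ^ j ≤ 2 * C * (2 / (s - 1)) :=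
        mul_le_mul_of_nonneg_left hgeo (by positivity)
    _ = _ := by ring

end Fermat.Agent.DS
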