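import Fermat.Agent.ZC.RayDens

/-!
# Equidistribution (up to inversion) of the prime ideals in the classes of an ideal homomorphism
whose kernel has the expected density
-/

set_option autoImplicit false
set_option linter.unusedSectionVars false
set_option linter.style.haveILetI false

open scoped Classical nonZeroDivisors Topology

namespace Fermat.Agent.DS

open NumberField Filter IsDedekindDomain Module Fermat.Agent.CFT Fermat.Agent.H03 Fermat.Agent.ZC

noncomputable section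

variable {K : Type*} [Field K] [NumberField K]

/-- the primes which are not of degree one have bounded sum -/
theorem bdd1_not_deg1 : Bdd1 K fun v => ¬ Deg1 K v := by
  obtain ⟨C1, hC1⟩ := exists_upper K
  obtain ⟨C2, hC2⟩ := exists_lower K
  refine ⟨C1 + C2, ?_⟩
  filter_upwards [hC1, hC2, eventually_Ioc] with s h1 h2 hs
  have h3 := psum_add_le (K := K) hs.1 hs.2 (P := fun v => ¬ Deg1 K v) (Q := Deg1 K)
    (R := fun _ => True) (fun v _ => trivial) (fun v _ => trivial) (fun v h => h)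
  have h4 : psum K s (fun _ => True) = ∑' v : HeightOneSpectrum (𝓞 K), nrm K s v.asIdeal := by
    rw [psum]
    exact tsum_congr fun v => if_pos trivial
  rw [h4] at h3
  linarith

variable {𝔪 : Ideal (𝓞 K)} {A : Type*} [AddCommGroup A] [Finite A]

/-- the logarithm of the L-function -/
def Sψ (c : IdealHom 𝔪 A) (ψ : AddChar A ℂ) (s : ℝ) : ℝ :=
  ∑' v : HeightOneSpectrum (𝓞 K), ((c.char ψ).ψ v.asIdeal).re * nrm K s v.asIdeal

theorem summable_Sψ (c : IdealHom 𝔪 A) (ψ : AddChar A ℂ) {s : ℝ} (hs : 1 < s) (hs2 : s ≤ 2) :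
    Summable fun v : HeightOneSpectrum (𝓞 K) =>
      ((c.char ψ).ψ v.asIdeal).re * nrm K s v.asIdeal := by
  refine Summable.of_norm_bounded (summable_nrm_prime K hs hs2) fun v => ?_
  rw [norm_mul, Real.norm_of_nonneg (nrm_nonneg K s _)]
  refine mul_le_of_le_one_left (nrm_nonneg K s _) ?_
  exact (Complex.abs_re_le_norm _).trans ((c.char ψ).norm_le _)

theorem exists_Sψ_le (c : IdealHom 𝔪 A) (h𝔪 : 𝔪 ≠ ⊥)
    (hsurj : ∀ a : A, ∃ I : Ideal (𝓞 K), I ≠ ⊥ ∧ IsCoprime I 𝔪 ∧ c.toFun I = a)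
    (ψ : AddChar A ℂ) : ∃ C : ℝ, ∀ᶠ s in 𝓝[>] (1 : ℝ),
      Sψ c ψ s ≤ (if ψ = 1 then ell s else 0) + C := by
  by_cases hψ : ψ = 1
  · subst hψ
    obtain ⟨C, hC⟩ := exists_upper K
    refine ⟨C, ?_⟩
    filter_upwards [hC, eventually_Ioc] with s hs hs1
    rw [if_pos rfl]
    refine le_trans ?_ hs
    have e : ∀ v : HeightOneSpectrum (𝓞 K),
        ((c.char 1).ψ v.asIdeal).re * nrm K s v.asIdeal ≤ nrm K s v.asIdeal := by
      intro v
      refine mul_le_of_le_one_left (nrm_nonneg K s _) ?_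
      exact (Complex.re_le_norm _).trans ((c.char 1).norm_le _)
    exact Summable.tsum_le_tsum e (summable_Sψ c 1 hs1.1 hs1.2) (summable_nrm_prime K hs1.1 hs1.2)
  · obtain ⟨a, ha⟩ : ∃ a, ψ a ≠ 1 := by
      by_contra hcon
      push Not at hcon
      exact hψ (DFunLike.ext _ _ fun a => hcon a)
    obtain ⟨J, hJ0, hJc, rfl⟩ := hsurj a
    obtain ⟨C, hC⟩ := exists_char_bound (c.char ψ) h𝔪 ⟨J, hJ0, hJc, by
      rw [c.char_apply, if_pos ⟨hJ0, hJc⟩]; exact ha⟩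
    refine ⟨C, ?_⟩
    filter_upwards [hC] with s hs
    rw [if_neg hψ, zero_add]
    exact hs

/-- orthogonality -/
theorem sum_re_char (a b : A) :
    (∑ ψ : AddChar A ℂ, (ψ a).re * (ψ b).re) =
      (Nat.card A : ℝ) / 2 * ((if b = a then 1 else 0) + (if b = -a then 1 else 0)) := by
  haveI := Fintype.ofFinite A
  have h1 : ∀ ψ : AddChar A ℂ, (ψ a).re * (ψ b).re = ((ψ (a + b)).re + (ψ (b - a)).re) / 2 := by
    intro ψ
    rw [AddChar.map_add_eq_mul, sub_eq_add_neg, AddChar.map_add_eq_mul, AddChar.map_neg_eq_conj,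
      Complex.mul_re, Complex.mul_re, Complex.conj_re, Complex.conj_im]
    ring
  rw [Finset.sum_congr rfl fun ψ _ => h1 ψ, ← Finset.sum_div, Finset.sum_add_distrib,
    ← Complex.re_sum, ← Complex.re_sum, AddChar.sum_apply_eq_ite, AddChar.sum_apply_eq_ite,
    Nat.card_eq_fintype_card]
  have e1 : a + b = 0 ↔ b = -a := by
    rw [add_comm]; exact add_eq_zero_iff_eq_neg
  have e2 : b - a = 0 ↔ b = a := sub_eq_zero
  rw [if_congr e1 rfl rfl, if_congr e2 rfl rfl]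
  split_ifs <;> simp <;> ring

theorem sum_Sψ (c : IdealHom 𝔪 A) (a : A) {s : ℝ} (hs : 1 < s) (hs2 : s ≤ 2) :
    ∑ ψ : AddChar A ℂ, (ψ a).re * Sψ c ψ s =
      (Nat.card A : ℝ) / 2 * (psum K s (fun v => IsCoprime v.asIdeal 𝔪 ∧ c.toFun v.asIdeal = a) +
        psum K s (fun v => IsCoprime v.asIdeal 𝔪 ∧ c.toFun v.asIdeal = -a)) := by
  simp only [Sψ]
  simp_rw [← tsum_mul_left]
  rw [← Summable.tsum_finsetSum fun ψ _ => (summable_Sψ c ψ hs hs2).mul_left _, psum, psum,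
    ← (summable_psum K hs hs2 _).tsum_add (summable_psum K hs hs2 _), ← tsum_mul_left]
  refine tsum_congr fun v => ?_
  simp_rw [← mul_assoc]
  rw [← Finset.sum_mul]
  by_cases hv : IsCoprime v.asIdeal 𝔪
  · have e : ∀ ψ : AddChar A ℂ, (c.char ψ).ψ v.asIdeal = ψ (c.toFun v.asIdeal) := by
      intro ψ
      rw [c.char_apply, if_pos ⟨v.ne_bot, hv⟩]
    rw [Finset.sum_congr rfl fun ψ _ => by rw [e ψ], sum_re_char]
    simp only [hv, true_and]
    split_ifs <;> ring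
  · have e : ∀ ψ : AddChar A ℂ, (c.char ψ).ψ v.asIdeal = 0 := by
      intro ψ
      rw [c.char_apply, if_neg fun h => hv h.2]
    rw [Finset.sum_congr rfl fun ψ _ => by rw [e ψ]]
    simp [hv]

/-- **Equidistribution up to inversion**. -/
theorem exists_eqdist (c : IdealHom 𝔪 A) (h𝔪 : 𝔪 ≠ ⊥)
    (hsurj : ∀ a : A, ∃ I : Ideal (𝓞 K), I ≠ ⊥ ∧ IsCoprime I 𝔪 ∧ c.toFun I = a)
    (hlow : ∃ C : ℝ, ∀ᶠ s in 𝓝[>] (1 : ℝ), ell s - C ≤
      (Nat.card A : ℝ) * psum K s (fun v => IsCoprime v.asIdeal 𝔪 ∧ c.toFun v.asIdeal = 0))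
    (a : A) : ∃ C : ℝ, ∀ᶠ s in 𝓝[>] (1 : ℝ), 2 * ell s - C ≤
      (Nat.card A : ℝ) *
        (psum K s (fun v => Deg1 K v ∧ IsCoprime v.asIdeal 𝔪 ∧ c.toFun v.asIdeal = a) +
        psum K s (fun v => Deg1 K v ∧ IsCoprime v.asIdeal 𝔪 ∧ c.toFun v.asIdeal = -a)) := by
  choose U hU using exists_Sψ_le c h𝔪 hsurj
  obtain ⟨L, hL⟩ := hlow
  obtain ⟨D, hD⟩ := bdd1_dvd (K := K) h𝔪
  obtain ⟨E, hE⟩ := bdd1_not_deg1 (K := K)
  obtain ⟨F, hF⟩ := exists_lower K
  have hU' : ∀ᶠ s in 𝓝[>] (1 : ℝ), ∀ ψ : AddChar A ℂ, Sψ c ψ s ≤ (if ψ = 1 then ell s else 0) +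
    U ψ := eventually_all.mpr hU
  refine ⟨2 * (F + D + ∑ ψ : AddChar A ℂ, (|U ψ| + L + ∑ ψ : AddChar A ℂ, |U ψ|)) +
    (Nat.card A : ℝ) * (2 * E), ?_⟩
  filter_upwards [hU', hL, hD, hE, hF, eventually_Ioc, tendsto_ell.eventually_ge_atTop 0] with
    s h1 h2 h3 h4 h5 hs hell
  have hcard : (0 : ℝ) ≤ Nat.card A := Nat.cast_nonneg _
  -- lower bounds for the `S_ψ`
  have hsum0 := sum_Sψ c 0 hs.1 hs.2
  have e0 : ∀ ψ : AddChar A ℂ, (ψ 0).re = 1 := fun ψ => by
    rw [AddChar.map_zero_eq_one, Complex.one_re]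
  simp only [e0, one_mul, neg_zero] at hsum0
  have hsum0' : ∑ ψ : AddChar A ℂ, Sψ c ψ s =
      (Nat.card A : ℝ) * psum K s (fun v => IsCoprime v.asIdeal 𝔪 ∧ c.toFun v.asIdeal = 0) := by
    rw [hsum0]; ring
  have hlow : ∀ ψ : AddChar A ℂ, ψ ≠ 1 → - (L + ∑ ψ : AddChar A ℂ, |U ψ|) ≤ Sψ c ψ s := by
    intro ψ hψ
    have h6 : ∑ χ ∈ Finset.univ.erase ψ, Sψ c χ s ≤
        ∑ χ ∈ Finset.univ.erase ψ, ((if χ = 1 then ell s else 0) + |U χ|) :=
      Finset.sum_le_sum fun χ _ => (h1 χ).trans (add_le_add le_rfl (le_abs_self _))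
    have h7 : ∑ χ ∈ Finset.univ.erase ψ, ((if χ = 1 then ell s else 0) + |U χ|) ≤
        ell s + ∑ ψ : AddChar A ℂ, |U ψ| := by
      rw [Finset.sum_add_distrib]
      refine add_le_add ?_ ?_
      · rw [Finset.sum_ite_eq' (Finset.univ.erase ψ) (1 : AddChar A ℂ) (fun _ => ell s)]
        split_ifs
        · exact le_rfl
        · exact hell
      · exact Finset.sum_le_sum_of_subset_of_nonneg (Finset.erase_subset _ _)
          fun χ _ _ => abs_nonneg _
    have h8 := Finset.add_sum_erase Finset.univ (fun χ => Sψ c χ s) (Finset.mem_univ ψ)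
    linarith
  -- the trivial character
  have h1low : ell s - F - D ≤ Sψ c 1 s := by
    have e1 : Sψ c 1 s = psum K s (fun v => IsCoprime v.asIdeal 𝔪) := by
      rw [Sψ, psum]
      refine tsum_congr fun v => ?_
      rw [c.char_apply]
      by_cases hv : IsCoprime v.asIdeal 𝔪
      · rw [if_pos ⟨v.ne_bot, hv⟩, if_pos hv]
        simp
      · rw [if_neg fun h => hv h.2, if_neg hv]
        simp
    rw [e1]
    have h6 := psum_le_add K hs.1 hs.2 (P := Deg1 K) (Q := fun v => ¬ IsCoprime v.asIdeal 𝔪)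
      (R := fun v => IsCoprime v.asIdeal 𝔪) (fun v _ => (em _).symm)
    linarith
  -- the sum
  have hmain : ell s - F - D - ∑ ψ : AddChar A ℂ, (|U ψ| + L + ∑ ψ : AddChar A ℂ, |U ψ|) ≤
      ∑ ψ : AddChar A ℂ, (ψ a).re * Sψ c ψ s := by
    rw [← Finset.add_sum_erase Finset.univ (fun ψ => (ψ a).re * Sψ c ψ s) (Finset.mem_univ 1)]
    have e1 : ((1 : AddChar A ℂ) a).re * Sψ c 1 s = Sψ c 1 s := by simp
    simp only [e1]
    have hL0 : 0 ≤ L + ∑ ψ : AddChar A ℂ, |U ψ| := by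
      have h6 : psum K s (fun v => IsCoprime v.asIdeal 𝔪 ∧ c.toFun v.asIdeal = 0) *
          (Nat.card A : ℝ) ≤ ell s + ∑ ψ : AddChar A ℂ, |U ψ| := by
        rw [mul_comm, ← hsum0']
        refine (Finset.sum_le_sum fun χ _ => (h1 χ).trans (add_le_add le_rfl (le_abs_self _))).trans
          ?_
        rw [Finset.sum_add_distrib, Finset.sum_ite_eq' Finset.univ (1 : AddChar A ℂ)
          (fun _ => ell s), if_pos (Finset.mem_univ _)]
      linarith
    have h6 : ∀ ψ ∈ (Finset.univ : Finset (AddChar A ℂ)).erase 1,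
        -(|U ψ| + L + ∑ ψ : AddChar A ℂ, |U ψ|) ≤ (ψ a).re * Sψ c ψ s := by
      intro ψ hψ
      have hψ1 : ψ ≠ 1 := (Finset.mem_erase.mp hψ).1
      have h7 := hlow ψ hψ1
      have h8 := h1 ψ
      rw [if_neg hψ1, zero_add] at h8
      have h9 : |(ψ a).re| ≤ 1 := (Complex.abs_re_le_norm _).trans (ψ.norm_apply _).le
      have h10 : |Sψ c ψ s| ≤ |U ψ| + L + ∑ ψ : AddChar A ℂ, |U ψ| := by
        rw [abs_le]
        constructor
        · have := abs_nonneg (U ψ)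
          linarith
        · have := le_abs_self (U ψ)
          linarith
      have h11 : |(ψ a).re * Sψ c ψ s| ≤ |U ψ| + L + ∑ ψ : AddChar A ℂ, |U ψ| := by
        rw [abs_mul]
        exact (mul_le_of_le_one_left (abs_nonneg _) h9).trans h10
      exact (abs_le.mp h11).1
    have h7 := Finset.sum_le_sum h6
    have h8 : -∑ ψ : AddChar A ℂ, (|U ψ| + L + ∑ ψ : AddChar A ℂ, |U ψ|) ≤
        ∑ ψ ∈ (Finset.univ : Finset (AddChar A ℂ)).erase 1,
          -(|U ψ| + L + ∑ ψ : AddChar A ℂ, |U ψ|) := by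
      rw [Finset.sum_neg_distrib]
      refine neg_le_neg (Finset.sum_le_sum_of_subset_of_nonneg (Finset.erase_subset _ _) ?_)
      intro ψ _ _
      have := abs_nonneg (U ψ)
      linarith
    linarith
  rw [sum_Sψ c a hs.1 hs.2] at hmain
  have hdeg : ∀ b : A, psum K s (fun v => IsCoprime v.asIdeal 𝔪 ∧ c.toFun v.asIdeal = b) ≤
      psum K s (fun v => Deg1 K v ∧ IsCoprime v.asIdeal 𝔪 ∧ c.toFun v.asIdeal = b) + E := by
    intro b
    refine (psum_le_add K hs.1 hs.2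
      (P := fun v => IsCoprime v.asIdeal 𝔪 ∧ c.toFun v.asIdeal = b)
      (Q := fun v => Deg1 K v ∧ IsCoprime v.asIdeal 𝔪 ∧ c.toFun v.asIdeal = b)
      (R := fun v => ¬ Deg1 K v) (fun v hv => ?_)).trans (add_le_add le_rfl h4)
    by_cases hd : Deg1 K v
    · exact Or.inl ⟨hd, hv⟩
    · exact Or.inr hd
  have h6 := mul_le_mul_of_nonneg_left (add_le_add (hdeg a) (hdeg (-a))) hcard
  linarith

end

end Fermat.Agent.DS
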