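import Mathlib

/-!
# Finite subgroups of `GL₂` most of whose elements have traces in a given finite set
-/

set_option autoImplicit false

open scoped Classical

namespace Fermat.Agent.DS

open Matrix Finset

section mat

variable {R : Type*} [CommRing R]

theorem anticomm (A B : Matrix (Fin 2) (Fin 2) R) :
    A * B + B * A = A.trace • B + B.trace • A + ((A * B).trace - A.trace * B.trace) • 1 := by
  ext i j
  fin_cases i <;> fin_cases j <;>
    simp [Matrix.mul_apply, Matrix.trace_fin_two, Fin.sum_univ_two] <;> ring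

theorem trace_mul_add (A B B' : Matrix (Fin 2) (Fin 2) R) (h : B * B' = 1) :
    (A * B).trace + B.det * (A * B').trace = A.trace * B.trace := by
  have h1 : B + B.det • B' = B.trace • 1 := by
    have h2 : B * B = B.trace • B - B.det • 1 := by
      ext i j
      fin_cases i <;> fin_cases j <;>
        simp [Matrix.mul_apply, Matrix.trace_fin_two, Matrix.det_fin_two, Fin.sum_univ_two] <;> ring
    calc B + B.det • B' = (B * B + B.det • 1) * B' := by
          rw [add_mul, mul_assoc, h, mul_one, smul_mul_assoc, one_mul]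
      _ = B.trace • (B * B') := by rw [h2, sub_add_cancel, smul_mul_assoc]
      _ = B.trace • 1 := by rw [h]
  have h3 : (A * (B + B.det • B')).trace = A.trace * B.trace := by
    rw [h1, mul_smul_comm, mul_one, Matrix.trace_smul, smul_eq_mul, mul_comm]
  rw [mul_add, Matrix.trace_add, mul_smul_comm, Matrix.trace_smul, smul_eq_mul] at h3
  exact h3

end mat

variable {k : Type*} [Field k] {G : Type*} [Group G] [Fintype G] (ρ : G →* GL (Fin 2) k)

/-- trace of an element -/
noncomputable def tr (g : G) : k := ((ρ g : GL (Fin 2) k) : Matrix (Fin 2) (Fin 2) k).trace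

/-- determinant of an element -/
noncomputable def dt (g : G) : k := ((ρ g : GL (Fin 2) k) : Matrix (Fin 2) (Fin 2) k).det

theorem card_shift_le (S : Finset G) (x : G) :
    (univ.filter fun g : G => x * g ∈ S).card ≤ S.card := by
  refine card_le_card_of_injOn (fun g => x * g) (fun g hg => ?_) (fun a _ b _ h => ?_)
  · simpa using hg
  · exact mul_left_cancel h

theorem card_shift_le' (S : Finset G) (x : G) :
    (univ.filter fun g : G => g * x ∈ S).card ≤ S.card := by
  refine card_le_card_of_injOn (fun g => g * x) (fun g hg => ?_) (fun a _ b _ h => ?_)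
  · simpa using hg
  · exact mul_right_cancel h

/-- Not almost all traces are zero. -/
theorem card_trace_ne_zero (h2 : (2 : k) ≠ 0) :
    Fintype.card G ≤ 4 * (univ.filter fun g : G => tr ρ g ≠ 0).card := by
  by_contra hcon
  push Not at hcon
  set S : Finset G := univ.filter fun g : G => tr ρ g ≠ 0 with hS
  have hmem : ∀ g, g ∉ S ↔ tr ρ g = 0 := by
    intro g
    simp [hS]
  have key : ∀ U : Finset G, U.card < Fintype.card G → ∃ g, g ∉ U := by
    intro U hU
    by_contra h
    push Not at h
    have : U = univ := eq_univ_of_forall h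
    rw [this, card_univ] at hU
    exact lt_irrefl _ hU
  obtain ⟨a, ha⟩ := key S (by omega)
  obtain ⟨b, hb⟩ := key (S ∪ univ.filter fun g : G => a * g ∈ S) (by
    refine lt_of_le_of_lt (card_union_le _ _) ?_
    have := card_shift_le S a
    omega)
  obtain ⟨c, hc⟩ := key ((S ∪ univ.filter fun g : G => a * g ∈ S) ∪
    ((univ.filter fun g : G => b * g ∈ S) ∪ univ.filter fun g : G => a * b * g ∈ S)) (by
    refine lt_of_le_of_lt (card_union_le _ _) ?_
    have h1 := card_shift_le S a
    have h2 := card_shift_le S b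
    have h3 := card_shift_le S (a * b)
    have h4 := card_union_le S (univ.filter fun g : G => a * g ∈ S)
    have h5 := card_union_le (univ.filter fun g : G => b * g ∈ S)
      (univ.filter fun g : G => a * b * g ∈ S)
    omega)
  simp only [mem_union, mem_filter, mem_univ, true_and, not_or] at hb hc
  rw [hmem] at ha
  rw [hmem, hmem] at hb
  rw [hmem, hmem, hmem, hmem] at hc
  set A := ((ρ a : GL (Fin 2) k) : Matrix (Fin 2) (Fin 2) k) with hA
  set B := ((ρ b : GL (Fin 2) k) : Matrix (Fin 2) (Fin 2) k) with hB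
  set D := ((ρ c : GL (Fin 2) k) : Matrix (Fin 2) (Fin 2) k) with hD
  have tA : A.trace = 0 := ha
  have tB : B.trace = 0 := hb.1
  have tD : D.trace = 0 := hc.1.1
  have tAB : (A * B).trace = 0 := by
    have := hb.2
    rw [tr, map_mul] at this
    exact this
  have tAD : (A * D).trace = 0 := by
    have := hc.1.2
    rw [tr, map_mul] at this
    exact this
  have tBD : (B * D).trace = 0 := by
    have := hc.2.1
    rw [tr, map_mul] at this
    exact this
  have tABD : (A * (B * D)).trace = 0 := by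
    have := hc.2.2
    rw [tr, map_mul, map_mul] at this
    rw [← mul_assoc]
    exact this
  have e1 : A * B = -(B * A) := by
    have := anticomm A B
    rw [tA, tB, tAB] at this
    rw [eq_neg_iff_add_eq_zero, this]
    simp
  have e2 : A * D = -(D * A) := by
    have := anticomm A D
    rw [tA, tD, tAD] at this
    rw [eq_neg_iff_add_eq_zero, this]
    simp
  have e3 : A * (B * D) = -(B * D * A) := by
    have := anticomm A (B * D)
    rw [tA, tBD, tABD] at this
    rw [eq_neg_iff_add_eq_zero, this]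
    simp
  have e4 : A * (B * D) = B * D * A := by
    rw [← mul_assoc, e1, neg_mul, mul_assoc, e2, mul_neg, neg_neg, mul_assoc]
  rw [e4] at e3
  have e5 : (2 : k) • (B * D * A) = 0 := by
    rw [two_smul]
    nth_rewrite 1 [e3]
    exact neg_add_cancel _
  have e6 : B * D * A = 0 := (smul_eq_zero.mp e5).resolve_left h2
  have e7 : ((ρ (b * c * a) : GL (Fin 2) k) : Matrix (Fin 2) (Fin 2) k) = 0 := by
    rw [map_mul, map_mul]
    exact e6
  have e8 := congrArg Matrix.det e7
  rw [Matrix.det_zero] at e8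
  have e9 : IsUnit ((ρ (b * c * a) : GL (Fin 2) k) : Matrix (Fin 2) (Fin 2) k).det :=
    (Matrix.isUnit_iff_isUnit_det _).mp (Units.isUnit _)
  rw [e8] at e9
  exact not_isUnit_zero e9

/-- the set of possible traces -/
noncomputable def C' (C Dt : Finset k) : Finset k :=
  ((C ×ˢ C) ×ˢ (C ×ˢ Dt)).image fun q => (q.1.1 + q.2.2 * q.1.2) / q.2.1

theorem card_C' (C Dt : Finset k) : (C' C Dt).card ≤ (C.card * C.card) * (C.card * Dt.card) := by
  refine card_image_le.trans ?_
  rw [card_product, card_product, card_product]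

/-- all traces belong to `C'`. -/
theorem trace_mem_C' (h2 : (2 : k) ≠ 0) (H : Finset G) (hH : 12 * (univ \ H).card < Fintype.card G)
    (C Dt : Finset k) (hC : ∀ g ∈ H, tr ρ g ∈ C) (hD : ∀ g, dt ρ g ∈ Dt) (y : G) :
    tr ρ y ∈ C' C Dt := by
  set S : Finset G := univ \ H with hS
  have h1 := card_trace_ne_zero ρ h2
  have h3 : ∃ x ∈ univ.filter (fun g : G => tr ρ g ≠ 0),
      x ∉ (S ∪ univ.filter fun g : G => g * y ∈ S) ∪ univ.filter fun g : G => g * y⁻¹ ∈ S := by
    refine exists_mem_notMem_of_card_lt_card ?_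
    have h4 := card_union_le (S ∪ univ.filter fun g : G => g * y ∈ S)
      (univ.filter fun g : G => g * y⁻¹ ∈ S)
    have h5 := card_union_le S (univ.filter fun g : G => g * y ∈ S)
    have h6 := card_shift_le' S y
    have h7 := card_shift_le' S y⁻¹
    omega
  obtain ⟨x, hx1, hx2⟩ := h3
  simp only [hS, mem_union, mem_filter, mem_univ, true_and, not_or, mem_sdiff, not_not] at hx1 hx2
  have h4 := trace_mul_add ((ρ x : GL (Fin 2) k) : Matrix (Fin 2) (Fin 2) k)
    ((ρ y : GL (Fin 2) k) : Matrix (Fin 2) (Fin 2) k)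
    ((ρ y⁻¹ : GL (Fin 2) k) : Matrix (Fin 2) (Fin 2) k) (by
      rw [← Units.val_mul, ← map_mul, mul_inv_cancel, map_one, Units.val_one])
  have h5 : tr ρ (x * y) + dt ρ y * tr ρ (x * y⁻¹) = tr ρ x * tr ρ y := by
    rw [tr, tr, tr, tr, dt, map_mul, map_mul]
    exact h4
  rw [C', mem_image]
  refine ⟨((tr ρ (x * y), tr ρ (x * y⁻¹)), (tr ρ x, dt ρ y)), ?_, ?_⟩
  · rw [mem_product, mem_product, mem_product]
    exact ⟨⟨hC _ hx2.1.2, hC _ hx2.2⟩, hC _ hx2.1.1, hD y⟩
  · simp only
    rw [h5, mul_div_assoc, mul_comm, div_mul_cancel₀ _ hx1]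

/-- irreducible case -/
theorem card_le_of_span (hinj : Function.Injective ρ)
    (hspan : Submodule.span k (Set.range fun g : G =>
      ((ρ g : GL (Fin 2) k) : Matrix (Fin 2) (Fin 2) k)) = ⊤) (T : Finset k)
    (hT : ∀ g, tr ρ g ∈ T) : Fintype.card G ≤ T.card ^ 4 := by
  obtain ⟨b, hb, hb1, hb2⟩ := exists_linearIndependent k (Set.range fun g : G =>
      ((ρ g : GL (Fin 2) k) : Matrix (Fin 2) (Fin 2) k))
  have hfin : Finite b := ((Set.finite_range _).subset hb).to_subtype
  have := Fintype.ofFinite b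
  have hcard : Fintype.card b = 4 := by
    have h1 : Module.finrank k (Submodule.span k b) = 4 := by
      rw [hb1, hspan, finrank_top, Module.finrank_matrix]
      simp
    rw [← h1]
    have h2 := finrank_span_eq_card hb2
    rw [Subtype.range_val] at h2
    exact h2.symm
  have hex : ∀ m : b, ∃ g : G, ((ρ g : GL (Fin 2) k) : Matrix (Fin 2) (Fin 2) k) = m.1 :=
    fun m => hb m.2
  choose l hl using hex
  have hcardf : Fintype.card (b → T) = T.card ^ 4 := by
    rw [Fintype.card_fun, hcard, Fintype.card_coe]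
  rw [← hcardf]
  refine Fintype.card_le_of_injective (fun g : G => fun m : b => (⟨tr ρ (g * l m), hT _⟩ : T)) ?_
  intro g g' h
  apply hinj
  apply Units.ext
  -- the difference is orthogonal to everything
  have h1 : ∀ X : Matrix (Fin 2) (Fin 2) k,
      ((((ρ g : GL (Fin 2) k) : Matrix (Fin 2) (Fin 2) k) -
        ((ρ g' : GL (Fin 2) k) : Matrix (Fin 2) (Fin 2) k)) * X).trace = 0 := by
    intro X
    have hX : X ∈ Submodule.span k b := by rw [hb1, hspan]; trivial
    induction hX using Submodule.span_induction with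
    | mem x hx =>
      have h2 := congrArg Subtype.val (congrFun h ⟨x, hx⟩)
      simp only [tr, map_mul, Units.val_mul, hl] at h2
      rw [sub_mul, Matrix.trace_sub, h2, sub_self]
    | zero => simp
    | add x y _ _ hx hy => rw [mul_add, Matrix.trace_add, hx, hy, add_zero]
    | smul c x _ hx => rw [mul_smul_comm, Matrix.trace_smul, hx, smul_zero]
  rw [← sub_eq_zero]
  ext i j
  have h2 := h1 (Matrix.single j i 1)
  rw [Matrix.trace_mul_comm] at h2
  fin_cases i <;> fin_cases j <;>
    simpa [Matrix.trace_fin_two, Matrix.mul_apply, Fin.sum_univ_two, Matrix.single_apply] using h2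

/-- diagonal case -/
theorem card_le_of_diag (hinj : Function.Injective ρ) (P : GL (Fin 2) k)
    (hdiag : ∀ g, (P * ρ g * P⁻¹ : GL (Fin 2) k).1 0 1 = 0 ∧
      (P * ρ g * P⁻¹ : GL (Fin 2) k).1 1 0 = 0) (T Dt : Finset k)
    (hT : ∀ g, tr ρ g ∈ T) (hD : ∀ g, dt ρ g ∈ Dt) :
    Fintype.card G ≤ T.card * Dt.card * 2 := by
  set a : G → k := fun g => (P * ρ g * P⁻¹ : GL (Fin 2) k).1 0 0 with ha
  set d : G → k := fun g => (P * ρ g * P⁻¹ : GL (Fin 2) k).1 1 1 with hd
  have h1 : ∀ g, a g + d g = tr ρ g := by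
    intro g
    have h2 : ((P * ρ g * P⁻¹ : GL (Fin 2) k) : Matrix (Fin 2) (Fin 2) k).trace = tr ρ g := by
      rw [Units.val_mul, Matrix.trace_mul_comm, ← Units.val_mul, ← mul_assoc, inv_mul_cancel,
        one_mul, tr]
    rw [← h2, Matrix.trace_fin_two]
  have h2 : ∀ g, a g * d g = dt ρ g := by
    intro g
    have h3 : ((P * ρ g * P⁻¹ : GL (Fin 2) k) : Matrix (Fin 2) (Fin 2) k).det = dt ρ g := by
      rw [Units.val_mul, Matrix.det_mul, mul_comm, ← Matrix.det_mul, ← Units.val_mul, ← mul_assoc,
        inv_mul_cancel, one_mul, dt]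
    rw [← h3, Matrix.det_fin_two, (hdiag g).1, zero_mul, sub_zero]
  -- choose a root for every trace and determinant
  let r : k → k → k := fun t e => if h : ∃ x : k, x * (t - x) = e then h.choose else 0
  have hr : ∀ g, r (tr ρ g) (dt ρ g) * (tr ρ g - r (tr ρ g) (dt ρ g)) = dt ρ g := by
    intro g
    have hex : ∃ x : k, x * (tr ρ g - x) = dt ρ g :=
      ⟨a g, by rw [← h1 g, add_sub_cancel_left, h2 g]⟩
    change (if h : ∃ x : k, x * (tr ρ g - x) = dt ρ g then h.choose else 0) *
      (tr ρ g - (if h : ∃ x : k, x * (tr ρ g - x) = dt ρ g then h.choose else 0)) = dt ρ g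
    rw [dif_pos hex]
    exact hex.choose_spec
  have hcase : ∀ g, a g = r (tr ρ g) (dt ρ g) ∨ a g = tr ρ g - r (tr ρ g) (dt ρ g) := by
    intro g
    have h3 := hr g
    have h4 : (a g - r (tr ρ g) (dt ρ g)) * (a g - (tr ρ g - r (tr ρ g) (dt ρ g))) = 0 := by
      have h5 := h1 g
      have h6 := h2 g
      rw [← h5, ← h6] at h3
      rw [← h5, ← h6]
      linear_combination h3
    rcases mul_eq_zero.mp h4 with h5 | h5
    · exact Or.inl (sub_eq_zero.mp h5)
    · exact Or.inr (sub_eq_zero.mp h5)
  have hcard : Fintype.card ((T × Dt) × Bool) = T.card * Dt.card * 2 := by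
    rw [Fintype.card_prod, Fintype.card_prod, Fintype.card_coe, Fintype.card_coe,
      Fintype.card_bool]
  rw [← hcard]
  refine Fintype.card_le_of_injective
    (fun g : G => ((⟨tr ρ g, hT g⟩, ⟨dt ρ g, hD g⟩), decide (a g = r (tr ρ g) (dt ρ g)))) ?_
  intro g g' h
  have e1 : tr ρ g = tr ρ g' := congrArg Subtype.val (congrArg Prod.fst (congrArg Prod.fst h))
  have e2 : dt ρ g = dt ρ g' := congrArg Subtype.val (congrArg Prod.snd (congrArg Prod.fst h))
  have e3 : decide (a g = r (tr ρ g) (dt ρ g)) = decide (a g' = r (tr ρ g') (dt ρ g')) :=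
    congrArg Prod.snd h
  have e4 : a g = a g' := by
    rw [decide_eq_decide, e1, e2] at e3
    by_cases hg : a g = r (tr ρ g') (dt ρ g')
    · rw [hg, e3.mp hg]
    · have hg' : ¬ a g' = r (tr ρ g') (dt ρ g') := fun h' => hg (e3.mpr h')
      have h5 := hcase g
      rw [e1, e2] at h5
      rw [h5.resolve_left hg, (hcase g').resolve_left hg']
  have e5 : d g = d g' := by
    have h5 := h1 g
    have h6 := h1 g'
    rw [e4, e1] at h5
    exact add_left_cancel (h5.trans h6.symm)
  have e6 : P * ρ g * P⁻¹ = P * ρ g' * P⁻¹ := by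
    apply Units.ext
    ext i j
    fin_cases i <;> fin_cases j
    · exact e4
    · exact (hdiag g).1.trans (hdiag g').1.symm
    · exact (hdiag g).2.trans (hdiag g').2.symm
    · exact e5
  exact hinj (mul_left_cancel (mul_right_cancel e6))

/-- **The bound for the order of the group** -/
theorem card_group_le (h2 : (2 : k) ≠ 0) (hinj : Function.Injective ρ)
    (hss : Submodule.span k (Set.range fun g : G =>
        ((ρ g : GL (Fin 2) k) : Matrix (Fin 2) (Fin 2) k)) = ⊤ ∨
      ∃ P : GL (Fin 2) k, ∀ g, (P * ρ g * P⁻¹ : GL (Fin 2) k).1 0 1 = 0 ∧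
        (P * ρ g * P⁻¹ : GL (Fin 2) k).1 1 0 = 0)
    (H : Finset G) (hH : 12 * (univ \ H).card < Fintype.card G)
    (C Dt : Finset k) (hC : ∀ g ∈ H, tr ρ g ∈ C) (hD : ∀ g, dt ρ g ∈ Dt) {M n : ℕ}
    (hM : C.card ≤ M) (hn : Dt.card ≤ n) :
    Fintype.card G ≤ (M * M * (M * n)) ^ 4 + M * M * (M * n) * n * 2 := by
  have hT := trace_mem_C' ρ h2 H hH C Dt hC hD
  have hcT : (C' C Dt).card ≤ M * M * (M * n) :=
    (card_C' C Dt).trans (Nat.mul_le_mul (Nat.mul_le_mul hM hM) (Nat.mul_le_mul hM hn))
  rcases hss with h | ⟨P, hP⟩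
  · exact (card_le_of_span ρ hinj h _ hT).trans
      ((Nat.pow_le_pow_left hcT 4).trans (Nat.le_add_right _ _))
  · exact (card_le_of_diag ρ hinj P hP _ Dt hT hD).trans
      ((Nat.mul_le_mul_right 2 (Nat.mul_le_mul hcT hn)).trans (Nat.le_add_left _ _))

end Fermat.Agent.DS
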