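import Fermat.Agent.DS.ModBound

/-!
# Most coefficients belong to a finite set
-/

set_option autoImplicit false
set_option linter.unusedSectionVars false
set_option linter.style.haveILetI false

open scoped Classical Topology

namespace Fermat.Agent.DS

open NumberField Module IntermediateField Filter Fermat.Agent.CFT Fermat.Agent.ZC Fermat.Agent.H03

/-- Rankin's bound for a sequence of complex numbers indexed by primes -/
def RankinBd (N : ℕ) (b : ℕ → ℂ) : Prop :=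
  ∃ C : ℝ, ∀ s : ℝ, 1 < s → s ≤ 2 → ∀ P : Finset ℕ, (∀ p ∈ P, p.Prime ∧ ¬ p ∣ N) →
    ∑ p ∈ P, ‖b p‖ ^ 2 * (p : ℝ) ^ (-s) ≤ Real.log (1 / (s - 1)) + C

theorem exists_YT {N : ℕ} {a : ℕ → OO} (K₀ : IntermediateField ℚ Qb) [NumberField K₀]
    (b : ℕ → K₀) (hb : ∀ p : ℕ, p.Prime → ¬ p ∣ N → ((b p : K₀) : Qb) = a p)
    (hR : ∀ τ : K₀ →+* ℂ, RankinBd N fun p => τ (b p)) :
    ∃ (Y : Finset OO) (T : Set ℕ), (∀ p : ℕ, p.Prime → ¬ p ∣ N → p ∉ T → a p ∈ Y) ∧
      ∃ C : ℝ, ∀ᶠ s in 𝓝[>] (1 : ℝ), qsum T s ≤ (1 / 48) * ell s + C := by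
  set r : ℕ := Fintype.card (K₀ →+* ℂ) with hr
  obtain ⟨c, hc0, hc⟩ : ∃ c : ℝ, 0 < c ∧ 48 * r ≤ c ^ 2 :=
    ⟨48 * r + 1, by positivity, by nlinarith [(Nat.cast_nonneg r : (0 : ℝ) ≤ r)]⟩
  have hfin := NumberField.Embeddings.finite_of_norm_le K₀ ℂ c
  have hfin2 : {y : OO | ∃ x : K₀, (x : Qb) = y ∧ ∀ φ : K₀ →+* ℂ, ‖φ x‖ ≤ c}.Finite := by
    refine Set.Finite.of_finite_image (f := fun y : OO => (y : Qb))
      ((hfin.image (fun x : K₀ => (x : Qb))).subset ?_) Subtype.val_injective.injOn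
    rintro _ ⟨y, ⟨x, hx, hx2⟩, rfl⟩
    refine ⟨x, ⟨?_, hx2⟩, hx⟩
    have h1 : IsIntegral ℤ (x : Qb) := by rw [hx]; exact y.2
    exact (isIntegral_algebraMap_iff (A := K₀) (B := Qb) Subtype.val_injective).mp h1
  obtain ⟨T, hT⟩ : ∃ T : Set ℕ, ∀ p, p ∈ T ↔
    (p.Prime ∧ ¬ p ∣ N ∧ ∃ τ : K₀ →+* ℂ, c < ‖τ (b p)‖) := ⟨{p | _}, fun _ => Iff.rfl⟩
  choose C hC using hR
  refine ⟨hfin2.toFinset, T, ?_, ∑ τ, |C τ|, ?_⟩
  · intro p hp hpN hpT
    rw [Set.Finite.mem_toFinset]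
    refine ⟨b p, hb p hp hpN, fun φ => ?_⟩
    by_contra hcon
    push Not at hcon
    exact hpT ((hT p).mpr ⟨hp, hpN, φ, hcon⟩)
  · filter_upwards [eventually_Ioc, tendsto_ell.eventually_ge_atTop 0] with s hs hell
    rw [qsum]
    refine Real.tsum_le_of_sum_le (fun p => ?_) (fun u => ?_)
    · split_ifs
      · positivity
      · exact le_rfl
    · set P : Finset ℕ := (u.image fun p : Nat.Primes => (p : ℕ)).filter fun p => p ∈ T with hP
      have e1 : ∑ p ∈ u, (if (p : ℕ) ∈ T then 1 / ((p : ℕ) : ℝ) ^ s else 0) =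
          ∑ p ∈ P, 1 / (p : ℝ) ^ s := by
        rw [hP, Finset.sum_filter]
        exact (Finset.sum_image (f := fun p : ℕ => if p ∈ T then 1 / (p : ℝ) ^ s else 0)
          (Nat.Primes.coe_nat_injective.injOn)).symm
      rw [e1]
      have hPT : ∀ p ∈ P, p ∈ T := fun p hp => (Finset.mem_filter.mp hp).2
      have h1 : ∀ p ∈ P, 1 / (p : ℝ) ^ s ≤
          (1 / c ^ 2) * ∑ τ : K₀ →+* ℂ, ‖τ (b p)‖ ^ 2 * (p : ℝ) ^ (-s) := by
        intro p hp
        obtain ⟨hpp, hpN, τ, hτ⟩ := (hT p).mp (hPT p hp)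
        have h2 : ‖τ (b p)‖ ^ 2 * (p : ℝ) ^ (-s) ≤
            ∑ τ : K₀ →+* ℂ, ‖τ (b p)‖ ^ 2 * (p : ℝ) ^ (-s) :=
          Finset.single_le_sum (f := fun τ : K₀ →+* ℂ => ‖τ (b p)‖ ^ 2 * (p : ℝ) ^ (-s))
            (fun _ _ => by positivity) (Finset.mem_univ τ)
        have h3 : c ^ 2 ≤ ‖τ (b p)‖ ^ 2 := pow_le_pow_left₀ hc0.le hτ.le 2
        have h4 : (0 : ℝ) ≤ (p : ℝ) ^ (-s) := by positivity
        have h5 : 1 / (p : ℝ) ^ s = (p : ℝ) ^ (-s) := by
          rw [Real.rpow_neg (Nat.cast_nonneg p), one_div]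
        rw [h5, one_div, ← div_eq_inv_mul, le_div_iff₀ (by positivity)]
        calc (p : ℝ) ^ (-s) * c ^ 2 ≤ (p : ℝ) ^ (-s) * ‖τ (b p)‖ ^ 2 :=
              mul_le_mul_of_nonneg_left h3 h4
          _ = ‖τ (b p)‖ ^ 2 * (p : ℝ) ^ (-s) := mul_comm _ _
          _ ≤ _ := h2
      refine (Finset.sum_le_sum h1).trans ?_
      rw [← Finset.mul_sum, Finset.sum_comm]
      have h2 : ∑ τ : K₀ →+* ℂ, ∑ p ∈ P, ‖τ (b p)‖ ^ 2 * (p : ℝ) ^ (-s) ≤
          ∑ τ : K₀ →+* ℂ, (ell s + |C τ|) := by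
        refine Finset.sum_le_sum fun τ _ => ?_
        refine (hC τ s hs.1 hs.2 P fun p hp =>
          ⟨((hT p).mp (hPT p hp)).1, ((hT p).mp (hPT p hp)).2.1⟩).trans ?_
        exact add_le_add le_rfl (le_abs_self _)
      rw [Finset.sum_add_distrib, Finset.sum_const, nsmul_eq_mul, Finset.card_univ, ← hr] at h2
      have hCs : 0 ≤ ∑ τ, |C τ| := Finset.sum_nonneg fun _ _ => abs_nonneg _
      rcases Nat.eq_zero_or_pos r with hr0 | hr0
      · -- no embeddings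
        have h3 : (Finset.univ : Finset (K₀ →+* ℂ)) = ∅ := by
          rw [← Finset.card_eq_zero, Finset.card_univ, ← hr, hr0]
        rw [h3]
        simp only [Finset.sum_empty, mul_zero, add_zero]
        positivity
      · have hr1 : (1 : ℝ) ≤ r := by exact_mod_cast hr0
        have hc48 : 48 ≤ c ^ 2 := by nlinarith
        have h3 : (1 / c ^ 2) * (r * ell s + ∑ τ, |C τ|) ≤ 1 / 48 * ell s + ∑ τ, |C τ| := by
          rw [mul_add]
          refine add_le_add ?_ ?_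
          · rw [← mul_assoc]
            refine mul_le_mul_of_nonneg_right ?_ hell
            rw [one_div_mul_eq_div, div_le_div_iff₀ (by positivity) (by norm_num)]
            linarith
          · refine mul_le_of_le_one_left hCs ?_
            rw [div_le_one (by positivity)]
            linarith
        refine le_trans ?_ h3
        exact mul_le_mul_of_nonneg_left h2 (by positivity)

end Fermat.Agent.DS
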