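import Fermat.Agent.DS.Cheb
import Fermat.Agent.DS.FinGrp

/-!
# Systems of mod `ℓ` representations
-/

set_option autoImplicit false
set_option linter.unusedSectionVars false

open scoped Classical

namespace Fermat.Agent.DS

open NumberField Module IntermediateField

/-- the ring of all algebraic integers -/
abbrev OO : Type := integralClosure ℤ Qb

/-- reduction of algebraic integers at a place -/
noncomputable def resO (B : ValuationSubring Qb) : OO →+* IsLocalRing.ResidueField B :=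
  (IsLocalRing.residue B).comp (H05.toA B)

/-- simultaneous (absolute) semisimplicity of a two dimensional representation -/
def SS {G k : Type*} [Group G] [Field k] (ρ : G →* GL (Fin 2) k) : Prop :=
  Submodule.span k (Set.range fun g : G =>
      ((ρ g : GL (Fin 2) k) : Matrix (Fin 2) (Fin 2) k)) = ⊤ ∨
    ∃ P : GL (Fin 2) k, ∀ g, (P * ρ g * P⁻¹ : GL (Fin 2) k).1 0 1 = 0 ∧
      (P * ρ g * P⁻¹ : GL (Fin 2) k).1 1 0 = 0

/-- trace -/
noncomputable def trG {G k : Type*} [Group G] [Field k] (ρ : G →* GL (Fin 2) k) (g : G) : k :=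
  ((ρ g : GL (Fin 2) k) : Matrix (Fin 2) (Fin 2) k).trace

/-- determinant -/
noncomputable def dtG {G k : Type*} [Group G] [Field k] (ρ : G →* GL (Fin 2) k) (g : G) : k :=
  ((ρ g : GL (Fin 2) k) : Matrix (Fin 2) (Fin 2) k).det

/-- the properties of a mod `ℓ` representation attached to the system `(a, e)` at a
place `B` over `ℓ`. -/
structure IsModRep (N : ℕ) (a e : ℕ → OO) (ℓ : ℕ) (B : ValuationSubring Qb)
    (ρ : GQ →* GL (Fin 2) (IsLocalRing.ResidueField B)) : Prop where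
  fin : ∃ F : IntermediateField ℚ Qb, FiniteDimensional ℚ F ∧ F.fixingSubgroup ≤ ρ.ker
  ss : SS ρ
  inert : ∀ q : ℕ, q.Prime → ¬ q ∣ N → q ≠ ℓ → ∀ A : ValuationSubring Qb, A.LiesOverPrime q →
    ∀ σ ∈ A.inertiaSubgroupIn ℚ, ρ σ = 1
  frob : ∀ q : ℕ, q.Prime → ¬ q ∣ N → q ≠ ℓ → ∀ A : ValuationSubring Qb, A.LiesOverPrime q →
    ∀ σ : GQ, A.IsFrobeniusAt σ q → trG ρ σ = resO B (a q) ∧ dtG ρ σ = resO B (e q)

/-- **The mod `ℓ` input**: for all large primes `ℓ` and all places `B` over `ℓ`. -/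
def ModInput (N : ℕ) (a e : ℕ → OO) : Prop :=
  ∃ ℓ₀ : ℕ, ∀ ℓ : ℕ, ℓ.Prime → ℓ₀ < ℓ → ∀ B : ValuationSubring Qb, B.LiesOverPrime ℓ →
    ∃ ρ : GQ →* GL (Fin 2) (IsLocalRing.ResidueField B), IsModRep N a e ℓ B ρ

/-- a nonzero algebraic integer is divisible by finitely many places only -/
theorem exists_norm {c : OO} (hc : c ≠ 0) : ∃ n : ℕ, n ≠ 0 ∧ ∀ ℓ : ℕ, ℓ.Prime →
    ∀ B : ValuationSubring Qb, B.LiesOverPrime ℓ → resO B c = 0 → ℓ ∣ n := by
  have h1 : (Ideal.span {c} : Ideal OO).comap (algebraMap ℤ OO) ≠ ⊥ :=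
    Ideal.comap_ne_bot_of_integral_mem hc (Ideal.mem_span_singleton_self c)
      (Algebra.IsIntegral.isIntegral c)
  obtain ⟨z, hz, hz0⟩ := Submodule.exists_mem_ne_zero_of_ne_bot h1
  obtain ⟨d, hd⟩ := Ideal.mem_span_singleton'.mp (Ideal.mem_comap.mp hz)
  refine ⟨z.natAbs, Int.natAbs_ne_zero.mpr hz0, fun ℓ hℓ B hB hcB => ?_⟩
  have h2 : resO B (algebraMap ℤ OO z) = 0 := by rw [← hd, map_mul, hcB, mul_zero]
  have h3 : ((z : ℤ) : IsLocalRing.ResidueField B) = 0 := by
    rw [← h2, eq_intCast, map_intCast]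
  have := H05.charP_residueField hℓ hB
  rw [CharP.intCast_eq_zero_iff _ ℓ] at h3
  exact Int.natCast_dvd.mp h3

/-- congruence modulo infinitely many places implies equality -/
theorem eq_of_resO {c d : OO} (h : ∀ n : ℕ, ∃ ℓ : ℕ, ℓ.Prime ∧ n < ℓ ∧
    ∃ B : ValuationSubring Qb, B.LiesOverPrime ℓ ∧ resO B c = resO B d) : c = d := by
  by_contra hcd
  obtain ⟨n, hn, h1⟩ := exists_norm (sub_ne_zero.mpr hcd)
  obtain ⟨ℓ, hℓ, hnℓ, B, hB, hcB⟩ := h n
  have h2 := h1 ℓ hℓ B hB (by rw [map_sub, hcB, sub_self])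
  have := Nat.le_of_dvd (Nat.pos_of_ne_zero hn) h2
  omega

/-- roots of unity of order prime to `ℓ` are separated -/
theorem eq_one_of_resO {ℓ : ℕ} (hℓ : ℓ.Prime) {B : ValuationSubring Qb} (hB : B.LiesOverPrime ℓ)
    {m : ℕ} (hm : ¬ ℓ ∣ m) {z : OO} (hz : z ^ m = 1) (h : resO B z = 1) : z = 1 := by
  apply Subtype.ext
  have hm0 : m ≠ 0 := by rintro rfl; exact hm (dvd_zero _)
  refine H05.rootsOfUnity_eq_of_residue_eq hℓ hB hm (x := (z : Qb)) (y := 1) ?_ (one_pow m) ?_
  · have := congrArg Subtype.val hz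
    simpa using this
  · have h1 : resO B (z - 1) = 0 := by rw [map_sub, h, map_one, sub_self]
    rw [resO, RingHom.comp_apply, IsLocalRing.residue_eq_zero_iff,
      ← ValuationSubring.coe_mem_nonunits_iff] at h1
    exact h1

section field

/-- the finite Galois extension attached to an open normal subgroup -/
theorem exists_galois_field (U : Subgroup GQ) [hU : U.Normal] (F : IntermediateField ℚ Qb)
    [FiniteDimensional ℚ F] (h : F.fixingSubgroup ≤ U) :
    ∃ (E : IntermediateField ℚ Qb) (_ : NumberField E) (_ : IsGalois ℚ E),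
      E.fixingSubgroup = U := by
  have hg : IsGalois ℚ Qb := H51.isGalois_Qbar
  have ho : IsOpen (U : Set GQ) :=
    Subgroup.isOpen_mono h (IntermediateField.fixingSubgroup_isOpen _)
  have h1 : fixedField U ≤ F := by
    rw [← InfiniteGalois.fixedField_fixingSubgroup F]
    exact fixedField_antitone h
  have h2 : FiniteDimensional ℚ (fixedField U) :=
    Module.Finite.of_injective (inclusion h1).toLinearMap (inclusion h1).injective
  exact ⟨fixedField U, { to_charZero := inferInstance, to_finiteDimensional := h2 },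
    IsGalois.of_fixedField_normal_subgroup U,
    InfiniteGalois.fixingSubgroup_fixedField ⟨U, Subgroup.isClosed_of_isOpen _ ho⟩⟩

/-- descent of a homomorphism to a finite Galois group, injectively -/
theorem exists_descent {H : Type*} [Group H] (ρ : GQ →* H) (F : IntermediateField ℚ Qb)
    [FiniteDimensional ℚ F] (h : F.fixingSubgroup ≤ ρ.ker) :
    ∃ (E : IntermediateField ℚ Qb) (_ : NumberField E) (_ : IsGalois ℚ E)
      (ρE : Gal(E/ℚ) →* H), E.fixingSubgroup = ρ.ker ∧ Function.Injective ρE ∧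
        ∀ σ, ρE (AlgEquiv.restrictNormalHom E σ) = ρ σ := by
  obtain ⟨E, hE1, hE2, hE⟩ := exists_galois_field ρ.ker F h
  have hsurj := AlgEquiv.restrictNormalHom_surjective (F := ℚ) (K₁ := E) Qb
  let ρE : Gal(E/ℚ) →* H :=
    (AlgEquiv.restrictNormalHom (F := ℚ) (K₁ := Qb) E).liftOfSurjective hsurj
      ⟨ρ, by rw [ker_restrict, hE]⟩
  have hρE : ∀ σ, ρE (AlgEquiv.restrictNormalHom E σ) = ρ σ := fun σ =>
    MonoidHom.liftOfRightInverse_comp_apply _ _ _ _ σ
  refine ⟨E, hE1, hE2, ρE, hE, ?_, hρE⟩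
  rw [injective_iff_map_eq_one]
  intro g hg
  obtain ⟨σ, rfl⟩ := hsurj g
  rw [hρE] at hg
  rw [restrict_eq_one_iff, hE]
  exact hg

end field

end Fermat.Agent.DS
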