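import Fermat.Agent.DS.Null
import Fermat.Prelude.Def_Deformations_MatrixRepresentation
import Fermat.Prelude.Def_GaloisRep_Residual

/-!
# Irreducibility, and the main theorem
-/

set_option autoImplicit false
set_option linter.unusedSectionVars false
set_option linter.style.haveILetI false

open scoped Classical Topology

namespace Fermat.Agent.DS

open NumberField Module IntermediateField Filter Fermat.Agent.CFT Fermat.Agent.ZC Matrix
  Fermat.Agent.H03

section irr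

variable {G : Type} [Group G] (ρ : G →* GL (Fin 2) ℂ)

/-- a reducible representation has an eigenvector -/
theorem exists_eigenvector (h : ¬ (Deformation.matrixRepresentation ρ).IsIrreducible) :
    ∃ v : Fin 2 → ℂ, v ≠ 0 ∧ ∀ g, ∃ c : ℂ, (ρ g).1.mulVec v = c • v := by
  by_contra hcon
  push Not at hcon
  apply h
  have hnt : Nontrivial (Subrepresentation (Deformation.matrixRepresentation ρ)) := by
    refine ⟨⊥, ⊤, fun h => ?_⟩
    have h1 : (⊥ : Submodule ℂ (Fin 2 → ℂ)) = ⊤ := by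
      have := congrArg Subrepresentation.toSubmodule h
      exact this
    exact bot_ne_top h1
  refine { hnt with eq_bot_or_eq_top := fun W => ?_ }
  by_cases hW : W.toSubmodule = ⊥
  · left
    apply Subrepresentation.toSubmodule_injective
    exact hW
  · right
    obtain ⟨v, hv, hv0⟩ := Submodule.exists_mem_ne_zero_of_ne_bot hW
    obtain ⟨g, hg⟩ := hcon v hv0
    have hgv : (ρ g).1.mulVec v ∈ W.toSubmodule := by
      have := W.apply_mem_toSubmodule g hv
      rw [Deformation.matrixRepresentation_apply, Matrix.mulVecLin_apply] at this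
      exact this
    apply Subrepresentation.toSubmodule_injective
    change W.toSubmodule = ⊤
    have hli : LinearIndependent ℂ ![v, (ρ g).1.mulVec v] := by
      rw [LinearIndependent.pair_iff' hv0]
      intro c hc
      exact hg c hc.symm
    have hspan : Submodule.span ℂ (Set.range ![v, (ρ g).1.mulVec v]) = ⊤ :=
      hli.span_eq_top_of_card_eq_finrank (by simp)
    rw [eq_top_iff, ← hspan, Submodule.span_le]
    rintro x ⟨i, rfl⟩
    fin_cases i
    · exact hv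
    · exact hgv

/-- the two characters of a reducible representation -/
theorem exists_chars (h : ¬ (Deformation.matrixRepresentation ρ).IsIrreducible) :
    ∃ χ₁ χ₂ : G →* ℂˣ, ∀ g, trG ρ g = χ₁ g + χ₂ g := by
  obtain ⟨v, hv0, hv⟩ := exists_eigenvector ρ h
  choose c hc using hv
  have hinj : ∀ x y : ℂ, x • v = y • v → x = y := by
    intro x y hxy
    have h1 : (x - y) • v = 0 := by rw [sub_smul, hxy, sub_self]
    exact sub_eq_zero.mp ((smul_eq_zero.mp h1).resolve_right hv0)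
  have hone : c 1 = 1 := by
    apply hinj
    rw [← hc, map_one, Units.val_one, Matrix.one_mulVec, one_smul]
  have hmul : ∀ g h, c (g * h) = c g * c h := by
    intro g h
    apply hinj
    rw [← hc, map_mul, Units.val_mul, ← Matrix.mulVec_mulVec, hc h, Matrix.mulVec_smul, hc g,
      smul_smul, mul_comm]
  let cM : G →* ℂ := { toFun := c, map_one' := hone, map_mul' := hmul }
  let χ₁ : G →* ℂˣ := cM.toHomUnits
  let dM : G →* ℂˣ := (Matrix.GeneralLinearGroup.det).comp ρ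
  refine ⟨χ₁, dM * χ₁⁻¹, fun g => ?_⟩
  have h1 : ((χ₁ g : ℂˣ) : ℂ) = c g := MonoidHom.coe_toHomUnits _ _
  have hc0 : c g ≠ 0 := by rw [← h1]; exact Units.ne_zero _
  have h2 : (((dM * χ₁⁻¹) g : ℂˣ) : ℂ) = dtG ρ g * (c g)⁻¹ := by
    rw [MonoidHom.mul_apply, MonoidHom.inv_apply, Units.val_mul, Units.val_inv_eq_inv_val, h1]
    rfl
  rw [h1, h2]
  have h3 : (ρ g).1.mulVec ((ρ g).1.mulVec v) = (trG ρ g * c g - dtG ρ g) • v := by
    rw [Matrix.mulVec_mulVec, sq_eq, Matrix.sub_mulVec, Matrix.smul_mulVec, Matrix.smul_mulVec,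
      Matrix.one_mulVec, hc g, smul_smul, sub_smul]
    rfl
  rw [hc g, Matrix.mulVec_smul, hc g, smul_smul] at h3
  have h4 := hinj _ _ h3
  field_simp
  linear_combination -h4

theorem norm_char [Finite G] (χ : G →* ℂˣ) (g : G) : ‖((χ g : ℂˣ) : ℂ)‖ = 1 := by
  have h1 : ((χ g : ℂˣ) : ℂ) ^ Nat.card G = 1 := by
    rw [← Units.val_pow_eq_pow_val, ← map_pow, pow_card_eq_one', map_one, Units.val_one]
  exact Complex.norm_eq_one_of_pow_eq_one h1 Nat.card_pos.ne'

theorem char_inv [Finite G] (χ : G →* ℂˣ) (g : G) :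
    ((χ g⁻¹ : ℂˣ) : ℂ) = (starRingEnd ℂ) ((χ g : ℂˣ) : ℂ) := by
  rw [map_inv, Units.val_inv_eq_inv_val, ← Complex.inv_eq_conj (norm_char χ g)]

theorem sum_char_re [Fintype G] (χ : G →* ℂˣ) : 0 ≤ ∑ g, (((χ g : ℂˣ) : ℂ)).re := by
  by_cases h : χ = 1
  · subst h
    refine Finset.sum_nonneg fun g _ => ?_
    simp
  · obtain ⟨h0, hh⟩ : ∃ x, χ x ≠ 1 := by
      by_contra hcon
      push Not at hcon
      exact h (MonoidHom.ext hcon)
    have h1 : ∑ g, ((χ g : ℂˣ) : ℂ) = 0 := by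
      have h2 : ((χ h0 : ℂˣ) : ℂ) * ∑ g, ((χ g : ℂˣ) : ℂ) = ∑ g, ((χ g : ℂˣ) : ℂ) := by
        rw [Finset.mul_sum, ← Equiv.sum_comp (Equiv.mulLeft h0) fun g => ((χ g : ℂˣ) : ℂ)]
        refine Finset.sum_congr rfl fun g _ => ?_
        rw [Equiv.coe_mulLeft, map_mul, Units.val_mul]
      have h3 : (((χ h0 : ℂˣ) : ℂ) - 1) * ∑ g, ((χ g : ℂˣ) : ℂ) = 0 := by
        rw [sub_mul, h2, one_mul, sub_self]
      refine (mul_eq_zero.mp h3).resolve_left fun h4 => hh ?_
      exact Units.ext (sub_eq_zero.mp h4)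
    rw [← Complex.re_sum, h1, Complex.zero_re]

/-- averages of the square of the trace of a reducible representation -/
theorem sum_sq_trace [Fintype G] {χ₁ χ₂ : G →* ℂˣ} :
    2 * (Fintype.card G : ℝ) ≤ ∑ g, ‖((χ₁ g : ℂˣ) : ℂ) + ((χ₂ g : ℂˣ) : ℂ)‖ ^ 2 := by
  have h1 : ∀ g, ‖((χ₁ g : ℂˣ) : ℂ) + ((χ₂ g : ℂˣ) : ℂ)‖ ^ 2 =
      2 + 2 * ((((χ₁ * χ₂⁻¹) g : ℂˣ) : ℂ)).re := by
    intro g
    have h2 : ((((χ₁ * χ₂⁻¹) g : ℂˣ) : ℂ)) =
        ((χ₁ g : ℂˣ) : ℂ) * (starRingEnd ℂ) ((χ₂ g : ℂˣ) : ℂ) := by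
      rw [MonoidHom.mul_apply, MonoidHom.inv_apply, Units.val_mul, Units.val_inv_eq_inv_val,
        Complex.inv_eq_conj (norm_char χ₂ g)]
    rw [h2]
    have h3 := norm_char χ₁ g
    have h4 := norm_char χ₂ g
    have h5 : ∀ z w : ℂ, ‖z + w‖ ^ 2 = ‖z‖ ^ 2 + ‖w‖ ^ 2 + 2 * (z * (starRingEnd ℂ) w).re := by
      intro z w
      rw [Complex.sq_norm, Complex.sq_norm, Complex.sq_norm, Complex.normSq_add]
    rw [h5, h3, h4]
    ring
  rw [Finset.sum_congr rfl fun g _ => h1 g, Finset.sum_add_distrib, ← Finset.mul_sum,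
    Finset.sum_const, nsmul_eq_mul, Finset.card_univ]
  have := sum_char_re (χ₁ * χ₂⁻¹)
  linarith

end irr

/-- Rankin's bound gives summability and an upper bound for the sum. -/
theorem RankinBd.tsum_le {N : ℕ} {b : ℕ → ℂ} (h : RankinBd N b) :
    (∀ s : ℝ, 1 < s → Summable fun p : Nat.Primes =>
      (if ((p : ℕ) ∣ N) then 0 else ‖b p‖ ^ 2) * (1 / ((p : ℕ) : ℝ) ^ s)) ∧
    ∃ C : ℝ, ∀ᶠ s in 𝓝[>] (1 : ℝ),
      ∑' p : Nat.Primes, (if ((p : ℕ) ∣ N) then 0 else ‖b p‖ ^ 2) * (1 / ((p : ℕ) : ℝ) ^ s) ≤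
        ell s + C := by
  obtain ⟨C, hC⟩ := h
  have hfin : ∀ s : ℝ, 1 < s → s ≤ 2 → ∀ u : Finset Nat.Primes,
      ∑ p ∈ u, (if ((p : ℕ) ∣ N) then 0 else ‖b p‖ ^ 2) * (1 / ((p : ℕ) : ℝ) ^ s) ≤
        ell s + C := by
    intro s hs hs2 u
    set P : Finset ℕ := (u.image fun p : Nat.Primes => (p : ℕ)).filter fun p => ¬ p ∣ N with hP
    have e1 : ∑ p ∈ u, (if ((p : ℕ) ∣ N) then 0 else ‖b p‖ ^ 2) * (1 / ((p : ℕ) : ℝ) ^ s) =
        ∑ p ∈ P, ‖b p‖ ^ 2 * (p : ℝ) ^ (-s) := by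
      rw [hP, Finset.sum_filter]
      have h1 := (Finset.sum_image (s := u) (g := fun p : Nat.Primes => (p : ℕ))
        (f := fun p : ℕ => if ¬ p ∣ N then ‖b p‖ ^ 2 * (p : ℝ) ^ (-s) else 0)
          (Nat.Primes.coe_nat_injective.injOn))
      rw [h1]
      refine Finset.sum_congr rfl fun p _ => ?_
      by_cases hpN : (p : ℕ) ∣ N
      · rw [if_pos hpN, if_neg (not_not.mpr hpN), zero_mul]
      · rw [if_neg hpN, if_pos hpN, Real.rpow_neg (Nat.cast_nonneg _), one_div]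
    rw [e1]
    refine hC s hs hs2 P fun p hp => ?_
    obtain ⟨hp1, hp2⟩ := Finset.mem_filter.mp hp
    obtain ⟨q, -, rfl⟩ := Finset.mem_image.mp hp1
    exact ⟨q.2, hp2⟩
  have h0 : ∀ (s : ℝ) (p : Nat.Primes),
      0 ≤ (if ((p : ℕ) ∣ N) then 0 else ‖b p‖ ^ 2) * (1 / ((p : ℕ) : ℝ) ^ s) := by
    intro s p
    refine mul_nonneg ?_ (by positivity)
    split_ifs
    · exact le_rfl
    · positivity
  have hsum : ∀ s : ℝ, 1 < s → s ≤ 2 → Summable fun p : Nat.Primes =>
      (if ((p : ℕ) ∣ N) then 0 else ‖b p‖ ^ 2) * (1 / ((p : ℕ) : ℝ) ^ s) := fun s hs hs2 =>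
    summable_of_sum_le (h0 s) (hfin s hs hs2)
  refine ⟨fun s hs => ?_, C, ?_⟩
  · rcases le_total s 2 with hs2 | hs2
    · exact hsum s hs hs2
    · refine Summable.of_nonneg_of_le (h0 s) (fun p => ?_) (hsum 2 (by norm_num) le_rfl)
      refine mul_le_mul_of_nonneg_left ?_ ?_
      · refine one_div_le_one_div_of_le (by have := p.2.pos; positivity) ?_
        exact Real.rpow_le_rpow_of_exponent_le (by exact_mod_cast p.2.one_lt.le) hs2
      · split_ifs
        · exact le_rfl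
        · positivity
  · filter_upwards [eventually_Ioc] with s hs
    exact Real.tsum_le_of_sum_le (h0 s) (hfin s hs.1 hs.2)

/-- **Main theorem**: a system of mod `ℓ` representations satisfying Rankin's bounds comes from
an irreducible representation with finite image. -/
theorem ds_main {N : ℕ} (hN : N ≠ 0) {a e : ℕ → OO} (ι : Qb →+* ℂ) (hin : ModInput N a e)
    {n : ℕ} (hn : 0 < n) (he : ∀ p : ℕ, p.Prime → ¬ p ∣ N → e p ^ n = 1)
    (K₀ : IntermediateField ℚ Qb) [NumberField K₀]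
    (b : ℕ → K₀) (hb : ∀ p : ℕ, p.Prime → ¬ p ∣ N → ((b p : K₀) : Qb) = a p)
    (hR : ∀ τ : K₀ →+* ℂ, RankinBd N fun p => τ (b p)) :
    ∃ ρ : GQ →* GL (Fin 2) ℂ, GaloisFactorsThroughFiniteLevel ρ ∧
      (Deformation.matrixRepresentation ρ).IsIrreducible ∧
      ∀ p : ℕ, p.Prime → ¬ p ∣ N →
        ∀ A : ValuationSubring Qb, A.LiesOverPrime p →
          (∀ σ ∈ A.inertiaSubgroupIn ℚ, ρ σ = 1) ∧
          ∀ σ : GQ, A.IsFrobeniusAt σ p → trG ρ σ = ι (a p) ∧ dtG ρ σ = ι (e p) := by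
  obtain ⟨Y, T, hY, hT⟩ := exists_YT K₀ b hb hR
  obtain ⟨A, hA⟩ := exists_bound hN hn he Y T hY hT
  obtain ⟨E, hE1, hE2, t, hfd⟩ := exists_finData hN hin hA
  obtain ⟨L, hL⟩ := hfd.rep
  obtain ⟨ρ₀, hρ₀⟩ := exists_char0 t (fun n => by
    obtain ⟨ℓ, hℓ, hℓp⟩ := Nat.exists_infinite_primes (n + L + 1)
    obtain ⟨B, hB, ρ, h1, -⟩ := hL ℓ hℓp (by omega)
    exact ⟨ℓ, hℓp, by omega, B, hB, ρ, h1⟩)
  -- traces and determinants of Frobenius elements
  have hfrob : ∀ p : ℕ, p.Prime → ¬ p ∣ N → ∀ A : ValuationSubring Qb, A.LiesOverPrime p →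
      ∀ σ : GQ, A.IsFrobeniusAt σ p → t (AlgEquiv.restrictNormalHom E σ) = a p ∧
        dtG ρ₀ (AlgEquiv.restrictNormalHom E σ) = e p := by
    intro p hp hpN A hA σ hσ
    set g := AlgEquiv.restrictNormalHom E σ with hg
    have h1 : t g = a p := by
      refine eq_of_resO fun n => ?_
      obtain ⟨ℓ, hℓ, hℓp⟩ := Nat.exists_infinite_primes (n + L + p + 1)
      obtain ⟨B, hB, ρ, h1, h2⟩ := hL ℓ hℓp (by omega)
      exact ⟨ℓ, hℓp, by omega, B, hB, by
        rw [← h1, (h2 p hp hpN (by omega) A hA σ hσ).1]⟩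
    have h2 : t g * t g - t (g * g) = 2 * e p := by
      refine eq_of_resO fun n => ?_
      obtain ⟨ℓ, hℓ, hℓp⟩ := Nat.exists_infinite_primes (n + L + p + 1)
      obtain ⟨B, hB, ρ, h1, h2⟩ := hL ℓ hℓp (by omega)
      refine ⟨ℓ, hℓp, by omega, B, hB, ?_⟩
      rw [map_sub, map_mul, ← h1, ← h1, map_mul, ← (h2 p hp hpN (by omega) A hA σ hσ).2,
        map_ofNat, ← hg]
      have h3 := sq_eq ((ρ g : GL (Fin 2) _) : Matrix (Fin 2) (Fin 2) (IsLocalRing.ResidueField B))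
      have h4 := congrArg Matrix.trace h3
      rw [Matrix.trace_sub, Matrix.trace_smul, Matrix.trace_smul, Matrix.trace_one,
        Fintype.card_fin] at h4
      have h5 : trG ρ (g * g) = ((ρ g).1 * (ρ g).1).trace := by
        rw [trG, map_mul, Units.val_mul]
      rw [h5, h4, trG, dtG, smul_eq_mul, smul_eq_mul]
      push_cast
      ring
    refine ⟨h1, ?_⟩
    have h3 := sq_eq ((ρ₀ g : GL (Fin 2) _) : Matrix (Fin 2) (Fin 2) Qb)
    have h4 := congrArg Matrix.trace h3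
    rw [Matrix.trace_sub, Matrix.trace_smul, Matrix.trace_smul, Matrix.trace_one,
      Fintype.card_fin] at h4
    have h5 : trG ρ₀ (g * g) = ((ρ₀ g).1 * (ρ₀ g).1).trace := by
      rw [trG, map_mul, Units.val_mul]
    rw [← h5, hρ₀, smul_eq_mul, smul_eq_mul] at h4
    have h6 : ((ρ₀ g : GL (Fin 2) _) : Matrix (Fin 2) (Fin 2) Qb).trace = t g := hρ₀ g
    rw [h6] at h4
    have h7 := congrArg (fun z : OO => (z : Qb)) h2
    have h8 : (t g : Qb) * t g - t (g * g) = 2 * e p := h7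
    rw [h4] at h8
    push_cast at h8
    have h9 : (2 : Qb) * dtG ρ₀ g = 2 * e p := by
      rw [← h8, dtG]; ring
    exact mul_left_cancel₀ two_ne_zero h9
  -- the complex representation
  let ρ₁ : Gal(E/ℚ) →* GL (Fin 2) ℂ := (Matrix.GeneralLinearGroup.map ι).comp ρ₀
  have htr1 : ∀ g, trG ρ₁ g = ι (trG ρ₀ g) := by
    intro g
    rw [trG, trG, AddMonoidHom.map_trace]
    rfl
  have hdt1 : ∀ g, dtG ρ₁ g = ι (dtG ρ₀ g) := by
    intro g
    rw [dtG, dtG, RingHom.map_det]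
    rfl
  -- irreducibility
  have hirr1 : (Deformation.matrixRepresentation ρ₁).IsIrreducible := by
    by_contra hred
    obtain ⟨χ₁, χ₂, hχ⟩ := exists_chars ρ₁ hred
    obtain ⟨hsum, C, hC⟩ := (hR (ι.comp (algebraMap K₀ Qb))).tsum_le
    set Z : Finset ℕ := N.divisors ∪ (discr E).natAbs.divisors with hZ
    obtain ⟨E', hE'⟩ := cheb E (fun g => ‖trG ρ₁ g‖ ^ 2) (fun g => by positivity)
      (fun g h => by simp only [trG_conj])
      (fun g => by
        simp only [hχ]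
        rw [char_inv, char_inv, ← map_add, Complex.norm_conj])
      (fun p => if p ∣ N then 0 else ‖(ι.comp (algebraMap K₀ Qb)) (b p)‖ ^ 2)
      (fun p => by
        split_ifs
        · exact le_rfl
        · positivity)
      Z
      (fun p hp hpZ g hg => by
        rw [hZ, Finset.mem_union, not_or] at hpZ
        have hpN : ¬ p ∣ N := fun h => hpZ.1 (Nat.mem_divisors.mpr ⟨h, hN⟩)
        rw [if_neg hpN]
        have hdisc : ¬ (p : ℤ) ∣ discr E := by
          intro h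
          exact hpZ.2 (Nat.mem_divisors.mpr ⟨Int.natCast_dvd.mp h,
            Int.natAbs_ne_zero.mpr (discr_ne_zero E)⟩)
        have hur : Algebra.IsUnramifiedIn (𝓞 E) (Ideal.span {(p : ℤ)}) :=
          (not_dvd_discr_iff_isUnramifiedIn E (𝓞 E) (Nat.prime_iff_prime_int.mp hp)).mp hdisc
        obtain ⟨P, hP, hPo, hφ⟩ := hg
        obtain ⟨A, τ, hA, hτ, rfl⟩ := exists_lift_frob E hp hur hP hPo hφ
        rw [htr1, hρ₀, (hfrob p hp hpN A hA τ hτ).1, ← hb p hp hpN]
        rfl)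
      hsum (ε := 1 / 4) (by norm_num)
    have hav : (2 : ℝ) ≤ (∑ g : Gal(E/ℚ), ‖trG ρ₁ g‖ ^ 2) / Nat.card Gal(E/ℚ) := by
      rw [le_div_iff₀ (by exact_mod_cast Nat.card_pos)]
      have h1 := sum_sq_trace (χ₁ := χ₁) (χ₂ := χ₂)
      rw [← Nat.card_eq_fintype_card] at h1
      simp only [hχ]
      exact h1
    have hcontr : (3 / 2 : ℝ) ≤ 1 := by
      refine le_of_eventually (C := C + E') ?_
      filter_upwards [hC, hE', tendsto_ell.eventually_ge_atTop 0] with s h1 h2 hell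
      have h3 : (3 / 2 : ℝ) * ell s ≤ (1 - 1 / 4) *
          ((∑ g : Gal(E/ℚ), ‖trG ρ₁ g‖ ^ 2) / Nat.card Gal(E/ℚ)) * ell s := by
        refine mul_le_mul_of_nonneg_right ?_ hell
        linarith
      have h4 := h2.trans h1
      linarith
    norm_num at hcontr
  have hsurj := AlgEquiv.restrictNormalHom_surjective (F := ℚ) (K₁ := E) Qb
  let ρ : GQ →* GL (Fin 2) ℂ := ρ₁.comp (AlgEquiv.restrictNormalHom E)
  refine ⟨ρ, ?_, ?_, ?_⟩
  · refine ⟨E, inferInstance, fun σ hσ => ?_⟩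
    change ρ₁ (AlgEquiv.restrictNormalHom E σ) = 1
    rw [(restrict_eq_one_iff E).mpr ((IntermediateField.mem_fixingSubgroup_iff _ _).mpr hσ),
      map_one]
  · by_contra hred
    obtain ⟨v, hv0, hv⟩ := exists_eigenvector ρ hred
    -- the line spanned by `v` is invariant under `ρ₁`
    have hv1 : ∀ g : Gal(E/ℚ), ∃ c : ℂ, (ρ₁ g).1.mulVec v = c • v := by
      intro g
      obtain ⟨σ, rfl⟩ := hsurj g
      exact hv σ
    let W : Subrepresentation (Deformation.matrixRepresentation ρ₁) :=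
      { toSubmodule := Submodule.span ℂ {v}
        apply_mem_toSubmodule := fun g x hx => by
          rw [Submodule.mem_span_singleton] at hx ⊢
          obtain ⟨d, rfl⟩ := hx
          obtain ⟨c, hc⟩ := hv1 g
          refine ⟨d * c, ?_⟩
          rw [Deformation.matrixRepresentation_apply, Matrix.mulVecLin_apply, Matrix.mulVec_smul,
            hc, smul_smul] }
    rcases hirr1.eq_bot_or_eq_top W with h | h
    · have h1 : Submodule.span ℂ {v} = ⊥ := congrArg Subrepresentation.toSubmodule h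
      exact hv0 (Submodule.span_singleton_eq_bot.mp h1)
    · have h1 : Submodule.span ℂ {v} = ⊤ := congrArg Subrepresentation.toSubmodule h
      have h2 : Module.finrank ℂ (Submodule.span ℂ {v}) = 2 := by
        rw [h1, finrank_top]; simp
      have h3 := finrank_span_singleton (K := ℂ) hv0
      omega
  · intro p hp hpN A hA
    refine ⟨fun σ hσ => ?_, fun σ hσ => ?_⟩
    · change ρ₁ (AlgEquiv.restrictNormalHom E σ) = 1
      rw [hfd.inert p hp hpN A hA σ hσ, map_one]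
    · obtain ⟨h1, h2⟩ := hfrob p hp hpN A hA σ hσ
      change trG ρ₁ (AlgEquiv.restrictNormalHom E σ) = _ ∧
        dtG ρ₁ (AlgEquiv.restrictNormalHom E σ) = _
      rw [htr1, hdt1, hρ₀, h1, h2]
      exact ⟨rfl, rfl⟩

end Fermat.Agent.DS
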