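import Fermat.Agent.DS.FinSet

/-!
# All the mod `ℓ` representations factor through one finite group
-/

set_option autoImplicit false
set_option linter.unusedSectionVars false
set_option linter.style.haveILetI false

open scoped Classical Topology

namespace Fermat.Agent.DS

open NumberField Module IntermediateField Filter Fermat.Agent.CFT Fermat.Agent.ZC Matrix

section mat

theorem sq_eq {R : Type*} [CommRing R] (M : Matrix (Fin 2) (Fin 2) R) :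
    M * M = M.trace • M - M.det • 1 := by
  ext i j
  fin_cases i <;> fin_cases j <;>
    simp [Matrix.mul_apply, Matrix.trace_fin_two, Matrix.det_fin_two, Fin.sum_univ_two] <;> ring

theorem trace_pow {R : Type*} [CommRing R] (M : Matrix (Fin 2) (Fin 2) R) {α β : R}
    (h1 : M.trace = α + β) (h2 : M.det = α * β) (j : ℕ) : (M ^ j).trace = α ^ j + β ^ j := by
  induction j using Nat.twoStepInduction with
  | zero => simp [Matrix.trace_one]; norm_num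
  | one => simpa using h1
  | more j ih1 ih2 =>
    have h3 : M ^ (j + 2) = M.trace • M ^ (j + 1) - M.det • M ^ j := by
      rw [pow_succ, pow_succ, mul_assoc, sq_eq, mul_sub, mul_smul_comm, mul_smul_comm, mul_one,
        ← pow_succ]
    rw [h3, Matrix.trace_sub, Matrix.trace_smul, Matrix.trace_smul, ih1, ih2, h1, h2,
      smul_eq_mul, smul_eq_mul]
    ring

theorem root_pow_eq_one {k : Type*} [Field k] (M : Matrix (Fin 2) (Fin 2) k) {α β : k}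
    (h1 : M.trace = α + β) (h2 : M.det = α * β) {m : ℕ} (hm : M ^ m = 1) : α ^ m = 1 := by
  have h3 : (M - α • (1 : Matrix (Fin 2) (Fin 2) k)).det = 0 := by
    rw [Matrix.trace_fin_two] at h1
    rw [Matrix.det_fin_two] at h2 ⊢
    simp only [Matrix.sub_apply, Matrix.smul_apply, Matrix.one_apply, smul_eq_mul]
    simp only [Fin.isValue, if_true, zero_ne_one, one_ne_zero, if_false, mul_one, mul_zero,
      sub_zero]
    linear_combination h2 - α * h1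
  obtain ⟨v, hv0, hv⟩ := Matrix.exists_mulVec_eq_zero_iff.mpr h3
  have h4 : M.mulVec v = α • v := by
    rw [Matrix.sub_mulVec, sub_eq_zero] at hv
    rw [hv, Matrix.smul_mulVec, Matrix.one_mulVec]
  have h5 : ∀ j : ℕ, (M ^ j).mulVec v = α ^ j • v := by
    intro j
    induction j with
    | zero => simp
    | succ j ih => rw [pow_succ, ← Matrix.mulVec_mulVec, h4, Matrix.mulVec_smul, ih, smul_smul,
        pow_succ, mul_comm]
  have h6 := h5 m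
  rw [hm, Matrix.one_mulVec] at h6
  have h7 : (α ^ m - 1) • v = 0 := by rw [sub_smul, one_smul, ← h6, sub_self]
  rcases smul_eq_zero.mp h7 with h | h
  · exact sub_eq_zero.mp h
  · exact absurd h hv0

theorem eq_one_of_unip {k : Type*} [Field k] (M : Matrix (Fin 2) (Fin 2) k)
    (h1 : M.trace = 2) (h2 : M.det = 1) {m : ℕ} (hm : M ^ m = 1) (hm0 : (m : k) ≠ 0) : M = 1 := by
  have h3 : (M - 1) * (M - 1) = 0 := by
    have := sq_eq M
    rw [h1, h2] at this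
    rw [sub_mul, mul_sub, this, one_mul, mul_one, one_smul, two_smul]
    abel
  have h4 : ∀ j : ℕ, M ^ j = 1 + (j : k) • (M - 1) := by
    intro j
    induction j with
    | zero => simp
    | succ j ih =>
      have h5 : M = 1 + (M - 1) := by abel
      rw [pow_succ, ih]
      nth_rewrite 2 [h5]
      rw [mul_add, mul_one, add_mul, one_mul, smul_mul_assoc, h3, smul_zero, add_zero]
      push_cast
      rw [add_smul, one_smul]
      abel
  have h6 := h4 m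
  rw [hm] at h6
  have h7 : (m : k) • (M - 1) = 0 := by
    have := h6.symm
    rwa [add_eq_left] at this
  exact sub_eq_zero.mp ((smul_eq_zero.mp h7).resolve_left hm0)

end mat

/-- roots of the Hecke polynomial -/
theorem exists_roots (x y : OO) : ∃ α β : OO, α + β = x ∧ α * β = y := by
  obtain ⟨z, hz⟩ : ∃ z : Qb, z ^ 2 - x * z + y = 0 := by
    have hdeg : (Polynomial.X ^ 2 - Polynomial.C (x : Qb) * Polynomial.X +
        Polynomial.C (y : Qb)).degree ≠ 0 := by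
      have : (Polynomial.X ^ 2 - Polynomial.C (x : Qb) * Polynomial.X +
        Polynomial.C (y : Qb)).degree = 2 := by compute_degree!
      rw [this]
      norm_num
    obtain ⟨z, hz⟩ := IsAlgClosed.exists_root _ hdeg
    refine ⟨z, ?_⟩
    simpa [Polynomial.IsRoot] using hz
  have hint : IsIntegral ℤ z := by
    have h1 : IsIntegral OO z := by
      refine ⟨Polynomial.X ^ 2 - Polynomial.C x * Polynomial.X + Polynomial.C y, ?_, ?_⟩
      · monicity!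
      · simpa using hz
    exact isIntegral_trans (R := ℤ) (A := OO) z h1
  refine ⟨⟨z, hint⟩, x - ⟨z, hint⟩, by ring, ?_⟩
  apply Subtype.ext
  change z * ((x : Qb) - z) = y
  linear_combination -hz

section

variable {N : ℕ} {a e : ℕ → OO}

/-- the roots of the Hecke polynomials are roots of unity of bounded order -/
theorem roots_pow (hin : ModInput N a e) {A : ℕ}
    (hA : ∀ ℓ : ℕ, ℓ.Prime → ℓ ≠ 2 → ∀ B : ValuationSubring Qb, B.LiesOverPrime ℓ →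
      ∀ ρ : GQ →* GL (Fin 2) (IsLocalRing.ResidueField B), IsModRep N a e ℓ B ρ →
        ∀ σ, ρ σ ^ A.factorial = 1) {p : ℕ} (hp : p.Prime) (hpN : ¬ p ∣ N) {α β : OO}
    (h1 : α + β = a p) (h2 : α * β = e p) : α ^ A.factorial = 1 := by
  have hg : IsGalois ℚ Qb := H51.isGalois_Qbar
  obtain ⟨ℓ₀, hℓ₀⟩ := hin
  refine eq_of_resO fun n => ?_
  obtain ⟨ℓ, hℓ, hprime⟩ := Nat.exists_infinite_primes (n + ℓ₀ + p + 3)
  obtain ⟨B, hB⟩ := H05.exists_liesOverPrime Qb hprime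
  obtain ⟨ρ, hρ⟩ := hℓ₀ ℓ hprime (by omega) B hB
  refine ⟨ℓ, hprime, by omega, B, hB, ?_⟩
  obtain ⟨A', hA'⟩ := H05.exists_liesOverPrime Qb hp
  obtain ⟨σ, hσ⟩ := H05.exists_isFrobeniusAt hp hA'
  obtain ⟨h3, h4⟩ := hρ.frob p hp hpN (by omega) A' hA' σ hσ
  have h5 := hA ℓ hprime (by omega) B hB ρ hρ σ
  rw [← h1, map_add] at h3
  rw [← h2, map_mul] at h4
  rw [map_pow, map_one]
  refine root_pow_eq_one _ h3 h4 ?_
  rw [← Units.val_pow_eq_pow_val, h5, Units.val_one]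

/-- the kernels are all equal -/
theorem ker_le (hN : N ≠ 0) {m : ℕ}
    (hroot : ∀ p : ℕ, p.Prime → ¬ p ∣ N → ∃ α β : OO, α + β = a p ∧ α * β = e p ∧
      α ^ m = 1 ∧ β ^ m = 1)
    {ℓ₁ ℓ₂ : ℕ} (hℓ₁ : ℓ₁.Prime) (hℓ₂ : ℓ₂.Prime) (hm₁ : ¬ ℓ₁ ∣ m) (hm₂ : ¬ ℓ₂ ∣ m)
    {B₁ B₂ : ValuationSubring Qb} (hB₁ : B₁.LiesOverPrime ℓ₁) (hB₂ : B₂.LiesOverPrime ℓ₂)
    {ρ₁ : GQ →* GL (Fin 2) (IsLocalRing.ResidueField B₁)}
    {ρ₂ : GQ →* GL (Fin 2) (IsLocalRing.ResidueField B₂)}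
    (hρ₁ : IsModRep N a e ℓ₁ B₁ ρ₁) (hρ₂ : IsModRep N a e ℓ₂ B₂ ρ₂)
    (hρm : ∀ σ, ρ₂ σ ^ m = 1) : ρ₁.ker ≤ ρ₂.ker := by
  intro σ hσ
  obtain ⟨F₁, hF₁, hk₁⟩ := hρ₁.fin
  obtain ⟨F₂, hF₂, hk₂⟩ := hρ₂.fin
  have hker : (F₁ ⊔ F₂).fixingSubgroup ≤ (ρ₁.prod ρ₂).ker := by
    rw [IntermediateField.fixingSubgroup_sup]
    intro τ hτ
    rw [MonoidHom.mem_ker, MonoidHom.prod_apply, MonoidHom.mem_ker.mp (hk₁ hτ.1),
      MonoidHom.mem_ker.mp (hk₂ hτ.2)]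
    rfl
  obtain ⟨p, A, φ, i, j, hp, hpT, hA, hφ, h1, h2⟩ :=
    exists_frob_pow (ρ₁.prod ρ₂) (F₁ ⊔ F₂) hker (badP N ℓ₁ ∪ badP N ℓ₂) σ
  rw [Finset.mem_union, not_or] at hpT
  obtain ⟨hpN, hp1⟩ := good_of_not_mem hN hpT.1
  obtain ⟨-, hp2⟩ := good_of_not_mem hN hpT.2
  have h3 : ρ₁ φ = 1 := by
    have := congrArg Prod.fst h1
    change ρ₁ φ = ρ₁ σ ^ i at this
    rw [this, MonoidHom.mem_ker.mp hσ, one_pow]
  obtain ⟨α, β, hαβ1, hαβ2, hα, hβ⟩ := hroot p hp hpN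
  obtain ⟨h4, h5⟩ := hρ₁.frob p hp hpN hp1 A hA φ hφ
  rw [trG, h3, Units.val_one, Matrix.trace_one, Fintype.card_fin, ← hαβ1, map_add] at h4
  rw [dtG, h3, Units.val_one, Matrix.det_one, ← hαβ2, map_mul] at h5
  have h4' : (2 : IsLocalRing.ResidueField B₁) = resO B₁ α + resO B₁ β := by exact_mod_cast h4
  have h6 : (resO B₁ α - 1) * (resO B₁ α - 1) = 0 := by
    linear_combination (-(resO B₁ α)) * h4' + h5
  have h7 : resO B₁ α = 1 := sub_eq_zero.mp (mul_self_eq_zero.mp h6)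
  have h8 : resO B₁ β = 1 := by rw [h7] at h4'; linear_combination -h4'
  have h9 := eq_one_of_resO hℓ₁ hB₁ hm₁ hα h7
  have h10 := eq_one_of_resO hℓ₁ hB₁ hm₁ hβ h8
  obtain ⟨h11, h12⟩ := hρ₂.frob p hp hpN hp2 A hA φ hφ
  rw [← hαβ1, h9, h10, map_add, map_one, one_add_one_eq_two] at h11
  rw [← hαβ2, h9, h10, mul_one, map_one] at h12
  have h13 : ρ₂ φ = 1 := by
    apply Units.ext
    have hchar := H05.charP_residueField hℓ₂ hB₂
    refine eq_one_of_unip _ h11 h12 (m := m) ?_ ?_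
    · rw [← Units.val_pow_eq_pow_val, hρm, Units.val_one]
    · intro h
      rw [CharP.cast_eq_zero_iff _ ℓ₂] at h
      exact hm₂ h
  have h14 := congrArg Prod.snd h2
  change ρ₂ σ = ρ₂ φ ^ j at h14
  rw [MonoidHom.mem_ker, h14, h13, one_pow]

end

/-- one finite group -/
structure FinData (N : ℕ) (a e : ℕ → OO) (E : IntermediateField ℚ Qb) [NumberField E]
    [IsGalois ℚ E] (t : Gal(E/ℚ) → OO) : Prop where
  rep : ∃ L : ℕ, ∀ ℓ : ℕ, ℓ.Prime → L < ℓ → ∃ (B : ValuationSubring Qb) (_ : B.LiesOverPrime ℓ)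
    (ρ : Gal(E/ℚ) →* GL (Fin 2) (IsLocalRing.ResidueField B)),
    (∀ g, trG ρ g = resO B (t g)) ∧
    ∀ q : ℕ, q.Prime → ¬ q ∣ N → q ≠ ℓ → ∀ A : ValuationSubring Qb, A.LiesOverPrime q →
      ∀ σ : GQ, A.IsFrobeniusAt σ q → trG ρ (AlgEquiv.restrictNormalHom E σ) = resO B (a q) ∧
        dtG ρ (AlgEquiv.restrictNormalHom E σ) = resO B (e q)
  inert : ∀ q : ℕ, q.Prime → ¬ q ∣ N → ∀ A : ValuationSubring Qb, A.LiesOverPrime q →
    ∀ σ ∈ A.inertiaSubgroupIn ℚ, AlgEquiv.restrictNormalHom E σ = 1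

theorem exists_finData {N : ℕ} {a e : ℕ → OO} (hN : N ≠ 0) (hin : ModInput N a e) {A : ℕ}
    (hA : ∀ ℓ : ℕ, ℓ.Prime → ℓ ≠ 2 → ∀ B : ValuationSubring Qb, B.LiesOverPrime ℓ →
      ∀ ρ : GQ →* GL (Fin 2) (IsLocalRing.ResidueField B), IsModRep N a e ℓ B ρ →
        ∀ σ, ρ σ ^ A.factorial = 1) :
    ∃ (E : IntermediateField ℚ Qb) (_ : NumberField E) (_ : IsGalois ℚ E)
      (t : Gal(E/ℚ) → OO), FinData N a e E t := by
  have hroot : ∀ p : ℕ, p.Prime → ¬ p ∣ N → ∃ α β : OO, α + β = a p ∧ α * β = e p ∧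
      α ^ A.factorial = 1 ∧ β ^ A.factorial = 1 := by
    intro p hp hpN
    obtain ⟨α, β, h1, h2⟩ := exists_roots (a p) (e p)
    exact ⟨α, β, h1, h2, roots_pow hin hA hp hpN h1 h2,
      roots_pow hin hA hp hpN (by rw [add_comm]; exact h1) (by rw [mul_comm]; exact h2)⟩
  have hmℓ : ∀ ℓ : ℕ, ℓ.Prime → A < ℓ → ¬ ℓ ∣ A.factorial := by
    intro ℓ hℓ hAℓ h
    have := (Nat.Prime.dvd_factorial hℓ).mp h
    omega
  have hin' := hin
  obtain ⟨ℓ₀, hℓ₀⟩ := hin'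
  obtain ⟨ℓ₁, hℓ₁, hℓ₁p⟩ := Nat.exists_infinite_primes (ℓ₀ + A + 3)
  obtain ⟨B₁, hB₁⟩ := H05.exists_liesOverPrime Qb hℓ₁p
  obtain ⟨ρ₁, hρ₁⟩ := hℓ₀ ℓ₁ hℓ₁p (by omega) B₁ hB₁
  obtain ⟨F₁, hF₁, hk₁⟩ := hρ₁.fin
  obtain ⟨E, hE1, hE2, ρE, hEker, hinj, hρE⟩ := exists_descent ρ₁ F₁ hk₁
  have hsurj := AlgEquiv.restrictNormalHom_surjective (F := ℚ) (K₁ := E) Qb
  choose l hl using hsurj
  have hkers : ∀ ℓ : ℕ, ℓ.Prime → ℓ₀ + A + 2 < ℓ → ∀ B : ValuationSubring Qb,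
      B.LiesOverPrime ℓ → ∀ ρ : GQ →* GL (Fin 2) (IsLocalRing.ResidueField B),
      IsModRep N a e ℓ B ρ → ρ₁.ker = ρ.ker := by
    intro ℓ hℓ hlt B hB ρ hρ
    exact le_antisymm
      (ker_le hN hroot hℓ₁p hℓ (hmℓ ℓ₁ hℓ₁p (by omega)) (hmℓ ℓ hℓ (by omega)) hB₁ hB hρ₁ hρ
        (hA ℓ hℓ (by omega) B hB ρ hρ))
      (ker_le hN hroot hℓ hℓ₁p (hmℓ ℓ hℓ (by omega)) (hmℓ ℓ₁ hℓ₁p (by omega)) hB hB₁ hρ hρ₁
        (hA ℓ₁ hℓ₁p (by omega) B₁ hB₁ ρ₁ hρ₁))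
  -- the traces
  have hfr : ∀ g : Gal(E/ℚ), ∃ (p : ℕ) (A' : ValuationSubring Qb) (φ : GQ) (j : ℕ), p.Prime ∧
      ¬ p ∣ N ∧ A'.LiesOverPrime p ∧ A'.IsFrobeniusAt φ p ∧ ρ₁ (l g) = ρ₁ φ ^ j := by
    intro g
    obtain ⟨p, A', φ, i, j, hp, hpT, hA', hφ, -, h2⟩ :=
      exists_frob_pow ρ₁ F₁ hk₁ (badP N ℓ₁) (l g)
    exact ⟨p, A', φ, j, hp, (good_of_not_mem hN hpT).1, hA', hφ, h2⟩
  choose pg Ag φg jg hpg hpgN hAg hφg hlg using hfr
  choose α β hαβ1 hαβ2 hα hβ using fun g : Gal(E/ℚ) => hroot (pg g) (hpg g) (hpgN g)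
  refine ⟨E, hE1, hE2, fun g => α g ^ jg g + β g ^ jg g, ⟨ℓ₀ + A + 2 + ∑ g, pg g, ?_⟩, ?_⟩
  · intro ℓ hℓ hlt
    obtain ⟨B, hB⟩ := H05.exists_liesOverPrime Qb hℓ
    obtain ⟨ρ, hρ⟩ := hℓ₀ ℓ hℓ (by omega) B hB
    have hkk := hkers ℓ hℓ (by omega) B hB ρ hρ
    -- descend `ρ`
    have hsurj := AlgEquiv.restrictNormalHom_surjective (F := ℚ) (K₁ := E) Qb
    let ρ' : Gal(E/ℚ) →* GL (Fin 2) (IsLocalRing.ResidueField B) :=
      (AlgEquiv.restrictNormalHom (F := ℚ) (K₁ := Qb) E).liftOfSurjective hsurj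
        ⟨ρ, by rw [ker_restrict, hEker, hkk]⟩
    have hρ' : ∀ σ, ρ' (AlgEquiv.restrictNormalHom E σ) = ρ σ := fun σ =>
      MonoidHom.liftOfRightInverse_comp_apply _ _ _ _ σ
    refine ⟨B, hB, ρ', ?_, ?_⟩
    · intro g
      have hpl : pg g ≠ ℓ := by
        have : pg g ≤ ∑ g, pg g := Finset.single_le_sum (f := pg) (fun _ _ => Nat.zero_le _)
          (Finset.mem_univ g)
        omega
      have h1 : ρ (l g) = ρ (φg g) ^ jg g := by
        have h2 : (l g)⁻¹ * φg g ^ jg g ∈ ρ₁.ker := by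
          rw [MonoidHom.mem_ker, map_mul, map_inv, map_pow, hlg g, inv_mul_cancel]
        rw [hkk, MonoidHom.mem_ker, map_mul, map_inv, map_pow, inv_mul_eq_one] at h2
        exact h2
      obtain ⟨h3, h4⟩ := hρ.frob (pg g) (hpg g) (hpgN g) hpl (Ag g) (hAg g) (φg g) (hφg g)
      rw [← hαβ1 g, map_add] at h3
      rw [← hαβ2 g, map_mul] at h4
      have h5 := trace_pow _ h3 h4 (jg g)
      rw [trG, ← hl g, hρ', h1, Units.val_pow_eq_pow_val, h5, map_add, map_pow, map_pow]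
      rw [hl g]
    · intro q hq hqN hqℓ A' hA' σ hσ
      rw [trG, dtG, hρ']
      exact hρ.frob q hq hqN hqℓ A' hA' σ hσ
  · intro q hq hqN A' hA' σ hσ
    rw [restrict_eq_one_iff, hEker]
    by_cases hqℓ : q = ℓ₁
    · obtain ⟨ℓ, hℓ, hℓp⟩ := Nat.exists_infinite_primes (ℓ₀ + A + 3 + ℓ₁)
      obtain ⟨B, hB⟩ := H05.exists_liesOverPrime Qb hℓp
      obtain ⟨ρ, hρ⟩ := hℓ₀ ℓ hℓp (by omega) B hB
      rw [hkers ℓ hℓp (by omega) B hB ρ hρ]
      exact hρ.inert q hq hqN (by omega) A' hA' σ hσ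
    · exact hρ₁.inert q hq hqN hqℓ A' hA' σ hσ

end Fermat.Agent.DS
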