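import Mathlib

/-!
# Deligne–Serre: the local inequality for the Rankin–Selberg Euler factor
-/

set_option autoImplicit false

namespace Fermat.Agent.DS

section loc

variable {h : ℕ → ℂ} {A e : ℂ}

/-- the coefficients `∑_j |h (k - 2 j)|²` -/
noncomputable def gg (h : ℕ → ℂ) : ℕ → ℝ
  | 0 => ‖h 0‖ ^ 2
  | 1 => ‖h 1‖ ^ 2
  | (k + 2) => ‖h (k + 2)‖ ^ 2 + gg h k

theorem gg_nonneg (h : ℕ → ℂ) (k : ℕ) : 0 ≤ gg h k := by
  induction k using Nat.twoStepInduction with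
  | zero => exact sq_nonneg _
  | one => exact sq_nonneg _
  | more k ih _ => exact add_nonneg (sq_nonneg _) ih

theorem gg_ge (h : ℕ → ℂ) (k : ℕ) : ‖h k‖ ^ 2 ≤ gg h k := by
  match k with
  | 0 => exact le_rfl
  | 1 => exact le_rfl
  | (k + 2) => exact le_add_of_nonneg_right (gg_nonneg h k)

theorem sq_add_le {x y : ℝ} {t : ℝ} (ht : 0 < t) :
    (x + y) ^ 2 ≤ (1 + t) * x ^ 2 + (1 + 1 / t) * y ^ 2 := by
  have h1 : 0 ≤ (t * x - y) ^ 2 / t := by positivity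
  have h2 : (1 + t) * x ^ 2 + (1 + 1 / t) * y ^ 2 - (x + y) ^ 2 = (t * x - y) ^ 2 / t := by
    field_simp
    ring
  linarith

theorem gg_key (h0 : h 0 = 1) (h1 : h 1 = A) (he : ‖e‖ ≤ 1)
    (hrec : ∀ k, h (k + 2) = A * h (k + 1) - e * h k) (k : ℕ) :
    ‖A‖ ^ 2 * gg h k ≤ (k + 1) * gg h (k + 1) := by
  induction k using Nat.twoStepInduction with
  | zero =>
    simp [gg, h0, h1]
  | one =>
    have e1 : A * A = h 2 + e := by
      have := hrec 0
      rw [h1, h0] at this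
      rw [this]; ring
    have e2 : ‖A‖ ^ 2 ≤ ‖h 2‖ + 1 := by
      rw [pow_two, ← norm_mul, e1]
      exact (norm_add_le _ _).trans (by linarith)
    have e3 : ‖A‖ ^ 2 * ‖A‖ ^ 2 ≤ (‖h 2‖ + 1) ^ 2 := by
      rw [← pow_two]
      exact pow_le_pow_left₀ (by positivity) e2 2
    have e4 : (‖h 2‖ + 1) ^ 2 ≤ 2 * (‖h 2‖ ^ 2 + 1) := by nlinarith [sq_nonneg (‖h 2‖ - 1)]
    simp only [gg, h0, h1, norm_one, one_pow, Nat.cast_one]
    linarith
  | more k ih _ =>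
    have e1 : A * h (k + 2) = h (k + 3) + e * h (k + 1) := by
      rw [hrec (k + 1)]; ring
    have e2 : ‖A‖ * ‖h (k + 2)‖ ≤ ‖h (k + 3)‖ + ‖h (k + 1)‖ := by
      rw [← norm_mul, e1]
      refine (norm_add_le _ _).trans ?_
      rw [norm_mul]
      have := mul_le_mul_of_nonneg_right he (norm_nonneg (h (k + 1)))
      linarith
    have e3 : ‖A‖ ^ 2 * ‖h (k + 2)‖ ^ 2 ≤ (‖h (k + 3)‖ + ‖h (k + 1)‖) ^ 2 := by
      rw [← mul_pow]
      exact pow_le_pow_left₀ (by positivity) e2 2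
    have e4 := sq_add_le (x := ‖h (k + 3)‖) (y := ‖h (k + 1)‖) (t := (k : ℝ) + 2) (by positivity)
    have e5 : (1 + 1 / ((k : ℝ) + 2)) * ‖h (k + 1)‖ ^ 2 ≤ 2 * gg h (k + 1) := by
      have h6 : 1 / ((k : ℝ) + 2) ≤ 1 := by
        rw [div_le_one (by positivity)]
        have : (0 : ℝ) ≤ k := Nat.cast_nonneg k
        linarith
      have h7 := gg_ge h (k + 1)
      have h8 : (0 : ℝ) ≤ ‖h (k + 1)‖ ^ 2 := sq_nonneg _
      nlinarith
    have e6 : gg h (k + 2) = ‖h (k + 2)‖ ^ 2 + gg h k := rfl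
    have e7 : gg h (k + 2 + 1) = ‖h (k + 3)‖ ^ 2 + gg h (k + 1) := rfl
    rw [e6, e7]
    push_cast
    nlinarith

theorem gg_lower (h0 : h 0 = 1) (h1 : h 1 = A) (he : ‖e‖ ≤ 1)
    (hrec : ∀ k, h (k + 2) = A * h (k + 1) - e * h k) (k : ℕ) :
    (‖A‖ ^ 2) ^ k / (k.factorial : ℝ) ≤ gg h k := by
  induction k with
  | zero => simp [gg, h0]
  | succ k ih =>
    have h2 := gg_key h0 h1 he hrec k
    rw [Nat.factorial_succ, Nat.cast_mul, pow_succ]
    have h3 : (‖A‖ ^ 2) ^ k * ‖A‖ ^ 2 / (((k + 1 : ℕ) : ℝ) * (k.factorial : ℝ)) =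
        ‖A‖ ^ 2 * ((‖A‖ ^ 2) ^ k / (k.factorial : ℝ)) / ((k + 1 : ℕ) : ℝ) := by
      field_simp
    rw [h3, div_le_iff₀ (by positivity)]
    push_cast
    calc ‖A‖ ^ 2 * ((‖A‖ ^ 2) ^ k / (k.factorial : ℝ)) ≤ ‖A‖ ^ 2 * gg h k :=
          mul_le_mul_of_nonneg_left ih (by positivity)
      _ ≤ _ := by rw [mul_comm (gg h (k + 1))]; exact h2

/-- **The local inequality.** -/
theorem local_ineq (h0 : h 0 = 1) (h1 : h 1 = A) (he : ‖e‖ ≤ 1)
    (hrec : ∀ k, h (k + 2) = A * h (k + 1) - e * h k) {x : ℝ} (hx : 0 ≤ x) (hx1 : x < 1)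
    (hs : Summable fun k => ‖h k‖ ^ 2 * x ^ k) :
    (1 - x ^ 2) * Real.exp (‖A‖ ^ 2 * x) ≤ ∑' k, ‖h k‖ ^ 2 * x ^ k := by
  have hx2 : x ^ 2 < 1 := by nlinarith
  -- summability of `gg`
  set H := ∑' k, ‖h k‖ ^ 2 * x ^ k with hH
  have hterm : ∀ k, 0 ≤ ‖h k‖ ^ 2 * x ^ k := fun k => by positivity
  have hgt : ∀ k, 0 ≤ gg h k * x ^ k := fun k => mul_nonneg (gg_nonneg h k) (by positivity)
  have hpart : ∀ n, (1 - x ^ 2) * ∑ k ∈ Finset.range n, gg h k * x ^ k ≤ H := by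
    intro n
    have h2 : ∀ n, ∑ k ∈ Finset.range (n + 2), gg h k * x ^ k =
        ∑ k ∈ Finset.range (n + 2), ‖h k‖ ^ 2 * x ^ k +
          x ^ 2 * ∑ k ∈ Finset.range n, gg h k * x ^ k := by
      intro n
      induction n with
      | zero => simp [Finset.sum_range_succ, gg]
      | succ n ih =>
        rw [Finset.sum_range_succ, ih, Finset.sum_range_succ _ (n + 2),
          Finset.sum_range_succ (fun k => gg h k * x ^ k) n]
        have : gg h (n + 2) = ‖h (n + 2)‖ ^ 2 + gg h n := rfl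
        rw [this]
        ring
    have h3 : ∑ k ∈ Finset.range n, gg h k * x ^ k ≤ ∑ k ∈ Finset.range (n + 2), gg h k * x ^ k :=
      Finset.sum_le_sum_of_subset_of_nonneg (Finset.range_mono (by omega)) fun k _ _ => hgt k
    have h4 : ∑ k ∈ Finset.range (n + 2), ‖h k‖ ^ 2 * x ^ k ≤ H :=
      hs.sum_le_tsum _ fun k _ => hterm k
    have h5 := h2 n
    nlinarith
  have hsg : Summable fun k => gg h k * x ^ k := by
    refine summable_of_sum_range_le hgt (c := H / (1 - x ^ 2)) fun n => ?_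
    rw [le_div_iff₀ (by linarith), mul_comm]
    exact hpart n
  have h6 : (1 - x ^ 2) * ∑' k, gg h k * x ^ k ≤ H := by
    rw [← tsum_mul_left]
    refine Real.tsum_le_of_sum_range_le (fun k => mul_nonneg (by linarith) (hgt k)) fun n => ?_
    rw [← Finset.mul_sum]
    exact hpart n
  refine le_trans ?_ h6
  refine mul_le_mul_of_nonneg_left ?_ (by linarith)
  rw [Real.exp_eq_exp_ℝ, NormedSpace.exp_eq_tsum_div]
  refine Summable.tsum_le_tsum (fun k => ?_) ?_ hsg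
  · rw [mul_pow, mul_div_right_comm]
    exact mul_le_mul_of_nonneg_right (gg_lower h0 h1 he hrec k) (by positivity)
  · exact NormedSpace.expSeries_div_summable _

end loc

end Fermat.Agent.DS
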