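import Fermat.Agent.DS.Iface

/-!
# The images of the mod `ℓ` representations are bounded
-/

set_option autoImplicit false
set_option linter.unusedSectionVars false
set_option linter.style.haveILetI false

open scoped Classical Topology

namespace Fermat.Agent.DS

open NumberField Module IntermediateField Filter Fermat.Agent.CFT Fermat.Agent.ZC

section

/-- Frobenius elements generate, up to powers -/
theorem exists_frob_pow {H : Type*} [Group H] (ρ : GQ →* H) (F : IntermediateField ℚ Qb)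
    [FiniteDimensional ℚ F] (h : F.fixingSubgroup ≤ ρ.ker) (T : Finset ℕ) (σ : GQ) :
    ∃ (p : ℕ) (A : ValuationSubring Qb) (φ : GQ) (i j : ℕ), p.Prime ∧ p ∉ T ∧
      A.LiesOverPrime p ∧ A.IsFrobeniusAt φ p ∧ ρ φ = ρ σ ^ i ∧ ρ σ = ρ φ ^ j := by
  obtain ⟨p, hp, hpT, A, hA, φ, hφ, i, j, h1, h2⟩ := H25.exists_frobenius F T σ
  have key : ∀ x y : GQ, (∀ z ∈ F, x z = y z) → ρ x = ρ y := by
    intro x y hxy
    have h3 : y⁻¹ * x ∈ F.fixingSubgroup := by
      rw [IntermediateField.mem_fixingSubgroup_iff]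
      intro z hz
      rw [AlgEquiv.mul_apply, hxy z hz, ← AlgEquiv.mul_apply, inv_mul_cancel,
        AlgEquiv.one_apply]
    have h4 := h h3
    rw [MonoidHom.mem_ker, map_mul, map_inv, inv_mul_eq_one] at h4
    exact h4.symm
  refine ⟨p, A, φ, i, j, hp, hpT, hA, hφ, ?_, ?_⟩
  · rw [← map_pow]; exact key _ _ h1
  · rw [← map_pow]; exact key _ _ h2

variable {N : ℕ} {a e : ℕ → OO}

/-- the primes dividing `N ℓ` -/
noncomputable def badP (N ℓ : ℕ) : Finset ℕ := N.divisors ∪ {ℓ}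

theorem good_of_not_mem {N ℓ p : ℕ} (hN : N ≠ 0) (h : p ∉ badP N ℓ) : ¬ p ∣ N ∧ p ≠ ℓ := by
  rw [badP, Finset.mem_union, not_or] at h
  exact ⟨fun hd => h.1 (Nat.mem_divisors.mpr ⟨hd, hN⟩), fun he => h.2 (by simp [he])⟩

theorem dtG_mul {G k : Type*} [Group G] [Field k] (ρ : G →* GL (Fin 2) k) (g h : G) :
    dtG ρ (g * h) = dtG ρ g * dtG ρ h := by
  rw [dtG, map_mul, Units.val_mul, Matrix.det_mul]; rfl

theorem dtG_of_pow {G k : Type*} [Group G] [Field k] (ρ : G →* GL (Fin 2) k) {g h : G} {j : ℕ}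
    (H : ρ g = ρ h ^ j) : dtG ρ g = dtG ρ h ^ j := by
  rw [dtG, H, Units.val_pow_eq_pow_val, Matrix.det_pow]; rfl

theorem trG_inv {G k : Type*} [Group G] [Field k] (ρ : G →* GL (Fin 2) k) (g : G) :
    dtG ρ g * trG ρ g⁻¹ = trG ρ g := by
  have h := trace_mul_add (1 : Matrix (Fin 2) (Fin 2) k)
    ((ρ g : GL (Fin 2) k) : Matrix (Fin 2) (Fin 2) k)
    ((ρ g⁻¹ : GL (Fin 2) k) : Matrix (Fin 2) (Fin 2) k) (by
      rw [← Units.val_mul, ← map_mul, mul_inv_cancel, map_one, Units.val_one])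
  rw [one_mul, one_mul, Matrix.trace_one, Fintype.card_fin] at h
  have h' : trG ρ g + dtG ρ g * trG ρ g⁻¹ = 2 * trG ρ g := by exact_mod_cast h
  linear_combination h'

theorem trG_conj {G k : Type*} [Group G] [Field k] (ρ : G →* GL (Fin 2) k) (g h : G) :
    trG ρ (h * g * h⁻¹) = trG ρ g := by
  rw [trG, map_mul, Units.val_mul, Matrix.trace_mul_comm, ← Units.val_mul, ← map_mul, ← mul_assoc,
    inv_mul_cancel, one_mul]; rfl

theorem dtG_mem (hN : N ≠ 0) {n : ℕ} (he : ∀ p : ℕ, p.Prime → ¬ p ∣ N → e p ^ n = 1)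
    {ℓ : ℕ} {B : ValuationSubring Qb} {ρ : GQ →* GL (Fin 2) (IsLocalRing.ResidueField B)}
    (hρ : IsModRep N a e ℓ B ρ) (σ : GQ) : ∃ z : OO, z ^ n = 1 ∧ dtG ρ σ = resO B z := by
  obtain ⟨F, hF, hker⟩ := hρ.fin
  obtain ⟨p, A, φ, i, j, hp, hpT, hA, hφ, -, h2⟩ := exists_frob_pow ρ F hker (badP N ℓ) σ
  obtain ⟨hpN, hpl⟩ := good_of_not_mem hN hpT
  have h3 := (hρ.frob p hp hpN hpl A hA φ hφ).2
  refine ⟨e p ^ j, ?_, ?_⟩
  · rw [← pow_mul, mul_comm, pow_mul, he p hp hpN, one_pow]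
  · rw [dtG_of_pow ρ h2, h3, map_pow]

theorem le_of_eventually {α β C : ℝ}
    (h : ∀ᶠ s in 𝓝[>] (1 : ℝ), α * ell s ≤ β * ell s + C) : α ≤ β := by
  by_contra hab
  push Not at hab
  have h1 := tendsto_ell.eventually_gt_atTop (C / (α - β))
  obtain ⟨s, hs, hs2⟩ := (h1.and h).exists
  rw [div_lt_iff₀ (by linarith)] at hs
  nlinarith

/-- **Boundedness of the images** -/
theorem exists_bound (hN : N ≠ 0) {n : ℕ} (hn : 0 < n)
    (he : ∀ p : ℕ, p.Prime → ¬ p ∣ N → e p ^ n = 1) (Y : Finset OO) (T : Set ℕ)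
    (hY : ∀ p : ℕ, p.Prime → ¬ p ∣ N → p ∉ T → a p ∈ Y)
    (hT : ∃ C : ℝ, ∀ᶠ s in 𝓝[>] (1 : ℝ), qsum T s ≤ (1 / 48) * ell s + C) :
    ∃ A : ℕ, ∀ ℓ : ℕ, ℓ.Prime → ℓ ≠ 2 → ∀ B : ValuationSubring Qb, B.LiesOverPrime ℓ →
      ∀ ρ : GQ →* GL (Fin 2) (IsLocalRing.ResidueField B), IsModRep N a e ℓ B ρ →
        ∀ σ, ρ σ ^ A.factorial = 1 := by
  set μ : Finset OO := Polynomial.nthRootsFinset n (1 : OO) with hμ
  have hmem : ∀ z : OO, z ∈ μ ↔ z ^ n = 1 := fun z => Polynomial.mem_nthRootsFinset hn 1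
  set Y' : Finset OO := (Y ×ˢ μ).image fun q => q.1 * q.2 with hY'
  set M := Y'.card with hM
  set D := μ.card with hD
  refine ⟨(M * M * (M * D)) ^ 4 + M * M * (M * D) * D * 2, ?_⟩
  intro ℓ hℓ hℓ2 B hB ρ hρ σ
  obtain ⟨F, hF, hker⟩ := hρ.fin
  obtain ⟨E, hE1, hE2, ρE, hEker, hinj, hρE⟩ := exists_descent ρ F hker
  have hsurj := AlgEquiv.restrictNormalHom_surjective (F := ℚ) (K₁ := E) Qb
  have htr : ∀ τ, trG ρE (AlgEquiv.restrictNormalHom E τ) = trG ρ τ := fun τ => by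
    rw [trG, hρE]; rfl
  have hdt : ∀ τ, dtG ρE (AlgEquiv.restrictNormalHom E τ) = dtG ρ τ := fun τ => by
    rw [dtG, hρE]; rfl
  set CB : Finset (IsLocalRing.ResidueField B) := Y'.image (resO B) with hCB
  set DB : Finset (IsLocalRing.ResidueField B) := μ.image (resO B) with hDB
  have hdet : ∀ g : Gal(E/ℚ), ∃ z : OO, z ∈ μ ∧ dtG ρE g = resO B z := by
    intro g
    obtain ⟨τ, rfl⟩ := hsurj g
    obtain ⟨z, hz, hz2⟩ := dtG_mem hN he hρ τ
    exact ⟨z, (hmem z).mpr hz, (hdt τ).trans hz2⟩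
  -- the bad set
  set S : Finset Gal(E/ℚ) := Finset.univ.filter fun g => trG ρE g ∉ CB with hS
  have hS' : ∀ g, g ∈ S ↔ trG ρE g ∉ CB := fun g => by simp [hS]
  have hinvC : ∀ g, trG ρE g ∈ CB → trG ρE g⁻¹ ∈ CB := by
    intro g hg
    obtain ⟨y, hy, hy2⟩ := Finset.mem_image.mp hg
    obtain ⟨⟨y0, z0⟩, hyz, rfl⟩ := Finset.mem_image.mp hy
    obtain ⟨hy0, hz0⟩ := Finset.mem_product.mp hyz
    obtain ⟨z, hz, hz2⟩ := hdet g
    have h1 := trG_inv ρE g
    have hzn : z * z ^ (n - 1) = 1 := by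
      rw [← pow_succ', Nat.sub_add_cancel hn, (hmem z).mp hz]
    have h2 : trG ρE g⁻¹ = resO B (y0 * (z0 * z ^ (n - 1))) := by
      have h3 : resO B z * resO B (z ^ (n - 1)) = 1 := by rw [← map_mul, hzn, map_one]
      have h4 : resO B (y0 * (z0 * z ^ (n - 1))) = resO B (y0 * z0) * resO B (z ^ (n - 1)) := by
        rw [← map_mul, mul_assoc]
      rw [h4, hy2, ← h1, hz2, mul_right_comm, h3, one_mul]
    rw [h2]
    refine Finset.mem_image_of_mem _ (Finset.mem_image.mpr ⟨(y0, z0 * z ^ (n - 1)), ?_, rfl⟩)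
    rw [Finset.mem_product]
    refine ⟨hy0, ?_⟩
    rw [hmem] at hz hz0 ⊢
    simp only at hz0
    rw [mul_pow, hz0, one_mul, ← pow_mul, mul_comm, pow_mul, hz, one_pow]
  have hbadl : (S.card : ℝ) / Nat.card Gal(E/ℚ) ≤ 1 / 24 := by
    set Z : Finset ℕ := badP N ℓ ∪ (discr E).natAbs.divisors with hZ
    obtain ⟨E', hE'⟩ := cheb E (fun g => if g ∈ S then 1 else 0)
      (fun g => by
        change (0 : ℝ) ≤ if g ∈ S then 1 else 0
        split_ifs <;> norm_num)
      (fun g h => by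
        change (if h * g * h⁻¹ ∈ S then (1 : ℝ) else 0) = if g ∈ S then 1 else 0
        exact if_congr (by rw [hS', hS', trG_conj]) rfl rfl)
      (fun g => by
        change (if g⁻¹ ∈ S then (1 : ℝ) else 0) = if g ∈ S then 1 else 0
        refine if_congr ?_ rfl rfl
        rw [hS', hS', not_iff_not]
        refine ⟨fun h => ?_, hinvC g⟩
        have := hinvC g⁻¹ h
        rwa [inv_inv] at this)
      (fun p => if p ∈ T then 1 else 0)
      (fun p => by
        change (0 : ℝ) ≤ if p ∈ T then 1 else 0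
        split_ifs <;> norm_num)
      Z
      (fun p hp hpZ g hg => by
        change (if g ∈ S then (1 : ℝ) else 0) ≤ if p ∈ T then 1 else 0
        rw [hZ, Finset.mem_union, not_or] at hpZ
        obtain ⟨hpN, hpl⟩ := good_of_not_mem hN hpZ.1
        by_cases hpT : p ∈ T
        · rw [if_pos hpT]
          split_ifs <;> norm_num
        · rw [if_neg hpT]
          have hdisc : ¬ (p : ℤ) ∣ discr E := by
            intro h
            exact hpZ.2 (Nat.mem_divisors.mpr ⟨Int.natCast_dvd.mp h,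
              Int.natAbs_ne_zero.mpr (discr_ne_zero E)⟩)
          have hur : Algebra.IsUnramifiedIn (𝓞 E) (Ideal.span {(p : ℤ)}) :=
            (not_dvd_discr_iff_isUnramifiedIn E (𝓞 E) (Nat.prime_iff_prime_int.mp hp)).mp hdisc
          obtain ⟨P, hP, hPo, hφ⟩ := hg
          obtain ⟨A, τ, hA, hτ, rfl⟩ := exists_lift_frob E hp hur hP hPo hφ
          rw [if_neg]
          rw [hS', not_not, htr, (hρ.frob p hp hpN hpl A hA τ hτ).1]
          refine Finset.mem_image_of_mem _ (Finset.mem_image.mpr ⟨(a p, 1), ?_, mul_one _⟩)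
          rw [Finset.mem_product]
          exact ⟨hY p hp hpN hpT, (hmem 1).mpr (one_pow n)⟩)
      (fun s hs => by
        refine (summable_qsum T hs).congr fun p => ?_
        split_ifs <;> ring)
      (ε := 1 / 2) (by norm_num)
    obtain ⟨C, hC⟩ := hT
    have hav : ∑ g : Gal(E/ℚ), (if g ∈ S then (1 : ℝ) else 0) = S.card := by
      rw [Finset.sum_ite_mem, Finset.univ_inter, Finset.sum_const, nsmul_eq_mul, mul_one]
    have h5 : (1 / 2 : ℝ) * ((S.card : ℝ) / Nat.card Gal(E/ℚ)) ≤ 1 / 48 := by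
      refine le_of_eventually (C := C + E') ?_
      filter_upwards [hC, hE'] with s h1 h2
      rw [hav] at h2
      have h3 : ∑' p : Nat.Primes, (if (p : ℕ) ∈ T then (1 : ℝ) else 0) *
          (1 / ((p : ℕ) : ℝ) ^ s) = qsum T s := by
        rw [qsum]
        refine tsum_congr fun p => ?_
        split_ifs <;> ring
      rw [h3] at h2
      linarith
    linarith
  haveI : Fintype Gal(E/ℚ) := inferInstance
  have hcardpos : (0 : ℝ) < Nat.card Gal(E/ℚ) := by exact_mod_cast Nat.card_pos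
  have hH : 12 * (Finset.univ \ (Finset.univ \ S)).card < Fintype.card Gal(E/ℚ) := by
    rw [sdiff_sdiff_right_self, Finset.inf_eq_inter, Finset.univ_inter,
      ← Nat.card_eq_fintype_card]
    rw [div_le_iff₀ hcardpos] at hbadl
    have : (12 : ℝ) * S.card < Nat.card Gal(E/ℚ) := by linarith
    exact_mod_cast this
  have h2 : (2 : IsLocalRing.ResidueField B) ≠ 0 := by
    have := H05.charP_residueField hℓ hB
    intro h
    have h3 : ((2 : ℕ) : IsLocalRing.ResidueField B) = 0 := by exact_mod_cast h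
    rw [CharP.cast_eq_zero_iff _ ℓ] at h3
    exact hℓ2 ((Nat.prime_dvd_prime_iff_eq hℓ Nat.prime_two).mp h3)
  have hss : SS ρE := by
    rcases hρ.ss with h | ⟨P, hP⟩
    · left
      rw [← h]
      congr 1
      ext x
      constructor
      · rintro ⟨g, rfl⟩
        obtain ⟨τ, rfl⟩ := hsurj g
        exact ⟨τ, by simp only; rw [hρE]⟩
      · rintro ⟨τ, rfl⟩
        exact ⟨AlgEquiv.restrictNormalHom E τ, by simp only; rw [hρE]⟩
    · right
      refine ⟨P, fun g => ?_⟩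
      obtain ⟨τ, rfl⟩ := hsurj g
      rw [hρE]
      exact hP τ
  have hbound := card_group_le ρE h2 hinj hss (Finset.univ \ S) hH CB DB
    (fun g hg => by
      rw [Finset.mem_sdiff, hS', not_not] at hg
      exact hg.2)
    (fun g => by
      obtain ⟨z, hz, hz2⟩ := hdet g
      change dtG ρE g ∈ DB
      rw [hz2]
      exact Finset.mem_image_of_mem _ hz)
    (M := M) (n := D) Finset.card_image_le Finset.card_image_le
  have h6 : Fintype.card Gal(E/ℚ) ∣ ((M * M * (M * D)) ^ 4 + M * M * (M * D) * D * 2).factorial :=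
    Nat.dvd_factorial Fintype.card_pos hbound
  obtain ⟨t, ht⟩ := h6
  rw [ht, pow_mul, ← hρE σ, ← map_pow, pow_card_eq_one, map_one, one_pow]

end

end Fermat.Agent.DS
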