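import Fermat.Agent.DS.EqDist

/-!
# The homomorphism given by the norm modulo `m`
-/

set_option autoImplicit false
set_option linter.unusedSectionVars false
set_option linter.style.haveILetI false

open scoped Classical nonZeroDivisors Topology

namespace Fermat.Agent.DS

open NumberField Filter IsDedekindDomain Module Fermat.Agent.CFT Fermat.Agent.H03 Fermat.Agent.ZC

noncomputable section

variable {K : Type*} [Field K] [NumberField K]

theorem absNorm_coprime {I : Ideal (𝓞 K)} {n : ℕ}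
    (h : IsCoprime I (Ideal.span {(n : 𝓞 K)})) : (Ideal.absNorm I).Coprime n := by
  rw [Ideal.isCoprime_iff_exists] at h
  obtain ⟨a, ha, c, hc, hac⟩ := h
  obtain ⟨b, rfl⟩ := Ideal.mem_span_singleton'.mp hc
  by_contra hcop
  obtain ⟨q, hq, hq1, hq2⟩ := Nat.Prime.not_coprime_iff_dvd.mp hcop
  by_cases hI : I = ⊥
  · subst hI
    rw [Ideal.mem_bot] at ha
    subst ha
    rw [zero_add] at hac
    have hu : IsUnit ((n : ℕ) : 𝓞 K) := IsUnit.of_mul_eq_one b (by rw [mul_comm]; exact hac)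
    have h1 : Algebra.norm ℤ ((n : ℤ) : 𝓞 K) = (n : ℤ) ^ finrank ℤ (𝓞 K) := by
      rw [← eq_intCast (algebraMap ℤ (𝓞 K)), Algebra.norm_algebraMap]
    have h2 : IsUnit ((n : ℤ) ^ finrank ℤ (𝓞 K)) := by
      rw [← h1]
      refine IsUnit.map _ ?_
      exact_mod_cast hu
    have h3 : IsUnit (n : ℤ) := (isUnit_pow_iff (by
      rw [RingOfIntegers.rank]; exact finrank_pos.ne')).mp h2
    rw [Int.isUnit_iff] at h3
    have h4 : n = 1 := by omega
    rw [h4] at hq2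
    exact hq.one_lt.ne' (Nat.dvd_one.mp hq2)
  · haveI : Finite (𝓞 K ⧸ I) := Ideal.finiteQuotientOfFreeOfNeBot I hI
    haveI := Fintype.ofFinite (𝓞 K ⧸ I)
    haveI := Fact.mk hq
    have hcard : q ∣ Nat.card (𝓞 K ⧸ I) := by
      rwa [Ideal.absNorm_apply, Submodule.cardQuot_apply] at hq1
    obtain ⟨y, hy⟩ := exists_prime_addOrderOf_dvd_card' (G := 𝓞 K ⧸ I) q hcard
    have h1 : (n : 𝓞 K ⧸ I) * y = 0 := by
      rw [← nsmul_eq_mul]
      exact addOrderOf_dvd_iff_nsmul_eq_zero.mp (hy ▸ hq2)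
    have h2 : y = 0 := by
      have h3 : (1 : 𝓞 K ⧸ I) = Ideal.Quotient.mk I b * (n : 𝓞 K ⧸ I) := by
        rw [← map_one (Ideal.Quotient.mk I), ← hac, map_add, map_mul, map_natCast,
          Ideal.Quotient.eq_zero_iff_mem.mpr ha, zero_add]
      rw [← one_mul y, h3, mul_assoc, h1, mul_zero]
    rw [h2, addOrderOf_zero] at hy
    exact hq.one_lt.ne hy

theorem norm_one_mod {n : ℕ} {x : 𝓞 K} (hx : x - 1 ∈ Ideal.span {(n : 𝓞 K)}) :
    ((Algebra.norm ℤ x : ℤ) : ZMod n) = 1 := by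
  obtain ⟨y, hy⟩ := Ideal.mem_span_singleton'.mp hx
  have hx' : x = 1 + (n : ℤ) • y := by
    rw [zsmul_eq_mul]
    push_cast
    linear_combination -hy
  set b := Module.finBasis ℤ (𝓞 K) with hb
  rw [Algebra.norm_eq_matrix_det b, ← eq_intCast (Int.castRingHom (ZMod n)), RingHom.map_det]
  have : (Int.castRingHom (ZMod n)).mapMatrix (Algebra.leftMulMatrix b x) = 1 := by
    rw [hx', map_add, map_one, map_smul, map_add, map_one]
    ext i j
    rw [Matrix.add_apply, RingHom.mapMatrix_apply, Matrix.map_apply, Matrix.smul_apply]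
    simp
  rw [this, Matrix.det_one]

variable {m : ℕ} {C : Type*} [CommGroup C]

/-- the class of the norm modulo `m`. -/
def nmod (κ₀ : (ZMod m)ˣ →* C) (n : ℕ) : C :=
  if h : n.Coprime m then κ₀ (ZMod.unitOfCoprime n h) else 1

theorem nmod_mul (κ₀ : (ZMod m)ˣ →* C) {a b : ℕ} (ha : a.Coprime m) (hb : b.Coprime m) :
    nmod κ₀ (a * b) = nmod κ₀ a * nmod κ₀ b := by
  rw [nmod, nmod, nmod, dif_pos ha, dif_pos hb, dif_pos (Nat.Coprime.mul_left ha hb), ← map_mul]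
  congr 1
  ext
  simp

/-- **The norm homomorphism** -/
def normHom (κ₀ : (ZMod m)ˣ →* C) (hκ : κ₀ (-1) = 1) (D : ℕ) (hD : m ∣ D) :
    IdealHom (Ideal.span {(D : 𝓞 K)}) (Additive C) where
  toFun I := Additive.ofMul (nmod κ₀ (Ideal.absNorm I))
  map_mul I J _ _ hI' hJ' := by
    rw [map_mul, nmod_mul κ₀ ((absNorm_coprime hI').coprime_dvd_right hD)
      ((absNorm_coprime hJ').coprime_dvd_right hD), ofMul_mul]
  triv x _ hx1 := by
    have hx2 : x - 1 ∈ Ideal.span {(m : 𝓞 K)} := by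
      obtain ⟨k, rfl⟩ := hD
      refine (Ideal.span_singleton_le_span_singleton.mpr ?_) hx1
      exact ⟨(k : 𝓞 K), by push_cast; ring⟩
    have h1 := norm_one_mod hx2
    rw [Ideal.absNorm_span_singleton]
    have h2 : (((Algebra.norm ℤ x).natAbs : ℕ) : ZMod m) = 1 ∨
        (((Algebra.norm ℤ x).natAbs : ℕ) : ZMod m) = -1 := by
      rcases Int.natAbs_eq (Algebra.norm ℤ x) with h | h
      · left
        rw [h] at h1
        rw [← h1, Int.cast_natCast]
      · right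
        rw [h] at h1
        push_cast at h1
        rw [← h1]
        simp
    have h3 : ((Algebra.norm ℤ x).natAbs).Coprime m := by
      rw [← ZMod.isUnit_iff_coprime]
      rcases h2 with h | h
      · rw [h]; exact isUnit_one
      · rw [h]; exact isUnit_one.neg
    rw [nmod, dif_pos h3]
    rcases h2 with h | h
    · have : ZMod.unitOfCoprime _ h3 = 1 := by
        ext; rw [ZMod.coe_unitOfCoprime, h, Units.val_one]
      rw [this, map_one, ofMul_one]
    · have : ZMod.unitOfCoprime _ h3 = -1 := by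
        ext; rw [ZMod.coe_unitOfCoprime, h, Units.val_neg, Units.val_one]
      rw [this, hκ, ofMul_one]

theorem normHom_apply (κ₀ : (ZMod m)ˣ →* C) (hκ : κ₀ (-1) = 1) (D : ℕ) (hD : m ∣ D)
    (I : Ideal (𝓞 K)) :
    (normHom κ₀ hκ D hD).toFun I = Additive.ofMul (nmod κ₀ (Ideal.absNorm I)) := rfl

section range

variable {𝔪 : Ideal (𝓞 K)} {A : Type*} [AddCommGroup A] [Finite A] (c : IdealHom 𝔪 A)

theorem toFun_pow {I : Ideal (𝓞 K)} (hI : I ≠ ⊥) (hI' : IsCoprime I 𝔪) (k : ℕ) :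
    I ^ k ≠ ⊥ ∧ IsCoprime (I ^ k) 𝔪 ∧ c.toFun (I ^ k) = k • c.toFun I := by
  induction k with
  | zero =>
    rw [pow_zero, Ideal.one_eq_top, zero_nsmul]
    exact ⟨top_ne_bot, isCoprime_top, c.map_top⟩
  | succ k ih =>
    rw [pow_succ, succ_nsmul]
    exact ⟨mul_ne_zero ih.1 hI, ih.2.1.mul_left hI', by
      rw [c.map_mul _ _ ih.1 hI ih.2.1 hI', ih.2.2]⟩

/-- the range of an ideal homomorphism -/
def idRange : AddSubgroup A where
  carrier := {a | ∃ I : Ideal (𝓞 K), I ≠ ⊥ ∧ IsCoprime I 𝔪 ∧ c.toFun I = a}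
  zero_mem' := ⟨⊤, top_ne_bot, isCoprime_top, c.map_top⟩
  add_mem' := by
    rintro a b ⟨I, hI, hI', rfl⟩ ⟨J, hJ, hJ', rfl⟩
    exact ⟨I * J, mul_ne_zero hI hJ, hI'.mul_left hJ', c.map_mul I J hI hJ hI' hJ'⟩
  neg_mem' := by
    rintro a ⟨I, hI, hI', rfl⟩
    obtain ⟨h1, h2, h3⟩ := toFun_pow c hI hI' (Nat.card A - 1)
    refine ⟨_, h1, h2, ?_⟩
    rw [h3]
    have h4 : (Nat.card A - 1 + 1) • c.toFun I = 0 := by
      rw [Nat.sub_add_cancel Nat.card_pos]
      exact card_nsmul_eq_zero'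
    rw [succ_nsmul] at h4
    exact eq_neg_of_add_eq_zero_left h4

theorem mem_idRange {a : A} : a ∈ idRange c ↔
    ∃ I : Ideal (𝓞 K), I ≠ ⊥ ∧ IsCoprime I 𝔪 ∧ c.toFun I = a := Iff.rfl

/-- restriction of the codomain, the function -/
def restrFun (I : Ideal (𝓞 K)) : idRange c :=
  if h : I ≠ ⊥ ∧ IsCoprime I 𝔪 then ⟨c.toFun I, I, h.1, h.2, rfl⟩ else 0

theorem restrFun_coe {I : Ideal (𝓞 K)} (hI : I ≠ ⊥) (hI' : IsCoprime I 𝔪) :
    ((restrFun c I : idRange c) : A) = c.toFun I := by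
  rw [restrFun, dif_pos ⟨hI, hI'⟩]

theorem restrFun_zero {I : Ideal (𝓞 K)} (h : ¬ (I ≠ ⊥ ∧ IsCoprime I 𝔪)) :
    restrFun c I = 0 := by
  rw [restrFun, dif_neg h]

/-- restriction of the codomain -/
def restr : IdealHom 𝔪 (idRange c) where
  toFun := restrFun c
  map_mul I J hI hJ hI' hJ' := by
    apply Subtype.ext
    rw [AddSubgroup.coe_add, restrFun_coe c hI hI', restrFun_coe c hJ hJ',
      restrFun_coe c (mul_ne_zero hI hJ) (hI'.mul_left hJ'), c.map_mul I J hI hJ hI' hJ']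
  triv x hx hx' := by
    by_cases h : Ideal.span {x} ≠ ⊥ ∧ IsCoprime (Ideal.span {x}) 𝔪
    · apply Subtype.ext
      rw [restrFun_coe c h.1 h.2, c.triv x hx hx', AddSubgroup.coe_zero]
    · exact restrFun_zero c h

theorem restr_coe {I : Ideal (𝓞 K)} (hI : I ≠ ⊥) (hI' : IsCoprime I 𝔪) :
    (((restr c).toFun I : idRange c) : A) = c.toFun I := restrFun_coe c hI hI'

theorem restr_surj (a : idRange c) : ∃ I : Ideal (𝓞 K), I ≠ ⊥ ∧ IsCoprime I 𝔪 ∧
    (restr c).toFun I = a := by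
  obtain ⟨a, I, hI, hI', h⟩ := a
  exact ⟨I, hI, hI', Subtype.ext (by rw [restr_coe c hI hI']; exact h)⟩

/-- **Equidistribution in the range** when the size of the range is at least `n` and the kernel
has lower density at least `1/n`. -/
theorem exists_eqdist_range (h𝔪 : 𝔪 ≠ ⊥) {n : ℕ} (hn : Nat.card (idRange c) = n)
    (hlow : ∃ C : ℝ, ∀ᶠ s in 𝓝[>] (1 : ℝ), ell s - C ≤
      (n : ℝ) * psum K s (fun v => IsCoprime v.asIdeal 𝔪 ∧ c.toFun v.asIdeal = 0))
    {a : A} (ha : a ∈ idRange c) : ∃ C : ℝ, ∀ᶠ s in 𝓝[>] (1 : ℝ), 2 * ell s - C ≤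
      (n : ℝ) *
        (psum K s (fun v => Deg1 K v ∧ IsCoprime v.asIdeal 𝔪 ∧ c.toFun v.asIdeal = a) +
        psum K s (fun v => Deg1 K v ∧ IsCoprime v.asIdeal 𝔪 ∧ c.toFun v.asIdeal = -a)) := by
  have key : ∀ (v : HeightOneSpectrum (𝓞 K)) (b : idRange c),
      (IsCoprime v.asIdeal 𝔪 ∧ (restr c).toFun v.asIdeal = b) ↔
        (IsCoprime v.asIdeal 𝔪 ∧ c.toFun v.asIdeal = b) := by
    intro v b
    refine and_congr_right fun hv => ?_
    rw [← restr_coe c v.ne_bot hv]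
    exact Subtype.ext_iff
  have h := exists_eqdist (restr c) h𝔪 (restr_surj c) (by
    obtain ⟨C, hC⟩ := hlow
    refine ⟨C, ?_⟩
    filter_upwards [hC] with s hs
    rw [hn]
    have e : (fun v : HeightOneSpectrum (𝓞 K) =>
        IsCoprime v.asIdeal 𝔪 ∧ (restr c).toFun v.asIdeal = 0) =
        fun v => IsCoprime v.asIdeal 𝔪 ∧ c.toFun v.asIdeal = 0 := by
      funext v
      exact propext (key v 0)
    rw [e]
    exact hs) ⟨a, ha⟩
  obtain ⟨C, hC⟩ := h
  refine ⟨C, ?_⟩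
  filter_upwards [hC] with s hs
  rw [hn] at hs
  have e1 : (fun v : HeightOneSpectrum (𝓞 K) => Deg1 K v ∧
      IsCoprime v.asIdeal 𝔪 ∧ (restr c).toFun v.asIdeal = ⟨a, ha⟩) =
      fun v => Deg1 K v ∧ IsCoprime v.asIdeal 𝔪 ∧ c.toFun v.asIdeal = a := by
    funext v
    exact propext (and_congr_right fun _ => key v ⟨a, ha⟩)
  have e2 : (fun v : HeightOneSpectrum (𝓞 K) => Deg1 K v ∧
      IsCoprime v.asIdeal 𝔪 ∧ (restr c).toFun v.asIdeal = -⟨a, ha⟩) =
      fun v => Deg1 K v ∧ IsCoprime v.asIdeal 𝔪 ∧ c.toFun v.asIdeal = -a := by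
    funext v
    exact propext (and_congr_right fun _ => key v (-⟨a, ha⟩))
  rw [e1, e2] at hs
  exact hs

end range

end

end Fermat.Agent.DS
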