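import Fermat.Agent.DS.Kernel

/-!
# The representation in characteristic zero
-/

set_option autoImplicit false
set_option linter.unusedSectionVars false
set_option linter.style.haveILetI false

open scoped Classical Topology nonZeroDivisors

namespace Fermat.Agent.DS

open MvPolynomial Matrix

section

attribute [local instance] MvPolynomial.algebraMvPolynomial

variable {G : Type} [Group G] [Fintype G]

/-- the variables -/
abbrev VV (G : Type) : Type := G × Fin 2 × Fin 2

/-- generic matrices -/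
noncomputable def XM (R : Type) [CommRing R] (g : G) : Matrix (Fin 2) (Fin 2)
    (MvPolynomial (VV G) R) := Matrix.of fun i j => X (g, i, j)

/-- the ideal of the representation variety with given traces -/
noncomputable def JJ0 (t : G → OO) : Ideal (MvPolynomial (VV G) OO) :=
  Ideal.span ({f | ∃ g h i j, f = XM OO (g * h) i j - (XM OO g * XM OO h) i j} ∪
    {f | ∃ i j, f = XM OO (1 : G) i j - (1 : Matrix (Fin 2) (Fin 2) (MvPolynomial (VV G) OO)) i j} ∪
    {f | ∃ g, f = (XM OO g).trace - C (t g)})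

/-- evaluation at the entries of a representation -/
noncomputable def evR {k : Type} [Field k] (r : OO →+* k) (ρ : G → Matrix (Fin 2) (Fin 2) k) :
    MvPolynomial (VV G) OO →+* k := eval₂Hom r fun v => ρ v.1 v.2.1 v.2.2

theorem evR_XM {k : Type} [Field k] (r : OO →+* k) (ρ : G → Matrix (Fin 2) (Fin 2) k) (g : G)
    (i j : Fin 2) : evR r ρ (XM OO g i j) = ρ g i j := by
  rw [evR, XM, Matrix.of_apply, coe_eval₂Hom, eval₂_X]

theorem JJ0_le {t : G → OO} {k : Type} [Field k] (r : OO →+* k) (ρ : G →* GL (Fin 2) k)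
    (ht : ∀ g, trG ρ g = r (t g)) :
    JJ0 t ≤ RingHom.ker (evR r fun g => ((ρ g : GL (Fin 2) k) : Matrix (Fin 2) (Fin 2) k)) := by
  rw [JJ0, Ideal.span_le]
  rintro f ((⟨g, h, i, j, rfl⟩ | ⟨i, j, rfl⟩) | ⟨g, rfl⟩)
  · rw [SetLike.mem_coe, RingHom.mem_ker, map_sub, evR_XM, Matrix.mul_apply, map_sum]
    simp only [map_mul, evR_XM, Units.val_mul, Matrix.mul_apply]
    rw [sub_self]
  · rw [SetLike.mem_coe, RingHom.mem_ker, map_sub, evR_XM, map_one, Units.val_one]
    rw [Matrix.one_apply, Matrix.one_apply]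
    split_ifs <;> simp
  · rw [SetLike.mem_coe, RingHom.mem_ker, map_sub, Matrix.trace, map_sum]
    simp only [Matrix.diag_apply, evR_XM]
    have h1 := ht g
    rw [trG, Matrix.trace] at h1
    simp only [Matrix.diag_apply] at h1
    rw [h1, evR, coe_eval₂Hom, eval₂_C, sub_self]

theorem exists_char0 (t : G → OO)
    (h : ∀ n : ℕ, ∃ ℓ : ℕ, ℓ.Prime ∧ n < ℓ ∧ ∃ (B : ValuationSubring Qb)
      (_ : B.LiesOverPrime ℓ) (ρ : G →* GL (Fin 2) (IsLocalRing.ResidueField B)),
      ∀ g, trG ρ g = resO B (t g)) :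
    ∃ ρ : G →* GL (Fin 2) Qb, ∀ g, trG ρ g = t g := by
  haveI : IsFractionRing OO Qb := H05.isFractionRing_integralClosure (L := Qb)
  have hne : (JJ0 t).map (algebraMap (MvPolynomial (VV G) OO) (MvPolynomial (VV G) Qb)) ≠ ⊤ := by
    rw [IsLocalization.map_algebraMap_ne_top_iff_disjoint
      ((nonZeroDivisors OO).map (C (σ := VV G) : OO →+* MvPolynomial (VV G) OO))]
    rw [Set.disjoint_left]
    rintro _ ⟨c, hc, rfl⟩ hcJ
    have hc0 : c ≠ 0 := nonZeroDivisors.ne_zero hc
    obtain ⟨n, hn, h1⟩ := exists_norm hc0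
    obtain ⟨ℓ, hℓ, hnℓ, B, hB, ρ, hρ⟩ := h n
    have h2 := JJ0_le (resO B) ρ hρ hcJ
    rw [RingHom.mem_ker, evR, coe_eval₂Hom] at h2
    have h3 : resO B c = 0 := by
      rw [← h2]
      exact (eval₂_C _ _ _).symm
    have h4 := h1 ℓ hℓ B hB h3
    have := Nat.le_of_dvd (Nat.pos_of_ne_zero hn) h4
    omega
  obtain ⟨M, hM, hle⟩ := Ideal.exists_le_maximal _ hne
  obtain ⟨x, hx⟩ := eq_vanishingIdeal_singleton_of_isMaximal (K := Qb) hM
  have hz : ∀ f ∈ JJ0 t, aeval x (algebraMap (MvPolynomial (VV G) OO) (MvPolynomial (VV G) Qb) f)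
      = 0 := by
    intro f hf
    have h1 := hle (Ideal.mem_map_of_mem (algebraMap _ (MvPolynomial (VV G) Qb)) hf)
    rw [hx, mem_vanishingIdeal_singleton_iff] at h1
    exact h1
  have hev : ∀ f, aeval x (algebraMap (MvPolynomial (VV G) OO) (MvPolynomial (VV G) Qb) f) =
      evR (algebraMap OO Qb) (fun g => Matrix.of fun i j => x (g, i, j)) f := by
    intro f
    rw [evR, MvPolynomial.algebraMap_def, MvPolynomial.aeval_map_algebraMap, coe_eval₂Hom,
      MvPolynomial.aeval_def]
    rfl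
  let W : G → Matrix (Fin 2) (Fin 2) Qb := fun g => Matrix.of fun i j => x (g, i, j)
  have hW : ∀ f ∈ JJ0 t, evR (algebraMap OO Qb) W f = 0 := fun f hf => by
    rw [← hev f]; exact hz f hf
  have hmul : ∀ g h, W (g * h) = W g * W h := by
    intro g h
    ext i j
    have h1 := hW _ (Ideal.subset_span (Or.inl (Or.inl ⟨g, h, i, j, rfl⟩)))
    rw [map_sub, evR_XM, Matrix.mul_apply, map_sum] at h1
    simp only [map_mul, evR_XM] at h1
    rw [Matrix.mul_apply]
    exact sub_eq_zero.mp h1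
  have hone : W 1 = 1 := by
    ext i j
    have h1 := hW _ (Ideal.subset_span (Or.inl (Or.inr ⟨i, j, rfl⟩)))
    rw [map_sub, evR_XM, Matrix.one_apply] at h1
    rw [Matrix.one_apply, sub_eq_zero.mp h1]
    split_ifs <;> simp
  have htr : ∀ g, (W g).trace = t g := by
    intro g
    have h1 := hW _ (Ideal.subset_span (Or.inr ⟨g, rfl⟩))
    rw [map_sub, Matrix.trace, map_sum] at h1
    simp only [Matrix.diag_apply, evR_XM] at h1
    rw [Matrix.trace]
    simp only [Matrix.diag_apply]
    rw [sub_eq_zero.mp h1, evR, coe_eval₂Hom, eval₂_C]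
    rfl
  let WM : G →* Matrix (Fin 2) (Fin 2) Qb :=
    { toFun := W, map_one' := hone, map_mul' := hmul }
  refine ⟨WM.toHomUnits, fun g => ?_⟩
  rw [trG, MonoidHom.coe_toHomUnits]
  exact htr g

end

end Fermat.Agent.DS
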