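import Mathlib

/-!
# Parseval inequality for power series
-/

set_option autoImplicit false
set_option linter.style.haveILetI false

namespace Fermat.Agent.DS

open MeasureTheory AddCircle

theorem parseval_le {c : ℕ → ℂ} (hs : Summable fun n => ‖c n‖) {C : ℝ} (hC0 : 0 ≤ C)
    (hC : ∀ x : ℝ, ‖∑' n, c n * Complex.exp (2 * Real.pi * Complex.I * x) ^ n‖ ≤ C)
    (s : Finset ℕ) : ∑ n ∈ s, ‖c n‖ ^ 2 ≤ C ^ 2 := by
  haveI : Fact ((0 : ℝ) < 1) := ⟨one_pos⟩
  let F : ℕ → C(AddCircle (1 : ℝ), ℂ) := fun n => c n • fourier (n : ℤ)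
  have hF : Summable F := by
    refine Summable.of_norm_bounded hs fun n => ?_
    rw [norm_smul, fourier_norm, mul_one]
  set G : C(AddCircle (1 : ℝ), ℂ) := ∑' n, F n with hG
  have hGs : HasSum F G := hF.hasSum
  have hGnorm : ‖G‖ ≤ C := by
    rw [ContinuousMap.norm_le _ hC0]
    intro x
    induction x using QuotientAddGroup.induction_on with
    | H x =>
      have h1 : G (x : AddCircle (1 : ℝ)) = ∑' n, c n * Complex.exp (2 * Real.pi * Complex.I * x) ^ n := by
        have h2 : HasSum (fun n => (F n) (x : AddCircle (1 : ℝ))) (G x) :=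
          (ContinuousMap.evalCLM ℂ (x : AddCircle (1 : ℝ))).hasSum hGs
        rw [← h2.tsum_eq]
        refine tsum_congr fun n => ?_
        change c n * fourier (n : ℤ) (x : AddCircle (1 : ℝ)) = _
        rw [fourier_coe_apply, ← Complex.exp_nat_mul]
        congr 2
        push_cast
        ring
      have := hC x
      rw [← h1] at this
      exact this
  let T := ContinuousMap.toLp (E := ℂ) 2 (haarAddCircle (T := (1 : ℝ))) ℂ
  have hTn : ‖T‖ ≤ 1 := by
    refine (ContinuousMap.toLp_norm_le (μ := haarAddCircle (T := (1 : ℝ))) (p := 2)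
      (𝕜 := ℂ) (E := ℂ)).trans ?_
    have h1 : measureUnivNNReal (haarAddCircle (T := (1 : ℝ))) = 1 := by
      apply ENNReal.coe_injective
      rw [coe_measureUnivNNReal, measure_univ, ENNReal.coe_one]
    rw [h1]
    simp
  have hcoef : ∀ m : ℕ, inner ℂ (fourierLp (T := (1 : ℝ)) 2 (m : ℤ)) (T G) = c m := by
    intro m
    have h1 : HasSum (fun n => T (F n)) (T G) := T.hasSum hGs
    have h2 : HasSum (fun n => inner ℂ (fourierLp (T := (1 : ℝ)) 2 (m : ℤ)) (T (F n)))
        (inner ℂ (fourierLp (T := (1 : ℝ)) 2 (m : ℤ)) (T G)) :=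
      (innerSL ℂ (fourierLp (T := (1 : ℝ)) 2 (m : ℤ))).hasSum h1
    have h3 : ∀ n, inner ℂ (fourierLp (T := (1 : ℝ)) 2 (m : ℤ)) (T (F n)) =
        if n = m then c m else 0 := by
      intro n
      have h4 : T (F n) = c n • fourierLp (T := (1 : ℝ)) 2 (n : ℤ) := by
        rw [map_smul]
      rw [h4, inner_smul_right, (orthonormal_iff_ite.mp orthonormal_fourier)]
      by_cases h : n = m
      · subst h; simp
      · rw [if_neg (fun h' => h (Int.natCast_inj.mp h').symm), if_neg h, mul_zero]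
    rw [funext h3] at h2
    exact h2.unique (hasSum_ite_eq m (c m))
  have hTG : ‖T G‖ ≤ C := by
    refine (T.le_opNorm G).trans ?_
    have := norm_nonneg G
    nlinarith [norm_nonneg T]
  have hb := (orthonormal_fourier (T := (1 : ℝ))).sum_inner_products_le (T G)
    (s := s.map ⟨fun n : ℕ => (n : ℤ), Nat.cast_injective⟩)
  rw [Finset.sum_map] at hb
  have h5 : ∑ n ∈ s, ‖c n‖ ^ 2 ≤ ‖T G‖ ^ 2 := by
    refine le_trans (le_of_eq (Finset.sum_congr rfl fun n _ => ?_)) hb
    rw [← hcoef n]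
    rfl
  exact h5.trans (pow_le_pow_left₀ (norm_nonneg _) hTG 2)

end Fermat.Agent.DS
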