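import Fermat.Prelude.Def_FLTPrelim_Modularity
import Fermat.Agent.DS.Parseval
import Fermat.Agent.DS.Local

/-!
# Mean square of the coefficients of a weight one cusp form
-/

set_option autoImplicit false
set_option linter.style.haveILetI false

namespace Fermat.Agent.DS

open UpperHalfPlane CongruenceSubgroup ModularFormClass

variable {N : ℕ} [NeZero N]

theorem one_mem_strictPeriods :
    (1 : ℝ) ∈ ((Gamma1 N).map (Matrix.SpecialLinearGroup.mapGL ℝ)).strictPeriods := by
  rw [strictPeriods_Gamma1]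
  exact AddSubgroup.mem_zmultiples 1

theorem hasSum_f (f : CuspForm (Gamma1 N) 1) (τ : ℍ) :
    HasSum (fun n : ℕ => qCoeff f n * Complex.exp (2 * Real.pi * Complex.I * τ) ^ n) (f τ) := by
  have h := hasSum_qExpansion (h := 1) one_pos
    (SlashInvariantFormClass.periodic_comp_ofComplex f one_mem_strictPeriods)
    (ModularFormClass.holo f) (ModularFormClass.bdd_at_infty f) τ
  simpa [Function.Periodic.qParam, qCoeff] using h

theorem sum_sq_le (f : CuspForm (Gamma1 N) 1) : ∃ C : ℝ, 0 < C ∧ ∀ X : ℕ, 1 ≤ X →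
    ∑ n ∈ Finset.range (X + 1), ‖qCoeff f n‖ ^ 2 ≤ C * X := by
  obtain ⟨C₀, hC₀⟩ := CuspFormClass.exists_bound f
  have hC₀0 : 0 ≤ C₀ := by
    have h := (norm_nonneg _).trans (hC₀ UpperHalfPlane.I)
    simpa using h
  refine ⟨Real.exp (4 * Real.pi) * (C₀ ^ 2 + 1), by positivity, fun X hX => ?_⟩
  have hX0 : (0 : ℝ) < X := by exact_mod_cast hX
  set y : ℝ := 1 / X with hy
  have hy0 : 0 < y := by positivity
  set c : ℕ → ℂ := fun n => qCoeff f n * (Real.exp (-(2 * Real.pi * y)) : ℂ) ^ n with hc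
  have hcn : ∀ n, ‖c n‖ = ‖qCoeff f n‖ * Real.exp (-(2 * Real.pi * y)) ^ n := by
    intro n
    rw [hc]
    simp only [norm_mul, norm_pow]
    congr 2
    rw [Complex.norm_real, Real.norm_of_nonneg (Real.exp_pos _).le]
  have hval : ∀ x : ℝ, HasSum (fun n => c n * Complex.exp (2 * Real.pi * Complex.I * x) ^ n)
      (f ⟨x + y * Complex.I, by simpa using hy0⟩) := by
    intro x
    convert hasSum_f f ⟨x + y * Complex.I, by simpa using hy0⟩ using 2 with n
    rw [hc]
    simp only []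
    rw [mul_assoc, ← mul_pow, Complex.ofReal_exp, ← Complex.exp_add]
    congr 3
    change _ = 2 * (Real.pi : ℂ) * Complex.I * ((x : ℂ) + y * Complex.I)
    push_cast
    linear_combination (-2 * (Real.pi : ℂ) * y) * Complex.I_sq
  have hsum : Summable fun n => ‖c n‖ := by
    have h1 := (hval 0).summable.norm
    simpa using h1
  have hbound : ∀ x : ℝ, ‖∑' n, c n * Complex.exp (2 * Real.pi * Complex.I * x) ^ n‖ ≤
      C₀ * (X : ℝ) ^ (1 / 2 : ℝ) := by
    intro x
    rw [(hval x).tsum_eq]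
    refine (hC₀ _).trans (le_of_eq ?_)
    have him : (⟨x + y * Complex.I, by simpa using hy0⟩ : ℍ).im = y := by
      change ((x : ℂ) + y * Complex.I).im = y
      simp
    rw [him, hy, Int.cast_one, Real.div_rpow one_pos.le hX0.le, Real.one_rpow]
    field_simp
  have h2 := parseval_le hsum (by positivity) hbound (Finset.range (X + 1))
  rw [mul_pow, ← Real.rpow_natCast ((X : ℝ) ^ (1 / 2 : ℝ)), ← Real.rpow_mul hX0.le] at h2
  norm_num at h2
  have h3 : ∀ n ∈ Finset.range (X + 1), ‖qCoeff f n‖ ^ 2 ≤ Real.exp (4 * Real.pi) * ‖c n‖ ^ 2 := by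
    intro n hn
    rw [Finset.mem_range] at hn
    have hnX : (n : ℝ) ≤ X := by exact_mod_cast (by omega : n ≤ X)
    rw [hcn, mul_pow, ← pow_mul, ← Real.exp_nat_mul]
    have h4 : 1 ≤ Real.exp (4 * Real.pi) * Real.exp (((n * 2 : ℕ) : ℝ) * -(2 * Real.pi * y)) := by
      rw [← Real.exp_add]
      apply Real.one_le_exp
      push_cast
      have h5 : (n : ℝ) * y ≤ 1 := by
        rw [hy, mul_one_div, div_le_one hX0]
        exact hnX
      have := Real.pi_pos
      nlinarith
    have h6 : 0 ≤ ‖qCoeff f n‖ ^ 2 := by positivity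
    calc ‖qCoeff f n‖ ^ 2 = ‖qCoeff f n‖ ^ 2 * 1 := (mul_one _).symm
      _ ≤ ‖qCoeff f n‖ ^ 2 * (Real.exp (4 * Real.pi) *
          Real.exp (((n * 2 : ℕ) : ℝ) * -(2 * Real.pi * y))) :=
        mul_le_mul_of_nonneg_left h4 h6
      _ = _ := by ring
  calc ∑ n ∈ Finset.range (X + 1), ‖qCoeff f n‖ ^ 2 ≤
        ∑ n ∈ Finset.range (X + 1), Real.exp (4 * Real.pi) * ‖c n‖ ^ 2 := Finset.sum_le_sum h3
    _ = Real.exp (4 * Real.pi) * ∑ n ∈ Finset.range (X + 1), ‖c n‖ ^ 2 := by
        rw [Finset.mul_sum]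
    _ ≤ Real.exp (4 * Real.pi) * (C₀ ^ 2 * X) :=
        mul_le_mul_of_nonneg_left h2 (Real.exp_pos _).le
    _ ≤ _ := by
        rw [mul_assoc]
        refine mul_le_mul_of_nonneg_left ?_ (Real.exp_pos _).le
        nlinarith

end Fermat.Agent.DS
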