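import Fermat.Agent.DS.Irred
import Fermat.Agent.DS.Rankin
import Fermat.Agent.H23.W1.Main

/-!
# Deligne–Serre: from the mod `ℓ` representations to the complex representation
-/

set_option autoImplicit false
set_option linter.unusedSectionVars false
set_option linter.style.haveILetI false

open scoped Classical Topology MatrixGroups

namespace Fermat.Agent.DS

open NumberField Module IntermediateField Filter CongruenceSubgroup ModularFormClass

/-- algebraic numbers are in the range of an embedding of `Qb` -/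
theorem exists_preimage (ι : Qb →+* ℂ) {x : ℂ} (hx : IsIntegral ℚ x) : ∃ y : Qb, ι y = x := by
  have hsp : ((minpoly ℚ x).map (algebraMap ℚ Qb)).Splits := IsAlgClosed.splits _
  have h1 := hsp.image_rootSet (ι.toRatAlgHom)
  have h2 : x ∈ (minpoly ℚ x).rootSet ℂ := by
    rw [Polynomial.mem_rootSet]
    exact ⟨minpoly.ne_zero hx, minpoly.aeval ℚ x⟩
  rw [← h1] at h2
  obtain ⟨y, -, hy⟩ := h2
  exact ⟨y, hy⟩

/-- algebraic integers are in the range -/
theorem exists_preimage_int (ι : Qb →+* ℂ) {x : ℂ} (hx : IsIntegral ℤ x) :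
    ∃ y : OO, ι y = x := by
  obtain ⟨y, hy⟩ := exists_preimage ι (hx.tower_top (A := ℚ))
  have hy' : IsIntegral ℤ y := by
    rw [← hy] at hx
    exact (isIntegral_algHom_iff (ι.toIntAlgHom) ι.injective).mp hx
  exact ⟨⟨y, hy'⟩, hy⟩

variable {N : ℕ} [NeZero N]

/-- values of a Dirichlet character at primes not dividing `N` are roots of unity -/
theorem dirichlet_pow (ε : DirichletCharacter ℂ N) {p : ℕ} (hp : p.Prime) (hpN : ¬ p ∣ N) :
    ε (p : ZMod N) ^ Nat.card (ZMod N)ˣ = 1 := by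
  have hcop : p.Coprime N := (Nat.Prime.coprime_iff_not_dvd hp).mpr hpN
  obtain ⟨u, hu⟩ : ∃ u : (ZMod N)ˣ, (u : ZMod N) = p := ⟨ZMod.unitOfCoprime p hcop, rfl⟩
  rw [← hu, ← map_pow, ← Units.val_pow_eq_pow_val, pow_card_eq_one', Units.val_one, map_one]

/-- Rankin's bound for the conjugates -/
theorem rankinBd_conj (ε : DirichletCharacter ℂ N) {M : ℕ} [NeZero M] (hNM : N ∣ M)
    (f' g : CuspForm (Gamma1 M) 1) (σ : ℂ ≃+* ℂ) (hg : ∀ n, qCoeff g n = σ (qCoeff f' n))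
    (hf1 : qCoeff f' 1 = 1)
    (hT : ∀ p : ℕ, p.Prime → ¬ p ∣ M → ∀ n : ℕ, qCoeff f' (p * n) +
      ε (p : ZMod N) * (if p ∣ n then qCoeff f' (n / p) else 0) = qCoeff f' p * qCoeff f' n) :
    RankinBd M fun p => qCoeff g p := by
  let ε' : DirichletCharacter ℂ M :=
    (DirichletCharacter.changeLevel hNM ε).ringHomComp (σ : ℂ →+* ℂ)
  have hε' : ∀ p : ℕ, p.Prime → ¬ p ∣ M → ε' (p : ZMod M) = σ (ε (p : ZMod N)) := by
    intro p hp hpM
    have hcop : p.Coprime M := (Nat.Prime.coprime_iff_not_dvd hp).mpr hpM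
    change σ (DirichletCharacter.changeLevel hNM ε (p : ZMod M)) = _
    congr 1
    have h1 := DirichletCharacter.changeLevel_eq_cast_of_dvd ε hNM (ZMod.unitOfCoprime p hcop)
    rw [ZMod.coe_unitOfCoprime] at h1
    rw [h1, ZMod.cast_natCast hNM]
  obtain ⟨C, hC⟩ := rankin ε' g (by rw [hg, hf1, map_one]) (by
    intro p hp hpM n
    rw [hε' p hp hpM, hg, hg, hg, hg]
    have h1 := congrArg σ (hT p hp hpM n)
    rw [map_add, map_mul, map_mul] at h1
    rw [← h1]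
    congr 2
    split_ifs
    · rfl
    · rw [map_zero])
  exact ⟨C, fun s hs hs2 P hP => hC s hs hs2 P hP⟩

/-- **Deligne–Serre**, from the mod `ℓ` input -/
theorem s48_core (ε : DirichletCharacter ℂ N) (f : CuspForm (Gamma1 N) 1)
    (hf₁ : qCoeff f 1 = 1) (ι : Qb →+* ℂ)
    {M : ℕ} [NeZero M] (hNM : N ∣ M) (hpr : ∀ q : ℕ, q.Prime → q ∣ M → q ∣ N)
    (f' : CuspForm (Gamma1 M) 1) (hf' : ∀ n, qCoeff f' n = if n.Coprime N then qCoeff f n else 0)
    (hT' : ∀ p : ℕ, p.Prime → ¬ p ∣ M → ∀ n : ℕ, qCoeff f' (p * n) +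
      ε (p : ZMod N) * (if p ∣ n then qCoeff f' (n / p) else 0) = qCoeff f' p * qCoeff f' n)
    (hσ : ∀ σ : ℂ ≃+* ℂ, ∃ g : CuspForm (Gamma1 M) 1, ∀ n, qCoeff g n = σ (qCoeff f' n))
    (K : IntermediateField ℚ ℂ) (hKf : FiniteDimensional ℚ K) (hK : ∀ n, qCoeff f' n ∈ K)
    (a e : ℕ → OO) (ha : ∀ n, ι (a n) = qCoeff f' n)
    (he : ∀ p : ℕ, p.Prime → ¬ p ∣ M → ι (e p) = ε (p : ZMod N)) (hin : ModInput M a e) :
    ∃ ρ : GQ →* GL (Fin 2) ℂ, GaloisFactorsThroughFiniteLevel ρ ∧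
      (Deformation.matrixRepresentation ρ).IsIrreducible ∧
      ∀ p : ℕ, p.Prime → ¬ p ∣ N →
        ∀ A : ValuationSubring Qb, A.LiesOverPrime p →
          (∀ σ ∈ A.inertiaSubgroupIn ℚ, ρ σ = 1) ∧
          ∀ σ : GQ, A.IsFrobeniusAt σ p →
            ((ρ σ : GL (Fin 2) ℂ) : Matrix (Fin 2) (Fin 2) ℂ).trace = qCoeff f p ∧
            ((ρ σ : GL (Fin 2) ℂ) : Matrix (Fin 2) (Fin 2) ℂ).det = ε (p : ZMod N) := by
  have hN0 : N ≠ 0 := NeZero.ne N
  have hM0 : M ≠ 0 := NeZero.ne M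
  have hdiv : ∀ p : ℕ, p.Prime → ¬ p ∣ N → ¬ p ∣ M := fun p hp h h' => h (hpr p hp h')
  have hf'1 : qCoeff f' 1 = 1 := by
    rw [hf', if_pos (Nat.coprime_one_left N), hf₁]
  -- the number field
  let j : Qb →ₐ[ℚ] ℂ := ι.toRatAlgHom
  let K₀ : IntermediateField ℚ Qb := K.comap j
  have hmemK : ∀ x : Qb, x ∈ K₀ ↔ ι x ∈ K := fun x => Iff.rfl
  let jr : K₀ →ₐ[ℚ] K :=
    (j.comp K₀.val).codRestrict K.toSubalgebra fun x => (hmemK x).mp x.2
  have hjr : ∀ x : K₀, ((jr x : K) : ℂ) = ι x := fun x => rfl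
  have hjrinj : Function.Injective jr := jr.toRingHom.injective
  have hKfin : FiniteDimensional ℚ K₀ := Module.Finite.of_injective jr.toLinearMap hjrinj
  haveI hNF : NumberField K₀ := { to_charZero := inferInstance, to_finiteDimensional := hKfin }
  have hjrsurj : Function.Surjective jr := by
    rintro ⟨x, hx⟩
    have hxi : IsIntegral ℚ x := by
      have : IsIntegral ℚ (⟨x, hx⟩ : K) := Algebra.IsIntegral.isIntegral _
      exact this.map K.val
    obtain ⟨y, hy⟩ := exists_preimage ι hxi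
    exact ⟨⟨y, (hmemK y).mpr (by rw [hy]; exact hx)⟩, Subtype.ext hy⟩
  let je : K₀ ≃+* K := RingEquiv.ofBijective jr.toRingHom ⟨hjrinj, hjrsurj⟩
  have haK : ∀ n, ((a n : OO) : Qb) ∈ K₀ := fun n => (hmemK _).mpr (by rw [ha]; exact hK n)
  have hmain := ds_main (N := M) hM0 ι hin (n := Nat.card (ZMod N)ˣ) Nat.card_pos
    (fun p hp hpM => by
      have hpN : ¬ p ∣ N := fun h => hpM (h.trans hNM)
      apply Subtype.ext
      apply ι.injective
      have h1 := dirichlet_pow ε hp hpN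
      rw [← he p hp hpM] at h1
      push_cast
      rw [map_pow, h1, map_one])
    K₀ (fun n => ⟨a n, haK n⟩) (fun p _ _ => rfl) (by
      intro τ
      obtain ⟨σ, hσ1⟩ := H23.W1.exists_aut_extend K hKf (τ.comp je.symm.toRingHom)
      obtain ⟨g, hg⟩ := hσ σ
      have h1 := rankinBd_conj ε hNM f' g σ hg hf'1 hT'
      have h2 : (fun p => τ ⟨a p, haK p⟩) = fun p => qCoeff g p := by
        funext p
        have h3 : je ⟨a p, haK p⟩ = ⟨qCoeff f' p, hK p⟩ := Subtype.ext (ha p)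
        have h4 := hσ1 ⟨qCoeff f' p, hK p⟩
        rw [hg, h4, ← h3]
        change τ ⟨a p, haK p⟩ = τ (je.symm (je ⟨a p, haK p⟩))
        rw [RingEquiv.symm_apply_apply]
      rw [h2]
      exact h1)
  obtain ⟨ρ, h1, h2, h3⟩ := hmain
  refine ⟨ρ, h1, h2, fun p hp hpN A hA => ⟨(h3 p hp (hdiv p hp hpN) A hA).1, fun σ hσ => ?_⟩⟩
  obtain ⟨h4, h5⟩ := (h3 p hp (hdiv p hp hpN) A hA).2 σ hσ
  refine ⟨?_, ?_⟩
  · have h6 : qCoeff f' p = qCoeff f p := by
      rw [hf', if_pos ((Nat.Prime.coprime_iff_not_dvd hp).mpr hpN)]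
    rw [← h6, ← ha]
    exact h4
  · rw [← he p hp (hdiv p hp hpN)]
    exact h5

end Fermat.Agent.DS
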